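import Mathlib

/-!
# S05 project: shared definitions

Local theory of curves `Y² = X³ + a₂X² + a₄X` over a field `K` with a valuation subring `A`
(residue characteristic odd).  Valuations are Mathlib's multiplicative ones:
`A.valuation x ≤ 1 ↔ x ∈ A`, `A.valuation x < 1 ↔ x` in the maximal ideal.
-/

set_option autoImplicit false
open WeierstrassCurve WeierstrassCurve.Affine WeierstrassCurve.Affine.Point

namespace Fermat.Agent.S05x

variable {K : Type*} [Field K]

/-- `W` has the shape `Y² = X³ + a₂X² + a₄X`. -/
structure IsW2 (W : WeierstrassCurve K) : Prop where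
  a₁ : W.a₁ = 0
  a₃ : W.a₃ = 0
  a₆ : W.a₆ = 0

/-- Standing local hypotheses: shape `W2`, `2` is a unit of `A`, `a₂, a₄ ∈ A`. -/
structure LocHyp (A : ValuationSubring K) (W : WeierstrassCurve K) : Prop where
  w2 : IsW2 W
  two : A.valuation (2 : K) = 1
  a₂ : A.valuation W.a₂ ≤ 1
  a₄ : A.valuation W.a₄ ≤ 1

/-- Node hypotheses: additionally `a₂` is a unit and `a₄` is a nonzero nonunit
(the reduction `Y² = X²(X + a₂)` has a node at `(0,0)`). -/
structure NodeHyp (A : ValuationSubring K) (W : WeierstrassCurve K) : Prop where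
  loc : LocHyp A W
  a₂u : A.valuation W.a₂ = 1
  a₄m : A.valuation W.a₄ < 1
  a₄0 : W.a₄ ≠ 0

/-- Clipped size of an `x`-coordinate: `min 1 (max (v x) η)`.  (Additively: `max 0 (min (ord x) h)`.) -/
noncomputable def sz (A : ValuationSubring K) (η : A.ValueGroup) (x : K) : A.ValueGroup :=
  min 1 (max (A.valuation x) η)

/-- Reflection at `η`: `z` if `η ≤ z`, else `η² / z`. -/
noncomputable def rfl2 {Γ : Type*} [LinearOrderedCommGroupWithZero Γ] (η z : Γ) : Γ :=
  if η ≤ z then z else η ^ 2 / z

/-- Clipped size of a point (`1` at the origin), with `η = v(a₄)`. -/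
noncomputable def psz (A : ValuationSubring K) (W : WeierstrassCurve K) : W.toAffine.Point → A.ValueGroup
  | .zero => 1
  | .some x _ _ => sz A (A.valuation W.a₄) x

@[simp] theorem psz_zero (A : ValuationSubring K) (W : WeierstrassCurve K) :
    psz A W (0 : W.toAffine.Point) = 1 := rfl

@[simp] theorem psz_some (A : ValuationSubring K) (W : WeierstrassCurve K) {x y : K}
    (h : W.toAffine.Nonsingular x y) :
    psz A W (Point.some x y h) = sz A (A.valuation W.a₄) x := rfl

theorem sz_le_one (A : ValuationSubring K) (η : A.ValueGroup) (x : K) : sz A η x ≤ 1 :=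
  min_le_left _ _

theorem le_sz (A : ValuationSubring K) {η : A.ValueGroup} (hη : η ≤ 1) (x : K) : η ≤ sz A η x :=
  le_min hη (le_max_right _ _)

end Fermat.Agent.S05x
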