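import Mathlib
import Fermat.Prelude.Def_FLTPrelim_Ramification

/-!
# S05 project, module M0: unpacking the inertia hypothesis

* `inertia_facts` : an element `σ` of the inertia group of a valuation subring `A` of `Qbar`
  moves every element of `A` by an element of the maximal ideal;
* `val_int_le_one` : integers lie in `A`;
* `val_int_eq_one_iff` : if `A` lies over the prime `q`, an integer is a unit of `A` iff `q ∤ z`.
-/

set_option autoImplicit false

namespace Fermat.Agent.S05x

open ValuationSubring

/-- General form of `inertia_facts` (any Galois-type situation `L ≃ₐ[K] L`). -/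
theorem m0_inertia_facts_gen {K L : Type*} [Field K] [Field L] [Algebra K L]
    (A : ValuationSubring L) (σ : L ≃ₐ[K] L) (hσ : σ ∈ A.inertiaSubgroupIn K) :
    ∀ a : L, A.valuation a ≤ 1 → A.valuation (σ a - a) < 1 := by
  intro a ha
  obtain ⟨g, hg, rfl⟩ := hσ
  have ha' : a ∈ A := (A.valuation_le_one_iff a).mp ha
  -- `g` acts trivially on the residue field
  have hg1 : MulSemiringAction.toRingAut (A.decompositionSubgroup K)
      (IsLocalRing.ResidueField A) g = 1 := hg
  have hres : g • IsLocalRing.residue A ⟨a, ha'⟩ = IsLocalRing.residue A ⟨a, ha'⟩ := by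
    have := congrArg (fun φ : RingAut (IsLocalRing.ResidueField A) =>
      φ (IsLocalRing.residue A ⟨a, ha'⟩)) hg1
    simpa using this
  rw [← IsLocalRing.ResidueField.residue_smul, ← sub_eq_zero, ← map_sub,
    IsLocalRing.residue_eq_zero_iff, A.valuation_lt_one_iff] at hres
  exact hres

/-- An element of the inertia group moves every element of `A` by an element of the maximal
ideal. -/
theorem inertia_facts (A : ValuationSubring (AlgebraicClosure ℚ))
    (σ : AlgebraicClosure ℚ ≃ₐ[ℚ] AlgebraicClosure ℚ)
    (hσ : σ ∈ A.inertiaSubgroupIn ℚ) :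
    ∀ a : AlgebraicClosure ℚ, A.valuation a ≤ 1 → A.valuation (σ a - a) < 1 :=
  m0_inertia_facts_gen A σ hσ

/-- General form of `val_int_le_one`. -/
theorem m0_val_int_le_one_gen {L : Type*} [Field L] (A : ValuationSubring L) (z : ℤ) :
    A.valuation (z : L) ≤ 1 :=
  (A.valuation_le_one_iff _).mpr (intCast_mem A z)

theorem val_int_le_one (A : ValuationSubring (AlgebraicClosure ℚ)) (z : ℤ) :
    A.valuation (z : AlgebraicClosure ℚ) ≤ 1 :=
  m0_val_int_le_one_gen A z

/-- General form of `val_int_eq_one_iff`. -/
theorem m0_val_int_eq_one_iff_gen {L : Type*} [Field L] (A : ValuationSubring L) {q : ℕ}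
    (hq : q.Prime) (hA : A.LiesOverPrime q) (z : ℤ) :
    A.valuation (z : L) = 1 ↔ ¬ (q : ℤ) ∣ z := by
  have hqv : A.valuation (q : L) < 1 := A.mem_nonunits_iff.mp hA
  constructor
  · rintro h ⟨k, rfl⟩
    have h1 : A.valuation (((q : ℤ) * k : ℤ) : L) = A.valuation (q : L) * A.valuation (k : L) := by
      push_cast
      rw [map_mul]
    rw [h1] at h
    have h2 : A.valuation (q : L) * A.valuation (k : L) < 1 := by
      calc A.valuation (q : L) * A.valuation (k : L)
          ≤ A.valuation (q : L) * 1 := by
            gcongr
            exact m0_val_int_le_one_gen A k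
        _ = A.valuation (q : L) := mul_one _
        _ < 1 := hqv
    exact (ne_of_lt h2) h
  · intro h
    refine le_antisymm (m0_val_int_le_one_gen A z) ?_
    by_contra hlt
    rw [not_le] at hlt
    -- Bezout
    have hcop : IsCoprime (q : ℤ) z := by
      have hp : Prime (q : ℤ) := Nat.prime_iff_prime_int.mp hq
      exact (Prime.coprime_iff_not_dvd hp).mpr h
    obtain ⟨u, v, huv⟩ := hcop
    have h1 : ((u : L) * (q : L) + (v : L) * (z : L)) = 1 := by
      have := congrArg (fun t : ℤ => (t : L)) huv
      simpa using this
    have h2 : A.valuation ((u : L) * (q : L) + (v : L) * (z : L)) < 1 := by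
      refine lt_of_le_of_lt (A.valuation.map_add _ _) (max_lt ?_ ?_)
      · rw [map_mul]
        calc A.valuation (u : L) * A.valuation (q : L)
            ≤ 1 * A.valuation (q : L) := by
              gcongr
              exact m0_val_int_le_one_gen A u
          _ = A.valuation (q : L) := one_mul _
          _ < 1 := hqv
      · rw [map_mul]
        calc A.valuation (v : L) * A.valuation (z : L)
            ≤ 1 * A.valuation (z : L) := by
              gcongr
              exact m0_val_int_le_one_gen A v
          _ = A.valuation (z : L) := one_mul _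
          _ < 1 := hlt
    rw [h1, map_one] at h2
    exact lt_irrefl _ h2

theorem val_int_eq_one_iff (A : ValuationSubring (AlgebraicClosure ℚ)) {q : ℕ} (hq : q.Prime)
    (hA : A.LiesOverPrime q) (z : ℤ) :
    A.valuation (z : AlgebraicClosure ℚ) = 1 ↔ ¬ (q : ℤ) ∣ z :=
  m0_val_int_eq_one_iff_gen A hq hA z

end Fermat.Agent.S05x
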