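import Fermat.Statements.S05
import Fermat.Agent.S51x.VC
import Fermat.Agent.S05x.Defs
import Fermat.Agent.S05x.Inertia

/-!
# S05 project, module M10 (assembly, part 1)

`frey_unramified_of`: the frozen statement S05 follows from the local main theorem
(`LocalMainStmt`, i.e. `local_main` specialised to `K = AlgebraicClosure ℚ`).
The Frey curve is transported by `S51x.vcEquiv` to `Y² = X³ + a₂X² + a₄X`.
-/

set_option autoImplicit false
open WeierstrassCurve WeierstrassCurve.Affine WeierstrassCurve.Affine.Point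
open FreyPackage

namespace Fermat.Agent.S05x
open Fermat.Agent.S51x (Qbar vcEquiv vc_inv_nonsingular vcEquiv_symm_some')

noncomputable section

/-- The statement of `local_main` for `K = Qbar`. -/
def LocalMainStmt : Prop :=
  ∀ (A : ValuationSubring Qbar) {W : WeierstrassCurve Qbar} (_ : LocHyp A W)
    (τ : Qbar →+* Qbar)
    (_ : ∀ a : Qbar, A.valuation a ≤ 1 → A.valuation (τ a - a) < 1)
    {n : ℕ} (_ : n.Prime) (_ : n ≠ 2) (_ : A.valuation (n : Qbar) = 1)
    (_ : A.valuation (W.a₄ ^ 2 * (W.a₂ ^ 2 - 4 * W.a₄)) = 1 ∨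
      (NodeHyp A W ∧ (∃ c : Qbar, τ c = c ∧ A.valuation W.a₄ = A.valuation c ^ n) ∧
        ∃ β : Qbar, β ^ 2 = W.a₂))
    {x y : Qbar} (h : W.toAffine.Nonsingular x y) (h' : W.toAffine.Nonsingular (τ x) (τ y))
    (_ : n • Point.some x y h = 0) (_ : n • Point.some (τ x) (τ y) h' = 0),
    τ x = x ∧ τ y = y

/-- The Frey curve over `Qbar`. -/
abbrev freyQ (P : FreyPackage) : WeierstrassCurve Qbar := P.freyCurve⁄Qbar

/-- `a^p`, `b^p` in `Qbar`. -/
abbrev fA (P : FreyPackage) : Qbar := ((P.a : ℤ) : Qbar) ^ P.p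
abbrev fB (P : FreyPackage) : Qbar := ((P.b : ℤ) : Qbar) ^ P.p

theorem freyQ_a₁ (P : FreyPackage) : (freyQ P).a₁ = 1 := by
  simp [freyQ, WeierstrassCurve.baseChange, freyCurve]
theorem freyQ_a₂ (P : FreyPackage) : (freyQ P).a₂ = (fB P - 1 - fA P) / 4 := by
  simp [freyQ, WeierstrassCurve.baseChange, freyCurve, fA, fB]
theorem freyQ_a₃ (P : FreyPackage) : (freyQ P).a₃ = 0 := by
  simp [freyQ, WeierstrassCurve.baseChange, freyCurve]
theorem freyQ_a₄ (P : FreyPackage) : (freyQ P).a₄ = -(fA P) * fB P / 16 := by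
  simp [freyQ, WeierstrassCurve.baseChange, freyCurve, fA, fB]
theorem freyQ_a₆ (P : FreyPackage) : (freyQ P).a₆ = 0 := by
  simp [freyQ, WeierstrassCurve.baseChange, freyCurve]

/-- The variable change `X = 4x - 4r`, `Y = 8y + 4x - 4r`... -/
def fVC (r : Qbar) : VariableChange Qbar :=
  ⟨Units.mk0 (1 / 2) (by norm_num), r, -1 / 2, -r / 2⟩


theorem fVC_uinv (r : Qbar) : (((fVC r).u⁻¹ : Qbarˣ) : Qbar) = 2 := by
  simp [fVC]

theorem vcF_a₁ (P : FreyPackage) (r : Qbar) : (fVC r • freyQ P).a₁ = 0 := by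
  rw [variableChange_a₁, freyQ_a₁, fVC_uinv]; simp [fVC]; norm_num
theorem vcF_a₃ (P : FreyPackage) (r : Qbar) : (fVC r • freyQ P).a₃ = 0 := by
  rw [variableChange_a₃, freyQ_a₁, freyQ_a₃, fVC_uinv]; simp [fVC]; ring
theorem vcF_a₂ (P : FreyPackage) (r : Qbar) :
    (fVC r • freyQ P).a₂ = fB P - fA P + 12 * r := by
  rw [variableChange_a₂, freyQ_a₁, freyQ_a₂, fVC_uinv]; simp [fVC]; ring
theorem vcF_a₄ (P : FreyPackage) (r : Qbar) :
    (fVC r • freyQ P).a₄ = -(fA P * fB P) + 8 * r * (fB P - fA P) + 48 * r ^ 2 := by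
  rw [variableChange_a₄, freyQ_a₁, freyQ_a₂, freyQ_a₃, freyQ_a₄, fVC_uinv]; simp [fVC]; ring
theorem vcF_a₆ (P : FreyPackage) (r : Qbar) :
    (fVC r • freyQ P).a₆ = 64 * r * (-(fA P * fB P) / 16 + r * (fB P - fA P) / 4 + r ^ 2) := by
  rw [variableChange_a₆, freyQ_a₁, freyQ_a₂, freyQ_a₃, freyQ_a₄, freyQ_a₆, fVC_uinv]; simp [fVC]; ring


/-- general transport of the "fixed point" conclusion along a variable change with fixed
coefficients -/
theorem fixed_of_vc (C : VariableChange Qbar) (τ : Qbar →+* Qbar)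
    (hu : τ (C.u : Qbar) = C.u) (hr : τ C.r = C.r) (hs : τ C.s = C.s) (ht : τ C.t = C.t)
    {x y : Qbar}
    (hX : τ ((x - C.r) / (C.u : Qbar) ^ 2) = (x - C.r) / (C.u : Qbar) ^ 2)
    (hY : τ ((y - C.s * (x - C.r) - C.t) / (C.u : Qbar) ^ 3) =
      (y - C.s * (x - C.r) - C.t) / (C.u : Qbar) ^ 3) : τ x = x ∧ τ y = y := by
  have hu0 : (C.u : Qbar) ≠ 0 := C.u.ne_zero
  have hx : τ x = x := by
    rw [map_div₀, map_sub, map_pow, hu, hr] at hX
    have := (div_left_inj' (pow_ne_zero 2 hu0)).mp hX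
    linear_combination this
  refine ⟨hx, ?_⟩
  rw [map_div₀, map_sub, map_sub, map_mul, map_sub, map_pow, hu, hr, hs, ht, hx] at hY
  have := (div_left_inj' (pow_ne_zero 3 hu0)).mp hY
  linear_combination this

/-- torsion is transported -/
theorem torsion_of_vc (W : WeierstrassCurve Qbar) (C : VariableChange Qbar) (n : ℕ) {x y : Qbar}
    (h : W.toAffine.Nonsingular x y) (hP : n • Point.some x y h = 0) :
    n • Point.some _ _ (vc_inv_nonsingular W C h) = (0 : (C • W).toAffine.Point) := by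
  rw [← vcEquiv_symm_some' W C h, ← map_nsmul, hP, _root_.map_zero]


section Val
variable (A : ValuationSubring Qbar) {q : ℕ} (hq : q.Prime) (hA : A.LiesOverPrime q)
include hq hA

theorem val_int_lt_one_of_dvd {z : ℤ} (hz : (q : ℤ) ∣ z) : A.valuation (z : Qbar) < 1 :=
  lt_of_le_of_ne (val_int_le_one A z)
    (fun h => ((val_int_eq_one_iff A hq hA z).mp h) hz)

theorem val_intpow_eq_one {z : ℤ} (hz : ¬ (q : ℤ) ∣ z) (n : ℕ) :
    A.valuation ((z : Qbar) ^ n) = 1 := by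
  rw [map_pow, (val_int_eq_one_iff A hq hA z).mpr hz, one_pow]

theorem val_intpow_lt_one {z : ℤ} (hz : (q : ℤ) ∣ z) {n : ℕ} (hn : n ≠ 0) :
    A.valuation ((z : Qbar) ^ n) < 1 := by
  rw [map_pow]
  exact pow_lt_one₀ zero_le (val_int_lt_one_of_dvd A hq hA hz) hn

end Val


theorem frey_fixed_of_hyp (hLM : LocalMainStmt) (P : FreyPackage) (A : ValuationSubring Qbar) (σ : Qbar ≃ₐ[ℚ] Qbar)
    (hτ : ∀ a : Qbar, A.valuation a ≤ 1 → A.valuation (σ a - a) < 1) (r : Qbar) (hr : σ r = r)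
    (H : LocHyp A (fVC r • freyQ P)) {n : ℕ} (hn : n.Prime) (hn2 : n ≠ 2)
    (hnv : A.valuation (n : Qbar) = 1)
    (hred : A.valuation ((fVC r • freyQ P).a₄ ^ 2 *
        ((fVC r • freyQ P).a₂ ^ 2 - 4 * (fVC r • freyQ P).a₄)) = 1 ∨
      (NodeHyp A (fVC r • freyQ P) ∧
        (∃ c : Qbar, σ c = c ∧ A.valuation (fVC r • freyQ P).a₄ = A.valuation c ^ n) ∧
        ∃ β : Qbar, β ^ 2 = (fVC r • freyQ P).a₂))
    {x y : Qbar} (h : (freyQ P).toAffine.Nonsingular x y)
    (h' : (freyQ P).toAffine.Nonsingular (σ x) (σ y))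
    (hP : n • Point.some x y h = 0) (hQ : n • Point.some (σ x) (σ y) h' = 0) :
    σ x = x ∧ σ y = y := by
  have h2 : σ (2 : Qbar) = 2 := map_ofNat σ 2
  have hu : σ (((fVC r).u : Qbarˣ) : Qbar) = (fVC r).u := by
    simp [fVC, h2]
  have hs : σ (fVC r).s = (fVC r).s := by
    simp [fVC, h2]
  have ht : σ (fVC r).t = (fVC r).t := by
    simp [fVC, hr, h2]
  have hr' : σ (fVC r).r = (fVC r).r := hr
  -- the transported points
  have hP2 := torsion_of_vc (freyQ P) (fVC r) n h hP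
  have hQ2 := torsion_of_vc (freyQ P) (fVC r) n h' hQ
  have key : ∀ (X' Y' : Qbar) (h'' : (fVC r • freyQ P).toAffine.Nonsingular X' Y'),
      X' = (σ : Qbar →+* Qbar) ((x - (fVC r).r) / ((fVC r).u : Qbar) ^ 2) →
      Y' = (σ : Qbar →+* Qbar)
        ((y - (fVC r).s * (x - (fVC r).r) - (fVC r).t) / ((fVC r).u : Qbar) ^ 3) →
      n • Point.some X' Y' h'' = 0 →
      (σ : Qbar →+* Qbar) ((x - (fVC r).r) / ((fVC r).u : Qbar) ^ 2) =
        (x - (fVC r).r) / ((fVC r).u : Qbar) ^ 2 ∧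
      (σ : Qbar →+* Qbar)
        ((y - (fVC r).s * (x - (fVC r).r) - (fVC r).t) / ((fVC r).u : Qbar) ^ 3) =
        (y - (fVC r).s * (x - (fVC r).r) - (fVC r).t) / ((fVC r).u : Qbar) ^ 3 := by
    intro X' Y' h'' e1 e2 hQ3
    subst e1 e2
    exact hLM A H (σ : Qbar →+* Qbar) (by simpa using hτ) hn hn2 hnv
      (by simpa using hred) (vc_inv_nonsingular (freyQ P) (fVC r) h) h'' hP2 hQ3
  have e1 : (σ x - (fVC r).r) / ((fVC r).u : Qbar) ^ 2 =
      (σ : Qbar →+* Qbar) ((x - (fVC r).r) / ((fVC r).u : Qbar) ^ 2) := by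
    simp only [RingHom.coe_coe, map_div₀, map_sub, map_pow, hu, hr']
  have e2 : (σ y - (fVC r).s * (σ x - (fVC r).r) - (fVC r).t) / ((fVC r).u : Qbar) ^ 3 =
      (σ : Qbar →+* Qbar)
        ((y - (fVC r).s * (x - (fVC r).r) - (fVC r).t) / ((fVC r).u : Qbar) ^ 3) := by
    simp only [RingHom.coe_coe, map_div₀, map_sub, map_mul, map_pow, hu, hr', hs, ht]
  obtain ⟨k1, k2⟩ := key _ _ _ e1 e2 hQ2
  exact fixed_of_vc (fVC r) (σ : Qbar →+* Qbar) (by simpa using hu) (by simpa using hr')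
    (by simpa using hs) (by simpa using ht) k1 k2


abbrev fC (P : FreyPackage) : Qbar := ((P.c : ℤ) : Qbar) ^ P.p

theorem fA_add_fB (P : FreyPackage) : fA P + fB P = fC P := by
  have := congrArg (fun z : ℤ => (z : Qbar)) P.hFLT
  simpa [fA, fB, fC] using this

theorem not_dvd_of_gcd_eq_one {q : ℕ} (hq : q.Prime) {a b : ℤ} (h : gcd a b = 1)
    (ha : (q : ℤ) ∣ a) : ¬ (q : ℤ) ∣ b := by
  intro hb
  have h1 : (q : ℤ) ∣ gcd a b := dvd_gcd ha hb
  rw [h] at h1
  have h2 : q ∣ 1 := by exact_mod_cast h1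
  exact hq.one_lt.ne' (Nat.dvd_one.mp h2)

theorem gcd_comm' (a b : ℤ) : gcd a b = gcd b a := gcd_comm a b

theorem frey_point_fixed (hLM : LocalMainStmt) (P : FreyPackage) {q : ℕ} (hq : q.Prime) (hq2 : q ≠ 2) (hqp : q ≠ P.p)
    (A : ValuationSubring Qbar) (hA : A.LiesOverPrime q) (σ : Qbar ≃ₐ[ℚ] Qbar)
    (hτ : ∀ a : Qbar, A.valuation a ≤ 1 → A.valuation (σ a - a) < 1)
    {x y : Qbar} (h : (freyQ P).toAffine.Nonsingular x y)
    (h' : (freyQ P).toAffine.Nonsingular (σ x) (σ y))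
    (hP : P.p • Point.some x y h = 0) (hQ : P.p • Point.some (σ x) (σ y) h' = 0) :
    σ x = x ∧ σ y = y := by
  have hp0 : P.p ≠ 0 := P.hp0
  have hp2 : P.p ≠ 2 := by have := P.hp5; omega
  -- units
  have hv2 : A.valuation (2 : Qbar) = 1 := by
    have : ¬ (q : ℤ) ∣ (2 : ℤ) := by
      intro hd
      have hd' : q ∣ 2 := by exact_mod_cast hd
      exact hq2 ((Nat.prime_dvd_prime_iff_eq hq Nat.prime_two).mp hd')
    have := (val_int_eq_one_iff A hq hA 2).mpr this
    simpa using this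
  have hvp : A.valuation ((P.p : ℕ) : Qbar) = 1 := by
    have : ¬ (q : ℤ) ∣ ((P.p : ℕ) : ℤ) := by
      intro hd
      have hd' : q ∣ P.p := by exact_mod_cast hd
      exact hqp ((Nat.prime_dvd_prime_iff_eq hq P.pp).mp hd')
    have := (val_int_eq_one_iff A hq hA (P.p : ℕ)).mpr this
    simpa using this
  have hσint : ∀ z : ℤ, σ (z : Qbar) = z := fun z => map_intCast σ z
  have hσA : σ (fA P) = fA P := by simp [fA]
  have hσB : σ (fB P) = fB P := by simp [fB]
  have hσC : σ (fC P) = fC P := by simp [fC]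
  have hABC := fA_add_fB P
  have hAle : A.valuation (fA P) ≤ 1 := by
    rw [fA, map_pow]; exact pow_le_one₀ zero_le (val_int_le_one A _)
  have hBle : A.valuation (fB P) ≤ 1 := by
    rw [fB, map_pow]; exact pow_le_one₀ zero_le (val_int_le_one A _)
  have hCle : A.valuation (fC P) ≤ 1 := by
    rw [fC, map_pow]; exact pow_le_one₀ zero_le (val_int_le_one A _)
  have hA0 : fA P ≠ 0 := pow_ne_zero _ (by exact_mod_cast P.ha0)
  have hB0 : fB P ≠ 0 := pow_ne_zero _ (by exact_mod_cast P.hb0)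
  have hC0 : fC P ≠ 0 := pow_ne_zero _ (by exact_mod_cast P.hc0)
  obtain ⟨β0, hβ0⟩ := IsAlgClosed.exists_pow_nat_eq (fB P - fA P) (n := 2) (by norm_num)
  obtain ⟨β1, hβ1⟩ := IsAlgClosed.exists_pow_nat_eq (fA P + fC P) (n := 2) (by norm_num)
  by_cases hqc : (q : ℤ) ∣ P.c
  · -- node at `X = A`: shift
    have hqa : ¬ (q : ℤ) ∣ P.a := not_dvd_of_gcd_eq_one hq (by rw [gcd_comm']; exact P.hgcdac) hqc
    have hvA : A.valuation (fA P) = 1 := val_intpow_eq_one A hq hA hqa _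
    have hvC : A.valuation (fC P) < 1 := val_intpow_lt_one A hq hA hqc hp0
    have e2 : (fVC (fA P / 4) • freyQ P).a₂ = fA P + fC P := by
      rw [vcF_a₂, ← hABC]; ring
    have e4 : (fVC (fA P / 4) • freyQ P).a₄ = fA P * fC P := by
      rw [vcF_a₄, ← hABC]; ring
    have e6 : (fVC (fA P / 4) • freyQ P).a₆ = 0 := by
      rw [vcF_a₆]; ring
    have hr : σ (fA P / 4) = fA P / 4 := by
      rw [map_div₀, hσA, map_ofNat]
    have hloc : LocHyp A (fVC (fA P / 4) • freyQ P) :=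
      { w2 := ⟨vcF_a₁ P _, vcF_a₃ P _, e6⟩
        two := hv2
        a₂ := by rw [e2]; exact Valuation.map_add_le _ hAle hCle
        a₄ := by rw [e4, map_mul]; exact mul_le_one' hAle hCle }
    refine frey_fixed_of_hyp hLM P A σ hτ (fA P / 4) hr hloc P.pp hp2 hvp (Or.inr ⟨?_, ?_, ?_⟩)
      h h' hP hQ
    · refine ⟨hloc, ?_, ?_, ?_⟩
      · rw [e2, Valuation.map_add_eq_of_lt_left _ (by rw [hvA]; exact hvC), hvA]
      · rw [e4, map_mul, hvA, one_mul]; exact hvC
      · rw [e4]; exact mul_ne_zero hA0 hC0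
    · refine ⟨((P.a * P.c : ℤ) : Qbar), hσint _, ?_⟩
      rw [e4, ← map_pow]; congr 1; simp [fA, fC, mul_pow]
    · exact ⟨β1, by rw [e2]; exact hβ1⟩
  · have e2 : (fVC 0 • freyQ P).a₂ = fB P - fA P := by
      rw [vcF_a₂]; ring
    have e4 : (fVC 0 • freyQ P).a₄ = -(fA P * fB P) := by
      rw [vcF_a₄]; ring
    have e6 : (fVC 0 • freyQ P).a₆ = 0 := by
      rw [vcF_a₆]; ring
    have hloc : LocHyp A (fVC 0 • freyQ P) :=
      { w2 := ⟨vcF_a₁ P _, vcF_a₃ P _, e6⟩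
        two := hv2
        a₂ := by rw [e2]; exact Valuation.map_sub_le _ hBle hAle
        a₄ := by rw [e4, Valuation.map_neg, map_mul]; exact mul_le_one' hAle hBle }
    have hvC : A.valuation (fC P) = 1 := val_intpow_eq_one A hq hA hqc _
    by_cases hqa : (q : ℤ) ∣ P.a
    · have hqb : ¬ (q : ℤ) ∣ P.b := not_dvd_of_gcd_eq_one hq P.hgcdab hqa
      have hvA : A.valuation (fA P) < 1 := val_intpow_lt_one A hq hA hqa hp0
      have hvB : A.valuation (fB P) = 1 := val_intpow_eq_one A hq hA hqb _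
      refine frey_fixed_of_hyp hLM P A σ hτ 0 (map_zero σ) hloc P.pp hp2 hvp (Or.inr ⟨?_, ?_, ?_⟩)
        h h' hP hQ
      · refine ⟨hloc, ?_, ?_, ?_⟩
        · rw [e2, Valuation.map_sub_eq_of_lt_left _ (by rw [hvB]; exact hvA), hvB]
        · rw [e4, Valuation.map_neg, map_mul, hvB, mul_one]; exact hvA
        · rw [e4]; exact neg_ne_zero.mpr (mul_ne_zero hA0 hB0)
      · refine ⟨((P.a * P.b : ℤ) : Qbar), hσint _, ?_⟩
        rw [e4, Valuation.map_neg, ← map_pow]; congr 1; simp [fA, fB, mul_pow]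
      · exact ⟨β0, by rw [e2]; exact hβ0⟩
    · have hvA : A.valuation (fA P) = 1 := val_intpow_eq_one A hq hA hqa _
      by_cases hqb : (q : ℤ) ∣ P.b
      · have hvB : A.valuation (fB P) < 1 := val_intpow_lt_one A hq hA hqb hp0
        refine frey_fixed_of_hyp hLM P A σ hτ 0 (map_zero σ) hloc P.pp hp2 hvp
          (Or.inr ⟨?_, ?_, ?_⟩) h h' hP hQ
        · refine ⟨hloc, ?_, ?_, ?_⟩
          · rw [e2, Valuation.map_sub_eq_of_lt_right _ (by rw [hvA]; exact hvB), hvA]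
          · rw [e4, Valuation.map_neg, map_mul, hvA, one_mul]; exact hvB
          · rw [e4]; exact neg_ne_zero.mpr (mul_ne_zero hA0 hB0)
        · refine ⟨((P.a * P.b : ℤ) : Qbar), hσint _, ?_⟩
          rw [e4, Valuation.map_neg, ← map_pow]; congr 1; simp [fA, fB, mul_pow]
        · exact ⟨β0, by rw [e2]; exact hβ0⟩
      · have hvB : A.valuation (fB P) = 1 := val_intpow_eq_one A hq hA hqb _
        refine frey_fixed_of_hyp hLM P A σ hτ 0 (map_zero σ) hloc P.pp hp2 hvp (Or.inl ?_)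
          h h' hP hQ
        have : (fVC 0 • freyQ P).a₄ ^ 2 *
            ((fVC 0 • freyQ P).a₂ ^ 2 - 4 * (fVC 0 • freyQ P).a₄) =
            (fA P * fB P * fC P) ^ 2 := by
          rw [e2, e4, ← hABC]; ring
        rw [this, map_pow, map_mul, map_mul, hvA, hvB, hvC]; simp


/-- abstract reduction of the statement to coordinates -/
theorem unram_of_coord {K : Type*} [Field K] [DecidableEq K] [Algebra ℚ K]
    (E : WeierstrassCurve ℚ) (n : ℕ) (σ : K ≃ₐ[ℚ] K)
    (hcoord : ∀ {x y : K} (h : (E⁄K).Nonsingular x y) (h' : (E⁄K).Nonsingular (σ x) (σ y)),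
      n • Point.some x y h = 0 → n • Point.some (σ x) (σ y) h' = 0 → σ x = x ∧ σ y = y)
    (x : Submodule.torsionBy ℤ (E⁄K).Point n) : σ • x = x := by
  obtain ⟨x, hx⟩ := x
  apply Subtype.ext
  change σ • x = x
  rw [Submodule.mem_torsionBy_iff] at hx
  have hx' : n • x = 0 := by
    rw [← natCast_zsmul]; exact hx
  cases x with
  | zero => rfl
  | some x y h =>
    have h' : (E⁄K).Nonsingular (σ x) (σ y) :=
      (WeierstrassCurve.Affine.baseChange_nonsingular (W := E) (f := σ.toAlgHom)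
        σ.toAlgHom.injective ..).mpr h
    have he : σ • (Point.some x y h : (E⁄K).Point) = Point.some (σ x) (σ y) h' := rfl
    rw [he]
    have hQ : n • Point.some (σ x) (σ y) h' = 0 := by
      have := algEquiv_smul_zsmul (W' := E) (S := ℚ) (K := K) σ (n : ℤ) (Point.some x y h)
      have h0 : σ • (0 : (E⁄K).Point) = 0 := rfl
      rw [hx, h0, he, natCast_zsmul] at this
      exact this.symm
    obtain ⟨e1, e2⟩ := hcoord h h' hx' hQ
    simp only [Point.some.injEq]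
    exact ⟨e1, e2⟩

theorem frey_unramified_of (hLM : LocalMainStmt) (P : FreyPackage) {q : ℕ} (hq : q.Prime) (hq2 : q ≠ 2) (hqp : q ≠ P.p) :
    P.GaloisRepUnramifiedAt q := by
  unfold FreyPackage.GaloisRepUnramifiedAt WeierstrassCurve.Affine.Point.GaloisRepUnramifiedAt
  intro A hA σ hσ x
  have hτ := inertia_facts A σ hσ
  refine unram_of_coord P.freyCurve P.p σ ?_ x
  intro x y h h' hP hQ
  exact frey_point_fixed hLM P hq hq2 hqp A hA σ hτ h h' hP hQ

end

end Fermat.Agent.S05x
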