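import Fermat.Agent.S05x.Defs

/-!
# S05 project, module M9_LOCAL: the local main theorem

`local_main_of` glues the three local inputs (M3 `torsion_x_integral`, M7 `node_fixed`,
M8 `smooth_fixed`), which it takes as explicit hypotheses.
-/

set_option autoImplicit false
open WeierstrassCurve WeierstrassCurve.Affine WeierstrassCurve.Affine.Point

namespace Fermat.Agent.S05x

variable {K : Type*} [Field K]

/-! ### small valuation lemmas -/

section val

variable (A : ValuationSubring K)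

lemma m9_mul_le_one {a b : K} (ha : A.valuation a ≤ 1) (hb : A.valuation b ≤ 1) :
    A.valuation (a * b) ≤ 1 := by
  rw [map_mul]; exact mul_le_one' ha hb

lemma m9_pow_le_one {a : K} (ha : A.valuation a ≤ 1) (k : ℕ) : A.valuation (a ^ k) ≤ 1 := by
  rw [map_pow]; exact pow_le_one' ha k

lemma m9_add_le_one {a b : K} (ha : A.valuation a ≤ 1) (hb : A.valuation b ≤ 1) :
    A.valuation (a + b) ≤ 1 := Valuation.map_add_le _ ha hb

lemma m9_sub_le_one {a b : K} (ha : A.valuation a ≤ 1) (hb : A.valuation b ≤ 1) :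
    A.valuation (a - b) ≤ 1 := Valuation.map_sub_le _ ha hb

lemma m9_mul_lt_one_right {a b : K} (ha : A.valuation a ≤ 1) (hb : A.valuation b < 1) :
    A.valuation (a * b) < 1 := by
  rw [map_mul]
  exact Right.mul_lt_one_of_le_of_lt ha hb

lemma m9_mul_lt_one_left {a b : K} (ha : A.valuation a < 1) (hb : A.valuation b ≤ 1) :
    A.valuation (a * b) < 1 := by
  rw [mul_comm]; exact m9_mul_lt_one_right A hb ha

lemma m9_add_lt_one {a b : K} (ha : A.valuation a < 1) (hb : A.valuation b < 1) :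
    A.valuation (a + b) < 1 := Valuation.map_add_lt _ ha hb

lemma m9_sub_lt_one {a b : K} (ha : A.valuation a < 1) (hb : A.valuation b < 1) :
    A.valuation (a - b) < 1 := Valuation.map_sub_lt _ ha hb

lemma m9_natCast_le_one (k : ℕ) : A.valuation (k : K) ≤ 1 := by
  have : (k : K) ∈ A := natCast_mem A k
  exact (A.valuation_le_one_iff _).mpr this

lemma m9_le_one_of_sq_le_one {a : K} (ha : A.valuation (a ^ 2) ≤ 1) : A.valuation a ≤ 1 := by
  rw [map_pow] at ha
  by_contra h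
  rw [not_le] at h
  have : 1 < A.valuation a ^ 2 := one_lt_pow₀ h (by norm_num)
  exact absurd ha (not_le.mpr this)

/-- if `a ≡ b` modulo the maximal ideal and `b` is a unit then `a` is a unit -/
lemma m9_eq_one_of_sub_lt {a b : K} (hb : A.valuation b = 1) (hab : A.valuation (a - b) < 1) :
    A.valuation a = 1 := by
  have : a = b + (a - b) := by ring
  rw [this, Valuation.map_add_eq_of_lt_left _ (by rw [hb]; exact hab), hb]

end val

/-! ### the local main theorem, given the three local inputs -/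

section main

variable [DecidableEq K] (A : ValuationSubring K) {W : WeierstrassCurve K}

omit [DecidableEq K] in
/-- The Bezout identity `disc F = U·F + V·F'` for `F = x³ + a₂x² + a₄x`. -/
lemma m9_bezout (a2 a4 x : K) :
    a4 ^ 2 * (a2 ^ 2 - 4 * a4) =
      (-(6 * a2 ^ 2 - 18 * a4) * x - (4 * a2 ^ 3 - 15 * a2 * a4)) * (x ^ 3 + a2 * x ^ 2 + a4 * x) +
      ((2 * a2 ^ 2 - 6 * a4) * x ^ 2 + (2 * a2 ^ 3 - 7 * a2 * a4) * x + (a2 ^ 2 * a4 - 4 * a4 ^ 2)) *
        (3 * x ^ 2 + 2 * a2 * x + a4) := by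
  ring

/-- **Local main theorem**, with M3 (`hM3`), M7 (`hM7`) and M8 (`hM8`) as explicit hypotheses. -/
theorem local_main_of (H : LocHyp A W) (τ : K →+* K)
    (hτ : ∀ a : K, A.valuation a ≤ 1 → A.valuation (τ a - a) < 1)
    {n : ℕ}
    (hM3 : ∀ {x y : K} (h : W.toAffine.Nonsingular x y),
      n • Point.some x y h = 0 → A.valuation x ≤ 1)
    (hM7 : NodeHyp A W → ∀ c : K, τ c = c → A.valuation W.a₄ = A.valuation c ^ n →
      ∀ β : K, β ^ 2 = W.a₂ →
      ∀ {x y : K} (h : W.toAffine.Nonsingular x y) (h' : W.toAffine.Nonsingular (τ x) (τ y)),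
        n • Point.some x y h = 0 → n • Point.some (τ x) (τ y) h' = 0 → A.valuation x < 1 →
        τ x = x ∧ τ y = y)
    (hM8 : ∀ {x y x' y' : K} (h : W.toAffine.Nonsingular x y)
      (h' : W.toAffine.Nonsingular x' y'),
      n • Point.some x y h = 0 → n • Point.some x' y' h' = 0 → A.valuation x ≤ 1 →
      A.valuation (x' - x) < 1 → A.valuation (y' - y) < 1 →
      (A.valuation y = 1 ∨ A.valuation (3 * x ^ 2 + 2 * W.a₂ * x + W.a₄) = 1) →
      x' = x ∧ y' = y)
    (hred : A.valuation (W.a₄ ^ 2 * (W.a₂ ^ 2 - 4 * W.a₄)) = 1 ∨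
      (NodeHyp A W ∧ (∃ c : K, τ c = c ∧ A.valuation W.a₄ = A.valuation c ^ n) ∧
        ∃ β : K, β ^ 2 = W.a₂))
    {x y : K} (h : W.toAffine.Nonsingular x y) (h' : W.toAffine.Nonsingular (τ x) (τ y))
    (hP : n • Point.some x y h = 0) (hQ : n • Point.some (τ x) (τ y) h' = 0) :
    τ x = x ∧ τ y = y := by
  have hW := H.w2
  have hx1 : A.valuation x ≤ 1 := hM3 h hP
  -- the equation of the curve
  have heq : y ^ 2 = x ^ 3 + W.a₂ * x ^ 2 + W.a₄ * x := by
    have h1 := h.1
    rw [Affine.equation_iff] at h1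
    simp only [hW.a₁, hW.a₃, hW.a₆] at h1
    linear_combination h1
  -- integrality
  have hxA : x ∈ A := (A.valuation_le_one_iff x).mp hx1
  have ha2A : W.a₂ ∈ A := (A.valuation_le_one_iff _).mp H.a₂
  have ha4A : W.a₄ ∈ A := (A.valuation_le_one_iff _).mp H.a₄
  have hy1 : A.valuation y ≤ 1 := by
    apply m9_le_one_of_sq_le_one A
    rw [heq, A.valuation_le_one_iff]
    exact add_mem (add_mem (pow_mem hxA 3) (mul_mem ha2A (pow_mem hxA 2))) (mul_mem ha4A hxA)
  have hF'A : 3 * x ^ 2 + 2 * W.a₂ * x + W.a₄ ∈ A :=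
    add_mem (add_mem (mul_mem (ofNat_mem A 3) (pow_mem hxA 2))
      (mul_mem (mul_mem (ofNat_mem A 2) ha2A) hxA)) ha4A
  have hF'1 : A.valuation (3 * x ^ 2 + 2 * W.a₂ * x + W.a₄) ≤ 1 :=
    (A.valuation_le_one_iff _).mpr hF'A
  have hτx := hτ x hx1
  have hτy := hτ y hy1
  rcases hred with hgood | ⟨hnode, ⟨c, hc, hca⟩, β, hβ⟩
  · -- good reduction: the reduction is nonsingular by the Bezout identity
    apply hM8 h h' hP hQ hx1 hτx hτy
    by_contra hcon
    rw [not_or] at hcon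
    have hy_lt : A.valuation y < 1 := lt_of_le_of_ne hy1 hcon.1
    have hF_lt : A.valuation (3 * x ^ 2 + 2 * W.a₂ * x + W.a₄) < 1 := lt_of_le_of_ne hF'1 hcon.2
    have hUA : -(6 * W.a₂ ^ 2 - 18 * W.a₄) * x - (4 * W.a₂ ^ 3 - 15 * W.a₂ * W.a₄) ∈ A :=
      sub_mem (mul_mem (neg_mem (sub_mem (mul_mem (ofNat_mem A 6) (pow_mem ha2A 2))
        (mul_mem (ofNat_mem A 18) ha4A))) hxA)
        (sub_mem (mul_mem (ofNat_mem A 4) (pow_mem ha2A 3))
          (mul_mem (mul_mem (ofNat_mem A 15) ha2A) ha4A))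
    have hVA : (2 * W.a₂ ^ 2 - 6 * W.a₄) * x ^ 2 + (2 * W.a₂ ^ 3 - 7 * W.a₂ * W.a₄) * x +
        (W.a₂ ^ 2 * W.a₄ - 4 * W.a₄ ^ 2) ∈ A :=
      add_mem (add_mem (mul_mem (sub_mem (mul_mem (ofNat_mem A 2) (pow_mem ha2A 2))
        (mul_mem (ofNat_mem A 6) ha4A)) (pow_mem hxA 2))
        (mul_mem (sub_mem (mul_mem (ofNat_mem A 2) (pow_mem ha2A 3))
          (mul_mem (mul_mem (ofNat_mem A 7) ha2A) ha4A)) hxA))
        (sub_mem (mul_mem (pow_mem ha2A 2) ha4A) (mul_mem (ofNat_mem A 4) (pow_mem ha4A 2)))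
    have hy2_lt : A.valuation (x ^ 3 + W.a₂ * x ^ 2 + W.a₄ * x) < 1 := by
      rw [← heq, pow_two]
      exact m9_mul_lt_one_left A hy_lt hy1
    have hlt : A.valuation (W.a₄ ^ 2 * (W.a₂ ^ 2 - 4 * W.a₄)) < 1 := by
      rw [m9_bezout W.a₂ W.a₄ x]
      exact m9_add_lt_one A
        (m9_mul_lt_one_right A ((A.valuation_le_one_iff _).mpr hUA) hy2_lt)
        (m9_mul_lt_one_right A ((A.valuation_le_one_iff _).mpr hVA) hF_lt)
    exact absurd hgood (ne_of_lt hlt)
  · -- nodal reduction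
    rcases lt_or_eq_of_le hx1 with hxlt | hxeq
    · exact hM7 hnode c hc hca β hβ h h' hP hQ hxlt
    · apply hM8 h h' hP hQ hx1 hτx hτy
      by_cases hyu : A.valuation y = 1
      · exact Or.inl hyu
      · right
        have hy_lt : A.valuation y < 1 := lt_of_le_of_ne hy1 hyu
        have hq : A.valuation (x ^ 2 + W.a₂ * x + W.a₄) < 1 := by
          have e : x * (x ^ 2 + W.a₂ * x + W.a₄) = y * y := by rw [← pow_two, heq]; ring
          have e2 := congrArg A.valuation e
          rw [map_mul, hxeq, one_mul] at e2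
          rw [e2]
          exact m9_mul_lt_one_left A hy_lt hy1
        apply m9_eq_one_of_sub_lt A (b := x ^ 2) (by rw [map_pow, hxeq, one_pow])
        have e : 3 * x ^ 2 + 2 * W.a₂ * x + W.a₄ - x ^ 2 =
            2 * (x ^ 2 + W.a₂ * x + W.a₄) - W.a₄ := by ring
        rw [e]
        exact m9_sub_lt_one A
          (m9_mul_lt_one_right A ((A.valuation_le_one_iff _).mpr (ofNat_mem A 2)) hq) hnode.a₄m

end main

end Fermat.Agent.S05x
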