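import Fermat.Agent.S05x.Ident

/-!
# S05 project, module M7 (core): torsion points reducing to the node are fixed by inertia

`node_fixed_of` takes the two inputs M3 (`torsion_x_integral`) and M6 (`psz_pow_mem`) as explicit
hypotheses; `Node.lean` instantiates them.
-/

set_option autoImplicit false
open WeierstrassCurve WeierstrassCurve.Affine WeierstrassCurve.Affine.Point

namespace Fermat.Agent.S05x

section ValueGroup

variable {Γ : Type*} [LinearOrderedCommGroupWithZero Γ]

/-- an element `< 1` of the value group has no nonzero integer power equal to `1` -/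
theorem m7_zpow_ne_one {η : Γ} (h0 : η ≠ 0) (h1 : η < 1) {k : ℤ} (hk : k ≠ 0) : η ^ k ≠ 1 := by
  have hpos : 0 < η := zero_lt_iff.2 h0
  rcases lt_or_gt_of_ne hk with hneg | hpos'
  · have h2 : η ^ (-k) < 1 := zpow_lt_one₀ hpos h1 (by omega)
    rw [zpow_neg] at h2
    intro h3
    rw [h3, inv_one] at h2
    exact lt_irrefl _ h2
  · exact (zpow_lt_one₀ hpos h1 hpos').ne

theorem m7_pow_ne_zpow_two_mul {η : Γ} (h0 : η ≠ 0) (h1 : η < 1) {n : ℕ} (hodd : Odd n) (m : ℤ) :
    η ^ n ≠ η ^ (2 * m) := by
  intro h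
  have hk : (n : ℤ) - 2 * m ≠ 0 := by
    obtain ⟨r, hr⟩ := hodd
    omega
  apply m7_zpow_ne_one h0 h1 hk
  rw [zpow_sub₀ h0, zpow_natCast, h, div_self (zpow_ne_zero _ h0)]

theorem m7_eq_of_pow_eq {a b : Γ} {n : ℕ} (hn : n ≠ 0) (h : a ^ n = b ^ n) : a = b :=
  (pow_left_inj₀ zero_le zero_le hn).1 h

end ValueGroup

section Local

variable {K : Type*} [Field K] [DecidableEq K] (A : ValuationSubring K) {W : WeierstrassCurve K}

/-- points reducing to the node, with the inputs M3 and M6 as hypotheses -/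
theorem node_fixed_of (H : NodeHyp A W) (τ : K →+* K)
    (hτ : ∀ a : K, A.valuation a ≤ 1 → A.valuation (τ a - a) < 1)
    {n : ℕ} (hn : n.Prime) (hn2 : n ≠ 2)
    (hM3 : ∀ {x y : K} (h : W.toAffine.Nonsingular x y),
      n • Point.some x y h = 0 → A.valuation x ≤ 1)
    (hM6 : ∀ P : W.toAffine.Point, n • P = 0 →
      ∃ m : ℤ, psz A W P ^ n = A.valuation W.a₄ ^ (2 * m))
    (c : K) (hc : τ c = c) (hca : A.valuation W.a₄ = A.valuation c ^ n)
    {x y : K} (h : W.toAffine.Nonsingular x y) (h' : W.toAffine.Nonsingular (τ x) (τ y))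
    (hP : n • Point.some x y h = 0) (hQ : n • Point.some (τ x) (τ y) h' = 0)
    (hx : A.valuation x < 1) : τ x = x ∧ τ y = y := by
  classical
  have hη1 : A.valuation W.a₄ < 1 := H.a₄m
  have hη0 : A.valuation W.a₄ ≠ 0 := (Valuation.ne_zero_iff _).2 H.a₄0
  have hodd : Odd n := (hn.eq_two_or_odd').resolve_left hn2
  have hn0 : n ≠ 0 := hn.ne_zero
  -- Step 1: the sawtooth lemma pins down `v x`
  obtain ⟨m, hm⟩ := hM6 (Point.some x y h) hP
  rw [psz_some] at hm
  have hsz : sz A (A.valuation W.a₄) x = max (A.valuation x) (A.valuation W.a₄) := by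
    unfold sz
    exact min_eq_right (max_le hx.le hη1.le)
  rw [hsz] at hm
  have hlt : A.valuation W.a₄ < A.valuation x := by
    by_contra hle
    rw [not_lt] at hle
    rw [max_eq_right hle] at hm
    exact m7_pow_ne_zpow_two_mul hη0 hη1 hodd m hm
  rw [max_eq_left hlt.le] at hm
  have hvx0 : A.valuation x ≠ 0 := (lt_of_le_of_lt zero_le hlt).ne'
  have hx0 : x ≠ 0 := (Valuation.ne_zero_iff _).1 hvx0
  have hvc0 : A.valuation c ≠ 0 := by
    intro h0
    rw [h0, zero_pow hn0] at hca
    exact hη0 hca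
  have hc0 : c ≠ 0 := (Valuation.ne_zero_iff _).1 hvc0
  have hvx : A.valuation x = A.valuation (c ^ (2 * m)) := by
    rw [map_zpow₀]
    apply m7_eq_of_pow_eq hn0
    rw [hm, hca, ← zpow_natCast, ← zpow_natCast, ← zpow_mul, ← zpow_mul, mul_comm]
  -- `x = u * c ^ (2m)` with `u` a unit
  have hcm0 : c ^ (2 * m) ≠ 0 := zpow_ne_zero _ hc0
  have hvcm0 : A.valuation (c ^ (2 * m)) ≠ 0 := (Valuation.ne_zero_iff _).2 hcm0
  have hu : A.valuation (x / c ^ (2 * m)) = 1 := by
    rw [map_div₀, hvx, div_self hvcm0]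
  have hτu : τ (x / c ^ (2 * m)) = τ x / c ^ (2 * m) := by
    rw [map_div₀, map_zpow₀, hc]
  have hdx : A.valuation (τ x - x) < A.valuation x := by
    have h1 := hτ _ hu.le
    rw [hτu, ← sub_div, map_div₀, ← hvx] at h1
    exact (div_lt_one₀ (zero_lt_iff.2 hvx0)).1 h1
  have hvx' : A.valuation (τ x) = A.valuation x := by
    have : τ x = x + (τ x - x) := by ring
    rw [this]
    exact Valuation.map_add_eq_of_lt_left _ hdx
  -- Step 2: `t = y / x` is a unit with `t² = a₂ + μ`, `μ` in the maximal ideal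
  have heq : y ^ 2 = x ^ 3 + W.a₂ * x ^ 2 + W.a₄ * x :=
    (w2_equation_iff H.loc.w2 x y).1 h.left
  have hvx'0 : A.valuation (τ x) ≠ 0 := by rw [hvx']; exact hvx0
  have hx'0 : τ x ≠ 0 := (Valuation.ne_zero_iff _).1 hvx'0
  have hμ : A.valuation (x + W.a₄ / x) < 1 := by
    apply Valuation.map_add_lt _ hx
    rw [map_div₀]
    exact (div_lt_one₀ (zero_lt_iff.2 hvx0)).2 hlt
  have ht2 : (y / x) ^ 2 = W.a₂ + (x + W.a₄ / x) := by
    rw [div_pow, heq]
    field_simp
    ring
  have hvt : A.valuation (y / x) = 1 := by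
    have h1 : A.valuation ((y / x) ^ 2) = 1 := by
      rw [ht2, Valuation.map_add_eq_of_lt_left _ (by rw [H.a₂u]; exact hμ)]
      exact H.a₂u
    rw [map_pow] at h1
    exact (pow_eq_one_iff_of_nonneg zero_le two_ne_zero).1 h1
  have hτt : τ (y / x) = τ y / τ x := map_div₀ τ y x
  have hdt : A.valuation (τ y / τ x - y / x) < 1 := by
    rw [← hτt]
    exact hτ _ hvt.le
  have hv2 : A.valuation (2 : K) = 1 := H.loc.two
  -- Step 3: `τ x = x`
  have hxx : τ x = x := by
    by_contra hxx
    obtain ⟨x₃, y₃, h₃, x₄, y₄, h₄, -, hsub, -, -, hD, -⟩ :=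
      w2_add_sub H.loc.w2 h h' (Ne.symm hxx)
    have htors : n • Point.some x₄ y₄ h₄ = 0 := by
      rw [← hsub, smul_sub, hP, hQ, sub_zero]
    have hint : A.valuation x₄ ≤ 1 := hM3 h₄ htors
    -- δ := μ + t (t' - t)
    have hδ : A.valuation ((x + W.a₄ / x) + y / x * (τ y / τ x - y / x)) < 1 := by
      apply Valuation.map_add_lt _ hμ
      rw [map_mul, hvt, one_mul]
      exact hdt
    have hrhs : x * τ x * (x + τ x + 2 * W.a₂) + W.a₄ * (x + τ x) + 2 * y * τ y =
        x * τ x * (4 * W.a₂) +
          (x * τ x * (x + τ x + 2 * ((x + W.a₄ / x) + y / x * (τ y / τ x - y / x))) +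
            W.a₄ * (x + τ x)) := by
      have e1 : y / x * (τ y / τ x - y / x) = y * τ y / (x * τ x) - (y / x) ^ 2 := by
        field_simp
      rw [e1, ht2]
      field_simp
      ring
    have hvxx : A.valuation (x + τ x) ≤ A.valuation x :=
      Valuation.map_add_le _ le_rfl hvx'.le
    have hmain : A.valuation (x * τ x * (4 * W.a₂)) = A.valuation x * A.valuation x := by
      have h4 : A.valuation (4 : K) = 1 := by
        have : (4 : K) = 2 * 2 := by norm_num
        rw [this, map_mul, hv2, one_mul]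
      rw [map_mul, map_mul, map_mul, hvx', h4, H.a₂u, one_mul, mul_one]
    have hpos : 0 < A.valuation x := zero_lt_iff.2 hvx0
    have hpos2 : 0 < A.valuation x * A.valuation x := mul_pos hpos hpos
    have hr1 : A.valuation (x * τ x * (x + τ x +
        2 * ((x + W.a₄ / x) + y / x * (τ y / τ x - y / x)))) < A.valuation x * A.valuation x := by
      rw [map_mul, map_mul, hvx']
      have h1 : A.valuation (x + τ x +
          2 * ((x + W.a₄ / x) + y / x * (τ y / τ x - y / x))) < 1 := by
        apply Valuation.map_add_lt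
        · exact lt_of_le_of_lt hvxx hx
        · rw [map_mul, hv2, one_mul]
          exact hδ
      calc A.valuation x * A.valuation x * _ < A.valuation x * A.valuation x * 1 := by
            exact mul_lt_mul_of_pos_left h1 hpos2
        _ = _ := mul_one _
    have hr2 : A.valuation (W.a₄ * (x + τ x)) < A.valuation x * A.valuation x := by
      rw [map_mul]
      calc A.valuation W.a₄ * A.valuation (x + τ x)
          ≤ A.valuation W.a₄ * A.valuation x := mul_le_mul_right hvxx _
        _ < A.valuation x * A.valuation x := mul_lt_mul_of_pos_right hlt hpos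
    have hval : A.valuation (x₄ * (x - τ x) ^ 2) = A.valuation x * A.valuation x := by
      rw [hD, hrhs, Valuation.map_add_eq_of_lt_left _ (by
        rw [hmain]
        exact Valuation.map_add_lt _ hr1 hr2)]
      exact hmain
    have hdx' : A.valuation (x - τ x) < A.valuation x := by
      rw [Valuation.map_sub_swap]
      exact hdx
    have hlt2 : A.valuation (x₄ * (x - τ x) ^ 2) < A.valuation x * A.valuation x := by
      rw [map_mul, map_pow, pow_two]
      calc A.valuation x₄ * (A.valuation (x - τ x) * A.valuation (x - τ x))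
          ≤ 1 * (A.valuation (x - τ x) * A.valuation (x - τ x)) := mul_le_mul_left hint _
        _ = A.valuation (x - τ x) * A.valuation (x - τ x) := one_mul _
        _ ≤ A.valuation (x - τ x) * A.valuation x := mul_le_mul_right hdx'.le _
        _ < A.valuation x * A.valuation x := mul_lt_mul_of_pos_right hdx' hpos
    rw [hval] at hlt2
    exact lt_irrefl _ hlt2
  -- Step 4: `τ y = y`
  refine ⟨hxx, ?_⟩
  have h'' : W.toAffine.Nonsingular x (τ y) := by
    rw [← hxx]
    exact h'
  rcases w2_same_x H.loc.w2 h h'' with hy | hy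
  · exact hy
  · exfalso
    rw [hxx, hy] at hdt
    have e : -y / x - y / x = -(2 * (y / x)) := by ring
    rw [e, Valuation.map_neg, map_mul, hv2, hvt, one_mul] at hdt
    exact lt_irrefl _ hdt

end Local

end Fermat.Agent.S05x
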