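import Fermat.Agent.S05x.Defs

/-!
# S05 project, module M4 (part): the doubling lemma `dbl_val`

Pure valuation casework; no elliptic curves.
-/

set_option autoImplicit false

namespace Fermat.Agent.S05x

section
variable {K : Type*} [Field K] {Γ : Type*} [LinearOrderedCommGroupWithZero Γ] (v : Valuation K Γ)

/-- valuation of `x² - a4` -/
theorem m4d_N_gt {x a4 : K} (h : v a4 < v x ^ 2) : v (x ^ 2 - a4) = v x ^ 2 := by
  rw [Valuation.map_sub_eq_of_lt_left _ (by rwa [map_pow]), map_pow]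

theorem m4d_N_lt {x a4 : K} (h : v x ^ 2 < v a4) : v (x ^ 2 - a4) = v a4 := by
  rw [Valuation.map_sub_eq_of_lt_right _ (by rwa [map_pow])]

theorem m4d_N_eq {x a4 : K} (h : v x ^ 2 = v a4) : v (x ^ 2 - a4) ≤ v a4 :=
  Valuation.map_sub_le _ (by rw [map_pow, h]) le_rfl

/-- valuation of `x² + a2 x + a4` when `v a2 = 1`, `v a4 < 1`. -/
theorem m4d_D_gt {x a2 a4 : K} (ha2 : v a2 = 1) (ha4 : v a4 < 1) (hx : 1 < v x) :
    v (x ^ 2 + a2 * x + a4) = v x ^ 2 := by
  have hX0 : v x ≠ 0 := (lt_trans zero_lt_one hx).ne'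
  have h1 : v x < v x ^ 2 := by
    calc v x = v x * 1 := (mul_one _).symm
      _ < v x * v x := by
        exact mul_lt_mul_of_pos_left hx (lt_trans zero_lt_one hx)
      _ = v x ^ 2 := (pow_two _).symm
  have h2 : v (x ^ 2 + a2 * x) = v x ^ 2 := by
    rw [Valuation.map_add_eq_of_lt_left _ (by rw [map_mul, ha2, one_mul, map_pow]; exact h1), map_pow]
  rw [Valuation.map_add_eq_of_lt_left _ (by rw [h2]; exact lt_trans ha4 (lt_trans hx h1)), h2]

theorem m4d_D_one {x a2 a4 : K} (ha2 : v a2 = 1) (ha4 : v a4 < 1) (hx : v x = 1) :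
    v (x ^ 2 + a2 * x + a4) ≤ 1 := by
  refine Valuation.map_add_le _ (Valuation.map_add_le _ ?_ ?_) ha4.le
  · rw [map_pow, hx, one_pow]
  · rw [map_mul, ha2, hx, one_mul]

theorem m4d_D_mid {x a2 a4 : K} (ha2 : v a2 = 1) (hx1 : v x < 1) (hx : v a4 < v x) :
    v (x ^ 2 + a2 * x + a4) = v x := by
  have hX0 : 0 < v x := lt_of_le_of_lt zero_le hx
  have h1 : v x ^ 2 < v x := by
    calc v x ^ 2 = v x * v x := pow_two _
      _ < v x * 1 := mul_lt_mul_of_pos_left hx1 hX0
      _ = v x := mul_one _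
  have h2 : v (x ^ 2 + a2 * x) = v x := by
    rw [Valuation.map_add_eq_of_lt_right _ (by rw [map_mul, ha2, one_mul, map_pow]; exact h1),
      map_mul, ha2, one_mul]
  rw [Valuation.map_add_eq_of_lt_left _ (by rw [h2]; exact hx), h2]

theorem m4d_D_eq {x a2 a4 : K} (ha2 : v a2 = 1) (ha4 : v a4 < 1) (hx : v x = v a4) :
    v (x ^ 2 + a2 * x + a4) ≤ v a4 := by
  refine Valuation.map_add_le _ (Valuation.map_add_le _ ?_ ?_) le_rfl
  · rw [map_pow, hx, pow_two]
    calc v a4 * v a4 ≤ v a4 * 1 := mul_le_mul' le_rfl ha4.le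
      _ = v a4 := mul_one _
  · rw [map_mul, ha2, hx, one_mul]

theorem m4d_D_lt {x a2 a4 : K} (ha2 : v a2 = 1) (ha4 : v a4 < 1) (hx : v x < v a4) :
    v (x ^ 2 + a2 * x + a4) = v a4 := by
  have h2 : v (x ^ 2 + a2 * x) < v a4 := by
    refine Valuation.map_add_lt _ ?_ ?_
    · rw [map_pow, pow_two]
      calc v x * v x ≤ v x * 1 := mul_le_mul' le_rfl (hx.le.trans ha4.le)
        _ = v x := mul_one _
        _ < v a4 := hx
    · rw [map_mul, ha2, one_mul]
      exact hx
  exact Valuation.map_add_eq_of_lt_right _ h2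

end


section
variable {K : Type*} [Field K] (A : ValuationSubring K)

theorem m4d_sz_of_one_le {η : A.ValueGroup} {x : K} (h : 1 ≤ A.valuation x) : sz A η x = 1 := by
  unfold sz
  exact min_eq_left (le_trans h (le_max_left _ _))

theorem m4d_sz_of_le {η : A.ValueGroup} {x : K} (hη : η ≤ 1) (h : A.valuation x ≤ η) :
    sz A η x = η := by
  unfold sz
  rw [max_eq_right h]
  exact min_eq_right hη

theorem m4d_sz_of_mem {η : A.ValueGroup} {x : K} (h1 : η ≤ A.valuation x)
    (h2 : A.valuation x ≤ 1) : sz A η x = A.valuation x := by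
  unfold sz
  rw [max_eq_left h1]
  exact min_eq_right h2

/-- The doubling lemma. `x'` is the `x`-coordinate of `2P`. -/
theorem dbl_val (a2 a4 : K) (h2 : A.valuation (2 : K) = 1) (ha2 : A.valuation a2 = 1)
    (ha4 : A.valuation a4 < 1) (ha40 : a4 ≠ 0) (x y x' : K)
    (hxy : y ^ 2 = x ^ 3 + a2 * x ^ 2 + a4 * x) (hy : y ≠ 0)
    (hd : x' * (4 * y ^ 2) = (x ^ 2 - a4) ^ 2) :
    sz A (A.valuation a4) x' =
      rfl2 (A.valuation a4) (sz A (A.valuation a4) x * sz A (A.valuation a4) x) := by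
  set v := A.valuation with hv
  set η := v a4 with hη
  have hη0 : 0 < η := (Valuation.pos_iff v).mpr ha40
  have hη0' : η ≠ 0 := hη0.ne'
  have hx0 : x ≠ 0 := by
    rintro rfl
    apply hy
    have : y ^ 2 = 0 := by rw [hxy]; ring
    exact pow_eq_zero_iff (two_ne_zero) |>.mp this
  have hX0 : 0 < v x := (Valuation.pos_iff v).mpr hx0
  have hX0' : v x ≠ 0 := hX0.ne'
  have h4 : v (4 : K) = 1 := by
    have : (4 : K) = 2 * 2 := by norm_num
    rw [this, map_mul, h2, one_mul]
  have hy2 : v (y ^ 2) = v x * v (x ^ 2 + a2 * x + a4) := by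
    rw [← map_mul, hxy]
    congr 1
    ring
  have hy20 : v (y ^ 2) ≠ 0 := (Valuation.ne_zero_iff v).mpr (pow_ne_zero 2 hy)
  have hD0 : v (x ^ 2 + a2 * x + a4) ≠ 0 := by
    intro h
    rw [hy2, h, mul_zero] at hy20
    exact hy20 rfl
  have key : v x' * (v x * v (x ^ 2 + a2 * x + a4)) = v (x ^ 2 - a4) ^ 2 := by
    rw [← hy2, ← map_pow, ← hd, map_mul, map_mul, h4, one_mul]
  have hηη : η * η < η := by
    calc η * η < η * 1 := mul_lt_mul_of_pos_left ha4 hη0
      _ = η := mul_one _
  rcases lt_trichotomy (v x) 1 with hX1 | hX1 | hX1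
  · -- v x < 1
    have hXX : v x ^ 2 < v x := by
      calc v x ^ 2 = v x * v x := pow_two _
        _ < v x * 1 := mul_lt_mul_of_pos_left hX1 hX0
        _ = v x := mul_one _
    rcases lt_trichotomy (v x) η with hXη | hXη | hXη
    · -- v x < η : sz x = η, result 1
      have hszx : sz A η x = η := m4d_sz_of_le A ha4.le hXη.le
      have hN : v (x ^ 2 - a4) = η := m4d_N_lt v (hXX.trans hXη)
      have hD : v (x ^ 2 + a2 * x + a4) = η := m4d_D_lt v ha2 ha4 hXη
      rw [hN, hD] at key
      have hvx' : v x' = η / v x := by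
        rw [eq_div_iff hX0']
        apply mul_right_cancel₀ hη0'
        rw [mul_assoc, key, pow_two]
      have h1 : 1 ≤ v x' := by
        rw [hvx', one_le_div₀ hX0]
        exact hXη.le
      rw [m4d_sz_of_one_le A h1, hszx, rfl2, if_neg (not_le.mpr hηη), pow_two, div_self]
      exact mul_ne_zero hη0' hη0'
    · -- v x = η : sz x = η, result 1
      have hszx : sz A η x = η := m4d_sz_of_le A ha4.le hXη.le
      have hN : v (x ^ 2 - a4) = η := m4d_N_lt v (by rw [hXη, pow_two]; exact hηη)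
      have hD : v (x ^ 2 + a2 * x + a4) ≤ η := m4d_D_eq v ha2 ha4 hXη
      rw [hN, hXη] at key
      have h1 : 1 ≤ v x' := by
        by_contra hlt
        rw [not_le] at hlt
        have hDpos : 0 < v (x ^ 2 + a2 * x + a4) := lt_of_le_of_ne zero_le (Ne.symm hD0)
        have : v x' * (η * v (x ^ 2 + a2 * x + a4)) < η ^ 2 := by
          calc v x' * (η * v (x ^ 2 + a2 * x + a4))
              < 1 * (η * v (x ^ 2 + a2 * x + a4)) :=
                mul_lt_mul_of_pos_right hlt (mul_pos hη0 hDpos)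
            _ = η * v (x ^ 2 + a2 * x + a4) := one_mul _
            _ ≤ η * η := mul_le_mul' le_rfl hD
            _ = η ^ 2 := (pow_two _).symm
        rw [key] at this
        exact lt_irrefl _ this
      rw [m4d_sz_of_one_le A h1, hszx, rfl2, if_neg (not_le.mpr hηη), pow_two, div_self]
      exact mul_ne_zero hη0' hη0'
    · -- η < v x < 1 : sz x = v x
      have hszx : sz A η x = v x := m4d_sz_of_mem A hXη.le hX1.le
      have hD : v (x ^ 2 + a2 * x + a4) = v x := m4d_D_mid v ha2 hX1 hXη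
      rw [hD] at key
      rw [hszx, ← pow_two]
      rcases lt_trichotomy (v x ^ 2) η with hc | hc | hc
      · -- v x ^2 < η
        have hN : v (x ^ 2 - a4) = η := m4d_N_lt v hc
        rw [hN] at key
        have hvx' : v x' = η ^ 2 / v x ^ 2 := by
          rw [eq_div_iff (pow_ne_zero 2 hX0'), pow_two (v x)]
          exact key
        have hge : η ≤ v x' := by
          rw [hvx', le_div_iff₀ (pow_pos hX0 2), pow_two η]
          exact mul_le_mul' le_rfl hc.le
        have hle : v x' ≤ 1 := by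
          rw [hvx', div_le_one₀ (pow_pos hX0 2)]
          exact pow_le_pow_left₀ hη0.le hXη.le 2
        rw [m4d_sz_of_mem A hge hle, rfl2, if_neg (not_le.mpr hc), hvx']
      · -- v x ^ 2 = η
        have hN : v (x ^ 2 - a4) ≤ η := m4d_N_eq v hc
        have hle : v x' ≤ η := by
          have h3 : v x' * η ≤ η * η := by
            calc v x' * η = v x' * (v x * v x) := by rw [← hc, pow_two]
              _ = v (x ^ 2 - a4) ^ 2 := key
              _ ≤ η ^ 2 := pow_le_pow_left₀ zero_le hN 2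
              _ = η * η := pow_two _
          exact le_of_mul_le_mul_right h3 hη0
        rw [m4d_sz_of_le A ha4.le hle, rfl2, if_pos hc.ge, hc]
      · -- η < v x ^ 2
        have hN : v (x ^ 2 - a4) = v x ^ 2 := m4d_N_gt v hc
        rw [hN] at key
        have hvx' : v x' = v x ^ 2 := by
          apply mul_right_cancel₀ (mul_ne_zero hX0' hX0')
          rw [key, pow_two, pow_two]
        rw [m4d_sz_of_mem A (by rw [hvx']; exact hc.le) (by rw [hvx']; exact (hXX.trans hX1).le),
          rfl2, if_pos hc.le, hvx']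
  · -- v x = 1
    have hszx : sz A η x = 1 := m4d_sz_of_one_le A hX1.ge
    have hN : v (x ^ 2 - a4) = 1 := by
      rw [m4d_N_gt v (by rw [hX1, one_pow]; exact ha4), hX1, one_pow]
    have hD : v (x ^ 2 + a2 * x + a4) ≤ 1 := m4d_D_one v ha2 ha4 hX1
    rw [hN, hX1, one_mul, one_pow] at key
    have h1 : 1 ≤ v x' := by
      by_contra hlt
      rw [not_le] at hlt
      have hDpos : 0 < v (x ^ 2 + a2 * x + a4) := lt_of_le_of_ne zero_le (Ne.symm hD0)
      have : v x' * v (x ^ 2 + a2 * x + a4) < 1 := by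
        calc v x' * v (x ^ 2 + a2 * x + a4) < 1 * v (x ^ 2 + a2 * x + a4) :=
              mul_lt_mul_of_pos_right hlt hDpos
          _ = v (x ^ 2 + a2 * x + a4) := one_mul _
          _ ≤ 1 := hD
      rw [key] at this
      exact lt_irrefl _ this
    rw [m4d_sz_of_one_le A h1, hszx, one_mul, rfl2, if_pos ha4.le]
  · -- 1 < v x
    have hszx : sz A η x = 1 := m4d_sz_of_one_le A hX1.le
    have hXX : v x < v x ^ 2 := by
      calc v x = v x * 1 := (mul_one _).symm
        _ < v x * v x := mul_lt_mul_of_pos_left hX1 hX0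
        _ = v x ^ 2 := (pow_two _).symm
    have hN : v (x ^ 2 - a4) = v x ^ 2 := m4d_N_gt v (ha4.trans (hX1.trans hXX))
    have hD : v (x ^ 2 + a2 * x + a4) = v x ^ 2 := m4d_D_gt v ha2 ha4 hX1
    rw [hN, hD] at key
    have hvx' : v x' = v x := by
      apply mul_right_cancel₀ (mul_ne_zero hX0' (pow_ne_zero 2 hX0'))
      rw [key, pow_two, pow_two]
      simp only [mul_assoc]
    rw [m4d_sz_of_one_le A (by rw [hvx']; exact hX1.le), hszx, one_mul, rfl2, if_pos ha4.le]

end

end Fermat.Agent.S05x
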