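import Fermat.Agent.S05x.Defs

/-!
# S05 project, module M2_IDENT: group-law identities for `Y² = X³ + a₂X² + a₄X`

No valuations here: only the explicit formulas for negation, doubling and for the sum and the
difference of two affine points with distinct `x`-coordinates.
-/

set_option autoImplicit false
open WeierstrassCurve WeierstrassCurve.Affine WeierstrassCurve.Affine.Point

namespace Fermat.Agent.S05x

variable {K : Type*} [Field K]

section Ident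
variable {W : WeierstrassCurve K}

theorem w2_equation_iff (hW : IsW2 W) (x y : K) :
    W.toAffine.Equation x y ↔ y ^ 2 = x ^ 3 + W.a₂ * x ^ 2 + W.a₄ * x := by
  rw [Affine.equation_iff, hW.a₁, hW.a₃, hW.a₆]
  simp

theorem w2_negY (hW : IsW2 W) (x y : K) : W.toAffine.negY x y = -y := by
  simp [Affine.negY, hW.a₁, hW.a₃]

/-- the equation of a nonsingular point, in `W2` form -/
theorem m2_eq_of_nonsingular (hW : IsW2 W) {x y : K} (h : W.toAffine.Nonsingular x y) :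
    y ^ 2 = x ^ 3 + W.a₂ * x ^ 2 + W.a₄ * x :=
  (w2_equation_iff hW x y).mp h.1

variable [DecidableEq K]

set_option linter.unusedSectionVars false in
theorem w2_neg_some (hW : IsW2 W) {x y : K} (h : W.toAffine.Nonsingular x y) :
    ∃ h' : W.toAffine.Nonsingular x (-y), -(Point.some x y h) = Point.some x (-y) h' := by
  have h1 : W.toAffine.Nonsingular x (W.toAffine.negY x y) := (Affine.nonsingular_neg ..).mpr h
  have h2 : W.toAffine.Nonsingular x (-y) := by rwa [w2_negY hW] at h1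
  refine ⟨h2, ?_⟩
  rw [Point.neg_some, Point.some.injEq]
  exact ⟨rfl, w2_negY hW x y⟩

set_option linter.unusedSectionVars false in
/-- two affine points with the same `x` are equal or opposite -/
theorem w2_same_x (hW : IsW2 W) {x y₁ y₂ : K} (h₁ : W.toAffine.Nonsingular x y₁)
    (h₂ : W.toAffine.Nonsingular x y₂) : y₂ = y₁ ∨ y₂ = -y₁ := by
  have := Affine.Y_eq_of_X_eq h₂.1 h₁.1 rfl
  rwa [w2_negY hW] at this

theorem w2_add_self_of_y_eq_zero (hW : IsW2 W) {x y : K} (h : W.toAffine.Nonsingular x y)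
    (hy : y = 0) : Point.some x y h + Point.some x y h = 0 := by
  apply Point.add_self_of_Y_eq
  rw [w2_negY hW, hy, _root_.neg_zero]

/-- duplication formula -/
theorem w2_double (hW : IsW2 W) (h2 : (2 : K) ≠ 0) {x y : K} (h : W.toAffine.Nonsingular x y)
    (hy : y ≠ 0) :
    ∃ (x' y' : K) (h' : W.toAffine.Nonsingular x' y'),
      Point.some x y h + Point.some x y h = Point.some x' y' h' ∧
      x' * (4 * y ^ 2) = (x ^ 2 - W.a₄) ^ 2 := by
  have hne : y ≠ W.toAffine.negY x y := by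
    rw [w2_negY hW]
    intro e
    have : (2 : K) * y = 0 := by linear_combination e
    rcases mul_eq_zero.mp this with h0 | h0
    · exact h2 h0
    · exact hy h0
  refine ⟨_, _, _, Point.add_self_of_Y_ne hne, ?_⟩
  have heq := m2_eq_of_nonsingular hW h
  have h2y : (2 : K) * y ≠ 0 := mul_ne_zero h2 hy
  rw [Affine.slope_of_Y_ne rfl hne, w2_negY hW]
  simp only [Affine.addX, hW.a₁]
  have hden : y - -y = 2 * y := by ring
  rw [hden]
  set ℓ : K := (3 * x ^ 2 + 2 * W.a₂ * x + W.a₄ - 0 * y) / (2 * y) with hℓdef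
  have hℓ : ℓ * (2 * y) = 3 * x ^ 2 + 2 * W.a₂ * x + W.a₄ := by
    rw [hℓdef, div_mul_cancel₀ _ h2y]
    ring
  linear_combination (ℓ * (2 * y) + (3 * x ^ 2 + 2 * W.a₂ * x + W.a₄)) * hℓ +
    (-4 * (W.a₂ + 2 * x)) * heq

/-- sum and difference of two affine points with distinct `x`-coordinates -/
theorem w2_add_sub (hW : IsW2 W) {x₁ y₁ x₂ y₂ : K} (h₁ : W.toAffine.Nonsingular x₁ y₁)
    (h₂ : W.toAffine.Nonsingular x₂ y₂) (hx : x₁ ≠ x₂) :
    ∃ (x₃ y₃ : K) (h₃ : W.toAffine.Nonsingular x₃ y₃) (x₄ y₄ : K)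
      (h₄ : W.toAffine.Nonsingular x₄ y₄),
      Point.some x₁ y₁ h₁ + Point.some x₂ y₂ h₂ = Point.some x₃ y₃ h₃ ∧
      Point.some x₁ y₁ h₁ - Point.some x₂ y₂ h₂ = Point.some x₄ y₄ h₄ ∧
      (x₃ + x₄) * (x₁ - x₂) ^ 2 = 2 * (x₁ * x₂ * (x₁ + x₂ + 2 * W.a₂) + W.a₄ * (x₁ + x₂)) ∧
      x₃ * x₄ * (x₁ - x₂) ^ 2 = (x₁ * x₂ - W.a₄) ^ 2 ∧
      x₄ * (x₁ - x₂) ^ 2 = x₁ * x₂ * (x₁ + x₂ + 2 * W.a₂) + W.a₄ * (x₁ + x₂) + 2 * y₁ * y₂ ∧
      x₄ = ((y₁ + y₂) / (x₁ - x₂)) ^ 2 - W.a₂ - x₁ - x₂ := by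
  have e₁ := m2_eq_of_nonsingular hW h₁
  have e₂ := m2_eq_of_nonsingular hW h₂
  have hd : x₁ - x₂ ≠ 0 := sub_ne_zero.mpr hx
  obtain ⟨h₂', hneg⟩ := w2_neg_some hW h₂
  -- the two `x`-coordinates
  set x₃ : K := ((y₁ - y₂) / (x₁ - x₂)) ^ 2 - W.a₂ - x₁ - x₂ with hx₃
  set x₄ : K := ((y₁ + y₂) / (x₁ - x₂)) ^ 2 - W.a₂ - x₁ - x₂ with hx₄
  have hadd : ∃ (y₃ : K) (h₃ : W.toAffine.Nonsingular x₃ y₃),
      Point.some x₁ y₁ h₁ + Point.some x₂ y₂ h₂ = Point.some x₃ y₃ h₃ := by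
    have key := Point.add_of_X_ne (h₁ := h₁) (h₂ := h₂) hx
    have hxx : W.toAffine.addX x₁ x₂ (W.toAffine.slope x₁ x₂ y₁ y₂) = x₃ := by
      rw [Affine.slope_of_X_ne hx]
      simp only [Affine.addX, hW.a₁, hx₃]
      ring
    have hns := Affine.nonsingular_add h₁ h₂ (fun hxy => hx hxy.left)
    rw [hxx] at hns
    refine ⟨_, hns, ?_⟩
    rw [key, Point.some.injEq]
    exact ⟨hxx, rfl⟩
  have hsub : ∃ (y₄ : K) (h₄ : W.toAffine.Nonsingular x₄ y₄),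
      Point.some x₁ y₁ h₁ - Point.some x₂ y₂ h₂ = Point.some x₄ y₄ h₄ := by
    rw [sub_eq_add_neg, hneg]
    have key := Point.add_of_X_ne (h₁ := h₁) (h₂ := h₂') hx
    have hxx : W.toAffine.addX x₁ x₂ (W.toAffine.slope x₁ x₂ y₁ (-y₂)) = x₄ := by
      rw [Affine.slope_of_X_ne hx]
      simp only [Affine.addX, hW.a₁, hx₄]
      ring
    have hns := Affine.nonsingular_add h₁ h₂' (fun hxy => hx hxy.left)
    rw [hxx] at hns
    refine ⟨_, hns, ?_⟩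
    rw [key, Point.some.injEq]
    exact ⟨hxx, rfl⟩
  obtain ⟨y₃, h₃, hP⟩ := hadd
  obtain ⟨y₄, h₄, hQ⟩ := hsub
  -- the basic identities
  have hA : x₃ * (x₁ - x₂) ^ 2 =
      x₁ * x₂ * (x₁ + x₂ + 2 * W.a₂) + W.a₄ * (x₁ + x₂) - 2 * y₁ * y₂ := by
    rw [hx₃]
    field_simp
    linear_combination e₁ + e₂
  have hB : x₄ * (x₁ - x₂) ^ 2 =
      x₁ * x₂ * (x₁ + x₂ + 2 * W.a₂) + W.a₄ * (x₁ + x₂) + 2 * y₁ * y₂ := by
    rw [hx₄]
    field_simp
    linear_combination e₁ + e₂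
  refine ⟨x₃, y₃, h₃, x₄, y₄, h₄, hP, hQ, ?_, ?_, hB, rfl⟩
  · linear_combination hA + hB
  · apply mul_right_cancel₀ (pow_ne_zero 2 hd)
    linear_combination (x₄ * (x₁ - x₂) ^ 2) * hA +
      (x₁ * x₂ * (x₁ + x₂ + 2 * W.a₂) + W.a₄ * (x₁ + x₂) - 2 * y₁ * y₂) * hB +
      (-4 * y₂ ^ 2) * e₁ + (-4 * (x₁ ^ 3 + W.a₂ * x₁ ^ 2 + W.a₄ * x₁)) * e₂

end Ident

end Fermat.Agent.S05x
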