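import Fermat.Agent.S05x.Defs
import Fermat.Agent.S05x.Ident
import Fermat.Agent.S05x.DblVal

/-!
# S05 project, module M5_PAIRPT (core): the pair lemma for points, given the pair lemma for values

`{psz (P + Q), psz (P - Q)} = {min (psz P / psz Q) (psz Q / psz P), rfl2 η (psz P * psz Q)}` for all
points `P, Q` of a nodal `W2`-curve (including the origin and `Q = ± P`).
-/

set_option autoImplicit false
open WeierstrassCurve WeierstrassCurve.Affine WeierstrassCurve.Affine.Point

namespace Fermat.Agent.S05x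

variable {K : Type*} [Field K]

section Aux

variable (A : ValuationSubring K) {W : WeierstrassCurve K}

theorem m5_val_a₄_ne_zero (H : NodeHyp A W) : A.valuation W.a₄ ≠ 0 :=
  (A.valuation.ne_zero_iff).mpr H.a₄0

theorem m5_val_a₄_le_one (H : NodeHyp A W) : A.valuation W.a₄ ≤ 1 := H.a₄m.le

theorem m5_psz_le_one (P : W.toAffine.Point) : psz A W P ≤ 1 := by
  rcases P with _ | ⟨x, y, h⟩
  · exact le_rfl
  · exact sz_le_one A _ x

theorem m5_le_psz (H : NodeHyp A W) (P : W.toAffine.Point) : A.valuation W.a₄ ≤ psz A W P := by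
  rcases P with _ | ⟨x, y, h⟩
  · exact m5_val_a₄_le_one A H
  · exact le_sz A (m5_val_a₄_le_one A H) x

theorem m5_psz_ne_zero (H : NodeHyp A W) (P : W.toAffine.Point) : psz A W P ≠ 0 := by
  intro h0
  have h1 := m5_le_psz A H P
  rw [h0] at h1
  exact m5_val_a₄_ne_zero A H (le_antisymm h1 zero_le)

theorem m5_psz_neg (P : W.toAffine.Point) : psz A W (-P) = psz A W P := by
  rcases P with _ | ⟨x, y, h⟩
  · rfl
  · rfl

/-- `min (s / 1) (1 / s) = s` for `s ≤ 1`. -/
theorem m5_min_div_one {Γ : Type*} [LinearOrderedCommGroupWithZero Γ] {s : Γ} (hs : s ≤ 1)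
    (hs0 : s ≠ 0) : min (s / 1) (1 / s) = s := by
  rw [div_one, min_eq_left]
  rw [le_div_iff₀ (zero_lt_iff.mpr hs0)]
  calc s * s ≤ 1 * 1 := mul_le_mul' hs hs
    _ = 1 := one_mul 1

theorem m5_min_one_div {Γ : Type*} [LinearOrderedCommGroupWithZero Γ] {s : Γ} (hs : s ≤ 1)
    (hs0 : s ≠ 0) : min (1 / s) (s / 1) = s := by
  rw [min_comm]; exact m5_min_div_one hs hs0

theorem m5_min_div_self {Γ : Type*} [LinearOrderedCommGroupWithZero Γ] {s : Γ} (hs0 : s ≠ 0) :
    min (s / s) (s / s) = 1 := by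
  rw [min_self, div_self hs0]

theorem m5_rfl2_of_le {Γ : Type*} [LinearOrderedCommGroupWithZero Γ] {η z : Γ} (h : η ≤ z) :
    rfl2 η z = z := if_pos h

theorem m5_rfl2_sq {Γ : Type*} [LinearOrderedCommGroupWithZero Γ] {η : Γ} (h0 : η ≠ 0)
    (h1 : η < 1) : rfl2 η (η * η) = 1 := by
  have hlt : η * η < η := by
    calc η * η < η * 1 := by
          exact mul_lt_mul_of_pos_left h1 (zero_lt_iff.mpr h0)
      _ = η := mul_one η
  rw [rfl2, if_neg (not_le.mpr hlt), pow_two, div_self (mul_ne_zero h0 h0)]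

end Aux

section Main

variable [DecidableEq K] (A : ValuationSubring K) {W : WeierstrassCurve K}

/-- The size of a `2`-torsion point is `1` or `η`. -/
theorem m5_sz_of_y_eq_zero (H : NodeHyp A W) {x : K} (hx : W.toAffine.Equation x 0) :
    sz A (A.valuation W.a₄) x = 1 ∨ sz A (A.valuation W.a₄) x = A.valuation W.a₄ := by
  have heq := (w2_equation_iff H.loc.w2 x 0).mp hx
  have hη1 := m5_val_a₄_le_one A H
  by_cases hx0 : x = 0
  · right
    subst hx0
    rw [sz, _root_.map_zero, max_eq_right zero_le, min_eq_right hη1]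
  · have hq : x * (x + W.a₂) = -W.a₄ := by
      have h1 : x * (x ^ 2 + W.a₂ * x + W.a₄) = 0 := by
        have : (0 : K) ^ 2 = 0 := by norm_num
        rw [this] at heq
        rw [heq]; ring
      have h2 : x ^ 2 + W.a₂ * x + W.a₄ = 0 := by
        rcases mul_eq_zero.mp h1 with h | h
        · exact absurd h hx0
        · exact h
      linear_combination h2
    by_cases hv : A.valuation x < 1
    · right
      have hv2 : A.valuation (x + W.a₂) = 1 := by
        rw [add_comm, A.valuation.map_add_eq_of_lt_left (by rw [H.a₂u]; exact hv), H.a₂u]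
      have hv3 : A.valuation x = A.valuation W.a₄ := by
        have := congrArg A.valuation hq
        rw [map_mul, hv2, mul_one, Valuation.map_neg] at this
        exact this
      rw [sz, hv3, max_self, min_eq_right hη1]
    · left
      rw [not_lt] at hv
      rw [sz, max_eq_left (hη1.trans hv), min_eq_left hv]

/-- The doubling lemma for points. -/
theorem m5_psz_double (H : NodeHyp A W) (P : W.toAffine.Point) :
    psz A W (P + P) = rfl2 (A.valuation W.a₄) (psz A W P * psz A W P) := by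
  have hη1 := m5_val_a₄_le_one A H
  have hη0 := m5_val_a₄_ne_zero A H
  rcases P with _ | ⟨x, y, h⟩
  · show psz A W ((0 : W.toAffine.Point) + 0) = _
    rw [add_zero]
    show (1 : A.ValueGroup) = rfl2 _ (1 * 1)
    rw [mul_one, m5_rfl2_of_le hη1]
  · by_cases hy : y = 0
    · rw [w2_add_self_of_y_eq_zero H.loc.w2 h hy, psz_zero, psz_some]
      subst hy
      rcases m5_sz_of_y_eq_zero A H h.1 with h1 | h1
      · rw [h1, mul_one, m5_rfl2_of_le hη1]
      · rw [h1, m5_rfl2_sq hη0 H.a₄m]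
    · have h2 : (2 : K) ≠ 0 := by
        intro h0
        have := H.loc.two
        rw [h0, _root_.map_zero] at this
        exact zero_ne_one this
      obtain ⟨x', y', h', e, hd⟩ := w2_double H.loc.w2 h2 h hy
      rw [e, psz_some, psz_some]
      exact dbl_val A W.a₂ W.a₄ H.loc.two H.a₂u H.a₄m H.a₄0 x y x'
        ((w2_equation_iff H.loc.w2 x y).mp h.1) hy hd

/-- **The pair lemma for points**, assuming the pair lemma for values `hpv` (= `pair_val`). -/
theorem pair_pt_of
    (hpv : ∀ (a2 a4 : K), A.valuation (2 : K) = 1 → A.valuation a2 = 1 →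
      A.valuation a4 < 1 → a4 ≠ 0 → ∀ (x₁ x₂ x₃ x₄ : K), x₁ ≠ x₂ →
      (x₃ + x₄) * (x₁ - x₂) ^ 2 = 2 * (x₁ * x₂ * (x₁ + x₂ + 2 * a2) + a4 * (x₁ + x₂)) →
      x₃ * x₄ * (x₁ - x₂) ^ 2 = (x₁ * x₂ - a4) ^ 2 →
      (sz A (A.valuation a4) x₃ = min (sz A (A.valuation a4) x₁ / sz A (A.valuation a4) x₂)
            (sz A (A.valuation a4) x₂ / sz A (A.valuation a4) x₁) ∧
        sz A (A.valuation a4) x₄ =
          rfl2 (A.valuation a4) (sz A (A.valuation a4) x₁ * sz A (A.valuation a4) x₂)) ∨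
      (sz A (A.valuation a4) x₄ = min (sz A (A.valuation a4) x₁ / sz A (A.valuation a4) x₂)
            (sz A (A.valuation a4) x₂ / sz A (A.valuation a4) x₁) ∧
        sz A (A.valuation a4) x₃ =
          rfl2 (A.valuation a4) (sz A (A.valuation a4) x₁ * sz A (A.valuation a4) x₂)))
    (H : NodeHyp A W) (P Q : W.toAffine.Point) :
    (psz A W (P + Q) = min (psz A W P / psz A W Q) (psz A W Q / psz A W P) ∧
      psz A W (P - Q) = rfl2 (A.valuation W.a₄) (psz A W P * psz A W Q)) ∨
    (psz A W (P - Q) = min (psz A W P / psz A W Q) (psz A W Q / psz A W P) ∧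
      psz A W (P + Q) = rfl2 (A.valuation W.a₄) (psz A W P * psz A W Q)) := by
  have hη1 := m5_val_a₄_le_one A H
  -- `Q = ± P` first
  by_cases hPQ : Q = P
  · subst hPQ
    right
    refine ⟨?_, m5_psz_double A H Q⟩
    rw [sub_self, psz_zero, m5_min_div_self (m5_psz_ne_zero A H Q)]
  by_cases hPQ' : Q = -P
  · subst hPQ'
    left
    rw [m5_psz_neg]
    refine ⟨?_, ?_⟩
    · rw [add_neg_cancel, psz_zero, m5_min_div_self (m5_psz_ne_zero A H P)]
    · rw [sub_neg_eq_add]
      exact m5_psz_double A H P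
  rcases P with _ | ⟨x₁, y₁, h₁⟩
  · -- `P = 0`
    left
    show psz A W ((0 : W.toAffine.Point) + Q) = min (1 / psz A W Q) (psz A W Q / 1) ∧
      psz A W ((0 : W.toAffine.Point) - Q) = rfl2 _ (1 * psz A W Q)
    rw [zero_add, zero_sub, m5_psz_neg, one_mul,
      m5_min_one_div (m5_psz_le_one A Q) (m5_psz_ne_zero A H Q),
      m5_rfl2_of_le (m5_le_psz A H Q)]
    exact ⟨rfl, rfl⟩
  rcases Q with _ | ⟨x₂, y₂, h₂⟩
  · -- `Q = 0`
    left
    show psz A W (Point.some x₁ y₁ h₁ + (0 : W.toAffine.Point)) =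
        min (psz A W (Point.some x₁ y₁ h₁) / 1) (1 / psz A W (Point.some x₁ y₁ h₁)) ∧
      psz A W (Point.some x₁ y₁ h₁ - (0 : W.toAffine.Point)) =
        rfl2 _ (psz A W (Point.some x₁ y₁ h₁) * 1)
    rw [add_zero, sub_zero, mul_one,
      m5_min_div_one (m5_psz_le_one A _) (m5_psz_ne_zero A H _),
      m5_rfl2_of_le (m5_le_psz A H _)]
    exact ⟨rfl, rfl⟩
  -- two affine points, `Q ≠ ± P`
  have hx : x₁ ≠ x₂ := by
    intro hx
    rcases (Point.X_eq_iff (h₁ := h₁) (h₂ := h₂)).mp hx with h | h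
    · exact hPQ h.symm
    · exact hPQ' (by rw [h, neg_neg])
  obtain ⟨x₃, y₃, h₃, x₄, y₄, h₄, e₃, e₄, hS, hP, -, -⟩ := w2_add_sub H.loc.w2 h₁ h₂ hx
  rw [e₃, e₄]
  simp only [psz_some]
  exact hpv W.a₂ W.a₄ H.loc.two H.a₂u H.a₄m H.a₄0 x₁ x₂ x₃ x₄ hx hS hP

end Main

end Fermat.Agent.S05x
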