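import Fermat.Agent.S05x.Defs

/-!
# S05 project, module M4_PAIRVAL: pure valuation lemmas (`pair_val`; abstract `pv_pair`, `pv_dbl`)
-/

set_option autoImplicit false

namespace Fermat.Agent.S05x

section Abstract

variable {K : Type*} [Field K] {Γ : Type*} [LinearOrderedCommGroupWithZero Γ] (v : Valuation K Γ)

/-- strict product inequality in a linearly ordered group with zero -/
theorem pv_mul_lt {a b c d : Γ} (h1 : a < b) (h2 : c ≤ d) (hd : d ≠ 0) : a * c < b * d := by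
  have hb : 0 < b := lt_of_le_of_lt zero_le h1
  have hd' : 0 < d := zero_lt_iff.mpr hd
  calc a * c ≤ a * d := mul_le_mul' le_rfl h2
    _ < b * d := mul_lt_mul_of_pos_right h1 hd'

theorem pv_sq_lt {a b : Γ} (h : a < b) : a ^ 2 < b ^ 2 := by
  have hb : b ≠ 0 := (lt_of_le_of_lt zero_le h).ne'
  rw [pow_two, pow_two]
  exact pv_mul_lt h h.le hb

theorem pv_sq_le {a b : Γ} (h : a ≤ b) : a ^ 2 ≤ b ^ 2 := by
  rw [pow_two, pow_two]
  exact mul_le_mul' h h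

theorem pv_le_of_sq_le {a b : Γ} (h : a ^ 2 ≤ b ^ 2) : a ≤ b := by
  by_contra hcon
  exact absurd h (not_le.mpr (pv_sq_lt (not_le.mp hcon)))

theorem pv_eq_of_sq_eq {a b : Γ} (h : a ^ 2 = b ^ 2) : a = b :=
  le_antisymm (pv_le_of_sq_le h.le) (pv_le_of_sq_le h.ge)

/-- if `v(st) ≤ M²` and `v(s+t) ≤ M` then `v s ≤ M` and `v t ≤ M`. -/
theorem pv_sp1 {s t : K} {M : Γ} (hst : v (s * t) ≤ M ^ 2) (hs : v (s + t) ≤ M) :
    v s ≤ M ∧ v t ≤ M := by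
  have key : ∀ s t : K, v (s * t) ≤ M ^ 2 → v (s + t) ≤ M → v s ≤ M := by
    intro s t hst hs
    by_contra hcon
    have hcon : M < v s := not_le.mp hcon
    have hs0 : v s ≠ 0 := (lt_of_le_of_lt zero_le hcon).ne'
    have ht : v t < v s := by
      by_contra hle
      have hle : v s ≤ v t := not_lt.mp hle
      have h1 : M * M < v s * v t := pv_mul_lt hcon (hcon.le.trans hle) (fun h => hs0 (le_zero_iff.mp (h ▸ hle)))
      rw [map_mul, pow_two] at hst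
      exact absurd hst (not_le.mpr h1)
    have : v (s + t) = v s := Valuation.map_add_eq_of_lt_left v ht
    rw [this] at hs
    exact absurd hs (not_le.mpr hcon)
  refine ⟨key s t hst hs, key t s ?_ ?_⟩
  · rwa [mul_comm]
  · rwa [add_comm]

/-- if `v(st) = M²` and `v(s+t) ≤ M` then `v s = M` and `v t = M`. -/
theorem pv_sp2 {s t : K} {M : Γ} (hst : v (s * t) = M ^ 2) (hs : v (s + t) ≤ M) :
    v s = M ∧ v t = M := by
  obtain ⟨h1, h2⟩ := pv_sp1 v hst.le hs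
  rcases eq_or_ne M 0 with hM | hM
  · subst hM
    exact ⟨le_zero_iff.mp h1, le_zero_iff.mp h2⟩
  have key : ∀ a b : Γ, a ≤ M → b ≤ M → a * b = M ^ 2 → a = M := by
    intro a b ha hb hab
    by_contra hne
    have hlt : a < M := lt_of_le_of_ne ha hne
    have : a * b < M * M := pv_mul_lt hlt hb hM
    rw [hab, pow_two] at this
    exact lt_irrefl _ this
  rw [map_mul] at hst
  exact ⟨key _ _ h1 h2 hst, key _ _ h2 h1 (by rwa [mul_comm])⟩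

/-- if `1 ≤ v(st)` and `v(s+t) ≤ v(st)` then `1 ≤ v s` and `1 ≤ v t`. -/
theorem pv_sp5 {s t : K} (hst : 1 ≤ v (s * t)) (hs : v (s + t) ≤ v (s * t)) :
    1 ≤ v s ∧ 1 ≤ v t := by
  have key : ∀ s t : K, 1 ≤ v (s * t) → v (s + t) ≤ v (s * t) → 1 ≤ v s := by
    intro s t hst hs
    by_contra hcon
    have hcon : v s < 1 := not_le.mp hcon
    have hst0 : v (s * t) ≠ 0 := (lt_of_lt_of_le zero_lt_one hst).ne'
    rw [map_mul] at hst0
    have hs0 : v s ≠ 0 := left_ne_zero_of_mul hst0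
    have ht0 : v t ≠ 0 := right_ne_zero_of_mul hst0
    -- v t > v (s t) ≥ 1 > v s
    have h1 : v (s * t) < v t := by
      rw [map_mul]
      calc v s * v t < 1 * v t := pv_mul_lt hcon le_rfl ht0
        _ = v t := one_mul _
    have h2 : v s < v t := hcon.trans_le (hst.trans h1.le)
    have h3 : v (s + t) = v t := Valuation.map_add_eq_of_lt_right v h2
    rw [h3] at hs
    exact absurd hs (not_le.mpr h1)
  refine ⟨key s t hst hs, key t s ?_ ?_⟩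
  · rwa [mul_comm]
  · rwa [add_comm, mul_comm]

/-- if `v(st) < v(s+t)²` then `{v s, v t} = {v(s+t), v(st)/v(s+t)}`. -/
theorem pv_sp3 {s t : K} (h : v (s * t) < v (s + t) ^ 2) :
    (v s = v (s + t) ∧ v t * v (s + t) = v (s * t)) ∨
    (v t = v (s + t) ∧ v s * v (s + t) = v (s * t)) := by
  have key : ∀ s t : K, v (s * t) < v (s + t) ^ 2 → v t ≤ v s →
      v s = v (s + t) ∧ v t * v (s + t) = v (s * t) := by
    intro s t h hts
    have hle : v (s + t) ≤ v s := Valuation.map_add_le v le_rfl hts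
    have hs0 : v s ≠ 0 := by
      intro h0
      rw [h0] at hle
      have : v (s + t) = 0 := le_zero_iff.mp hle
      rw [this] at h
      simp at h
    have heq : v s = v (s + t) := by
      rcases lt_or_eq_of_le hts with hlt | heq
      · exact (Valuation.map_add_eq_of_lt_left v hlt).symm
      · -- v s = v t: then v(st) = (v s)^2 ≥ v(s+t)^2, contradiction
        exfalso
        have : v (s + t) ^ 2 ≤ v (s * t) := by
          rw [map_mul, pow_two]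
          exact mul_le_mul' hle (heq ▸ hle)
        exact absurd h (not_lt.mpr this)
    refine ⟨heq, ?_⟩
    rw [← heq, map_mul, mul_comm]
  rcases le_total (v t) (v s) with hts | hst
  · exact Or.inl (key s t h hts)
  · refine Or.inr ?_
    have := key t s (by rwa [mul_comm, add_comm]) hst
    rwa [add_comm t s, mul_comm t s] at this

theorem pv_cancel {a b c : Γ} (hc : c ≠ 0) (h : a * c ≤ b * c) : a ≤ b := by
  by_contra hcon
  exact absurd h (not_le.mpr (pv_mul_lt (not_le.mp hcon) le_rfl hc))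

theorem pv_cancel_eq {a b c : Γ} (hc : c ≠ 0) (h : a * c = b * c) : a = b :=
  le_antisymm (pv_cancel hc h.le) (pv_cancel hc h.ge)

theorem pv_sz_one {e : Γ} {x : K} (h : 1 ≤ v x) : min 1 (max (v x) e) = 1 :=
  min_eq_left (h.trans (le_max_left _ _))

theorem pv_sz_low {e : Γ} (he : e ≤ 1) {x : K} (h : v x ≤ e) : min 1 (max (v x) e) = e := by
  rw [max_eq_right h, min_eq_right he]

theorem pv_sz_mid {e : Γ} {x : K} (h1 : e ≤ v x) (h2 : v x ≤ 1) :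
    min 1 (max (v x) e) = v x := by
  rw [max_eq_left h1, min_eq_right h2]

theorem pv_rfl2_of_le {e z : Γ} (h : e ≤ z) : rfl2 e z = z := by
  unfold rfl2; rw [if_pos h]

theorem pv_rfl2_of_lt {e z : Γ} (h : z < e) : rfl2 e z = e ^ 2 / z := by
  unfold rfl2; rw [if_neg (not_le.mpr h)]

/-- common setup: translate (S) and (Pi) to valuations -/
theorem pv_setup (a2 a4 : K) (h2 : v 2 = 1) (x₁ x₂ x₃ x₄ : K) (hx : x₁ ≠ x₂)
    (hS : (x₃ + x₄) * (x₁ - x₂) ^ 2 = 2 * (x₁ * x₂ * (x₁ + x₂ + 2 * a2) + a4 * (x₁ + x₂)))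
    (hP : x₃ * x₄ * (x₁ - x₂) ^ 2 = (x₁ * x₂ - a4) ^ 2) :
    v (x₁ - x₂) ≠ 0 ∧
    v (x₃ + x₄) * v (x₁ - x₂) ^ 2 = v (x₁ * x₂ * (x₁ + x₂ + 2 * a2) + a4 * (x₁ + x₂)) ∧
    v (x₃ * x₄) * v (x₁ - x₂) ^ 2 = v (x₁ * x₂ - a4) ^ 2 := by
  refine ⟨?_, ?_, ?_⟩
  · rw [Ne, Valuation.zero_iff]
    exact sub_ne_zero.mpr hx
  · have := congrArg v hS
    rw [map_mul, map_pow, map_mul, h2, one_mul] at this
    exact this
  · have := congrArg v hP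
    rw [map_mul, map_pow, map_pow] at this
    exact this

/-- Case A: both `x₁, x₂` non-integral or units (`1 ≤ v x₂ ≤ v x₁`). -/
theorem pv_caseA (a2 a4 : K) (h2 : v 2 = 1) (ha2 : v a2 = 1) (ha4 : v a4 < 1)
    (x₁ x₂ x₃ x₄ : K) (hx : x₁ ≠ x₂) (hle : v x₂ ≤ v x₁) (hA : 1 ≤ v x₂)
    (hS : (x₃ + x₄) * (x₁ - x₂) ^ 2 = 2 * (x₁ * x₂ * (x₁ + x₂ + 2 * a2) + a4 * (x₁ + x₂)))
    (hP : x₃ * x₄ * (x₁ - x₂) ^ 2 = (x₁ * x₂ - a4) ^ 2) :
    1 ≤ v x₃ ∧ 1 ≤ v x₄ := by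
  obtain ⟨hd0, hS', hP'⟩ := pv_setup v a2 a4 h2 x₁ x₂ x₃ x₄ hx hS hP
  have h1 : 1 ≤ v x₁ := hA.trans hle
  have h12 : (1 : Γ) ≤ v x₁ * v x₂ := by
    calc (1 : Γ) = 1 * 1 := (one_mul 1).symm
      _ ≤ v x₁ * v x₂ := mul_le_mul' h1 hA
  have hd : v (x₁ - x₂) ≤ v x₁ := Valuation.map_sub_le v le_rfl hle
  have hd2 : v (x₁ - x₂) ^ 2 ≠ 0 := pow_ne_zero 2 hd0
  have hnp : v (x₁ * x₂ - a4) = v x₁ * v x₂ := by
    rw [← map_mul]
    apply Valuation.map_sub_eq_of_lt_left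
    rw [map_mul]
    exact ha4.trans_le h12
  have h2a2 : v (2 * a2) = 1 := by rw [map_mul, h2, ha2, one_mul]
  have hu : v (x₁ + x₂ + 2 * a2) ≤ v x₁ :=
    Valuation.map_add_le v (Valuation.map_add_le v le_rfl hle) (h2a2.le.trans h1)
  have hT1 : v (x₁ * x₂ * (x₁ + x₂ + 2 * a2)) ≤ v x₁ * v x₂ * v x₁ := by
    rw [map_mul, map_mul]
    exact mul_le_mul' le_rfl hu
  have hT2 : v (a4 * (x₁ + x₂)) ≤ v x₁ * v x₂ * v x₁ := by
    rw [map_mul]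
    exact mul_le_mul' (ha4.le.trans h12) (Valuation.map_add_le v le_rfl hle)
  have hNS : v (x₁ * x₂ * (x₁ + x₂ + 2 * a2) + a4 * (x₁ + x₂)) ≤ v x₁ * v x₂ * v x₁ :=
    Valuation.map_add_le v hT1 hT2
  rw [hnp] at hP'
  -- 1 ≤ v(st)
  have hst1 : 1 ≤ v (x₃ * x₄) := by
    apply pv_cancel hd2
    rw [hP', one_mul]
    calc v (x₁ - x₂) ^ 2 ≤ v x₁ ^ 2 := pv_sq_le hd
      _ = (v x₁ * 1) ^ 2 := by rw [mul_one]
      _ ≤ (v x₁ * v x₂) ^ 2 := pv_sq_le (mul_le_mul' le_rfl hA)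
  have hst2 : v (x₃ + x₄) ≤ v (x₃ * x₄) := by
    apply pv_cancel hd2
    rw [hP', hS']
    calc _ ≤ v x₁ * v x₂ * v x₁ := hNS
      _ = v x₁ * v x₂ * (v x₁ * 1) := by rw [mul_one]
      _ ≤ v x₁ * v x₂ * (v x₁ * v x₂) := mul_le_mul' le_rfl (mul_le_mul' le_rfl hA)
      _ = (v x₁ * v x₂) ^ 2 := (pow_two _).symm
  exact pv_sp5 v hst1 hst2

/-- Case E: both `x₁, x₂` deep in the node (`v x₂ ≤ v x₁ ≤ v a4`). -/
theorem pv_caseE (a2 a4 : K) (h2 : v 2 = 1) (ha2 : v a2 = 1) (ha4 : v a4 < 1) (ha40 : a4 ≠ 0)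
    (x₁ x₂ x₃ x₄ : K) (hx : x₁ ≠ x₂) (hle : v x₂ ≤ v x₁) (hE : v x₁ ≤ v a4)
    (hS : (x₃ + x₄) * (x₁ - x₂) ^ 2 = 2 * (x₁ * x₂ * (x₁ + x₂ + 2 * a2) + a4 * (x₁ + x₂)))
    (hP : x₃ * x₄ * (x₁ - x₂) ^ 2 = (x₁ * x₂ - a4) ^ 2) :
    1 ≤ v x₃ ∧ 1 ≤ v x₄ := by
  obtain ⟨hd0, hS', hP'⟩ := pv_setup v a2 a4 h2 x₁ x₂ x₃ x₄ hx hS hP
  have he0 : v a4 ≠ 0 := (Valuation.ne_zero_iff v).mpr ha40
  have h1 : v x₁ ≤ 1 := hE.trans ha4.le
  have h2' : v x₂ ≤ 1 := hle.trans h1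
  have hd : v (x₁ - x₂) ≤ v x₁ := Valuation.map_sub_le v le_rfl hle
  have hd2 : v (x₁ - x₂) ^ 2 ≠ 0 := pow_ne_zero 2 hd0
  have hnp : v (x₁ * x₂ - a4) = v a4 := by
    apply Valuation.map_sub_eq_of_lt_right
    rw [map_mul]
    calc v x₁ * v x₂ ≤ v a4 * v a4 := mul_le_mul' hE (hle.trans hE)
      _ < 1 * v a4 := pv_mul_lt ha4 le_rfl he0
      _ = v a4 := one_mul _
  have h2a2 : v (2 * a2) = 1 := by rw [map_mul, h2, ha2, one_mul]
  have hu : v (x₁ + x₂ + 2 * a2) ≤ 1 :=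
    Valuation.map_add_le v (Valuation.map_add_le v h1 h2') h2a2.le
  have hT1 : v (x₁ * x₂ * (x₁ + x₂ + 2 * a2)) ≤ v a4 * v x₁ := by
    rw [map_mul, map_mul]
    calc v x₁ * v x₂ * v (x₁ + x₂ + 2 * a2) ≤ v x₁ * v a4 * 1 :=
          mul_le_mul' (mul_le_mul' le_rfl (hle.trans hE)) hu
      _ = v a4 * v x₁ := by rw [mul_one, mul_comm]
  have hT2 : v (a4 * (x₁ + x₂)) ≤ v a4 * v x₁ := by
    rw [map_mul]
    exact mul_le_mul' le_rfl (Valuation.map_add_le v le_rfl hle)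
  have hNS : v (x₁ * x₂ * (x₁ + x₂ + 2 * a2) + a4 * (x₁ + x₂)) ≤ v a4 * v x₁ :=
    Valuation.map_add_le v hT1 hT2
  rw [hnp] at hP'
  have hst1 : 1 ≤ v (x₃ * x₄) := by
    apply pv_cancel hd2
    rw [hP', one_mul]
    exact pv_sq_le (hd.trans hE)
  have hst2 : v (x₃ + x₄) ≤ v (x₃ * x₄) := by
    apply pv_cancel hd2
    rw [hP', hS']
    calc _ ≤ v a4 * v x₁ := hNS
      _ ≤ v a4 * v a4 := mul_le_mul' le_rfl hE
      _ = v a4 ^ 2 := (pow_two _).symm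
  exact pv_sp5 v hst1 hst2

/-- Case B: `v x₂ < 1 ≤ v x₁`. -/
theorem pv_caseB (a2 a4 : K) (h2 : v 2 = 1) (ha2 : v a2 = 1) (ha4 : v a4 < 1)
    (x₁ x₂ x₃ x₄ : K) (hx : x₁ ≠ x₂) (hB1 : v x₂ < 1) (hB2 : 1 ≤ v x₁)
    (hS : (x₃ + x₄) * (x₁ - x₂) ^ 2 = 2 * (x₁ * x₂ * (x₁ + x₂ + 2 * a2) + a4 * (x₁ + x₂)))
    (hP : x₃ * x₄ * (x₁ - x₂) ^ 2 = (x₁ * x₂ - a4) ^ 2) :
    min 1 (max (v x₃) (v a4)) = min 1 (max (v x₂) (v a4)) ∧
    min 1 (max (v x₄) (v a4)) = min 1 (max (v x₂) (v a4)) := by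
  obtain ⟨hd0, hS', hP'⟩ := pv_setup v a2 a4 h2 x₁ x₂ x₃ x₄ hx hS hP
  have hlt : v x₂ < v x₁ := hB1.trans_le hB2
  have hle : v x₂ ≤ v x₁ := hlt.le
  have hn10 : v x₁ ≠ 0 := (lt_of_lt_of_le zero_lt_one hB2).ne'
  have hd : v (x₁ - x₂) = v x₁ := Valuation.map_sub_eq_of_lt_left v hlt
  rw [hd] at hS' hP'
  have hd2 : v x₁ ^ 2 ≠ 0 := pow_ne_zero 2 hn10
  have h2a2 : v (2 * a2) = 1 := by rw [map_mul, h2, ha2, one_mul]
  have hu : v (x₁ + x₂ + 2 * a2) ≤ v x₁ :=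
    Valuation.map_add_le v (Valuation.map_add_le v le_rfl hle) (h2a2.le.trans hB2)
  have hx12 : v (x₁ + x₂) ≤ v x₁ := Valuation.map_add_le v le_rfl hle
  rcases lt_or_ge (v a4) (v x₁ * v x₂) with hb | hb
  · -- B1
    have hnp : v (x₁ * x₂ - a4) = v x₁ * v x₂ := by
      rw [← map_mul]
      apply Valuation.map_sub_eq_of_lt_left
      rwa [map_mul]
    have hT1 : v (x₁ * x₂ * (x₁ + x₂ + 2 * a2)) ≤ v x₁ * v x₂ * v x₁ := by
      rw [map_mul, map_mul]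
      exact mul_le_mul' le_rfl hu
    have hT2 : v (a4 * (x₁ + x₂)) ≤ v x₁ * v x₂ * v x₁ := by
      rw [map_mul]
      exact mul_le_mul' hb.le hx12
    have hNS : v (x₁ * x₂ * (x₁ + x₂ + 2 * a2) + a4 * (x₁ + x₂)) ≤ v x₁ * v x₂ * v x₁ :=
      Valuation.map_add_le v hT1 hT2
    have hst : v (x₃ * x₄) = v x₂ ^ 2 := by
      apply pv_cancel_eq hd2
      rw [hP', hnp, mul_pow, mul_comm]
    have hs : v (x₃ + x₄) ≤ v x₂ := by
      apply pv_cancel hd2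
      rw [hS']
      calc _ ≤ v x₁ * v x₂ * v x₁ := hNS
        _ = v x₂ * v x₁ ^ 2 := by rw [pow_two, mul_comm (v x₁) (v x₂), mul_assoc]
    obtain ⟨e3, e4⟩ := pv_sp2 v hst hs
    rw [e3, e4]
    exact ⟨rfl, rfl⟩
  · -- B2
    have hnp : v (x₁ * x₂ - a4) ≤ v a4 :=
      Valuation.map_sub_le v (by rwa [map_mul]) le_rfl
    have hT1 : v (x₁ * x₂ * (x₁ + x₂ + 2 * a2)) ≤ v a4 * v x₁ := by
      rw [map_mul, map_mul]
      exact mul_le_mul' hb hu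
    have hT2 : v (a4 * (x₁ + x₂)) ≤ v a4 * v x₁ := by
      rw [map_mul]
      exact mul_le_mul' le_rfl hx12
    have hNS : v (x₁ * x₂ * (x₁ + x₂ + 2 * a2) + a4 * (x₁ + x₂)) ≤ v a4 * v x₁ :=
      Valuation.map_add_le v hT1 hT2
    have h1sq : (1 : Γ) ≤ v x₁ ^ 2 := by
      calc (1 : Γ) = 1 ^ 2 := (one_pow 2).symm
        _ ≤ v x₁ ^ 2 := pv_sq_le hB2
    have hst : v (x₃ * x₄) ≤ v a4 ^ 2 := by
      calc v (x₃ * x₄) = v (x₃ * x₄) * 1 := (mul_one _).symm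
        _ ≤ v (x₃ * x₄) * v x₁ ^ 2 := mul_le_mul' le_rfl h1sq
        _ = v (x₁ * x₂ - a4) ^ 2 := hP'
        _ ≤ v a4 ^ 2 := pv_sq_le hnp
    have hs : v (x₃ + x₄) ≤ v a4 := by
      have h3 : v (x₃ + x₄) * v x₁ ≤ v a4 := by
        apply pv_cancel hn10
        calc v (x₃ + x₄) * v x₁ * v x₁ = v (x₃ + x₄) * v x₁ ^ 2 := by rw [pow_two, mul_assoc]
          _ = _ := hS'
          _ ≤ v a4 * v x₁ := hNS
      calc v (x₃ + x₄) = v (x₃ + x₄) * 1 := (mul_one _).symm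
        _ ≤ v (x₃ + x₄) * v x₁ := mul_le_mul' le_rfl hB2
        _ ≤ v a4 := h3
    obtain ⟨e3, e4⟩ := pv_sp1 v hst hs
    have e2 : v x₂ ≤ v a4 := by
      calc v x₂ = 1 * v x₂ := (one_mul _).symm
        _ ≤ v x₁ * v x₂ := mul_le_mul' hB2 le_rfl
        _ ≤ v a4 := hb
    rw [pv_sz_low v ha4.le e3, pv_sz_low v ha4.le e4, pv_sz_low v ha4.le e2]
    exact ⟨rfl, rfl⟩

/-- analysis of the "second root": `w * v(x₁x₂) = v(x₁x₂ - a4)²`. -/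
theorem pv_second (a4 x₁ x₂ : K) (w : Γ) (ha4 : v a4 < 1) (ha40 : a4 ≠ 0)
    (hc1 : v x₁ * v x₂ ≤ 1) (hec : v a4 ^ 2 ≤ v x₁ * v x₂)
    (hw : w * (v x₁ * v x₂) = v (x₁ * x₂ - a4) ^ 2) :
    min 1 (max w (v a4)) = rfl2 (v a4) (v x₁ * v x₂) := by
  have he0 : v a4 ≠ 0 := (Valuation.ne_zero_iff v).mpr ha40
  have hc0 : v x₁ * v x₂ ≠ 0 := by
    intro h
    rw [h] at hec
    exact (pow_ne_zero 2 he0) (le_zero_iff.mp hec)
  rcases lt_trichotomy (v a4) (v x₁ * v x₂) with h | h | h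
  · -- e < c
    have hq : v (x₁ * x₂ - a4) = v x₁ * v x₂ := by
      rw [← map_mul]
      apply Valuation.map_sub_eq_of_lt_left
      rwa [map_mul]
    have hw' : w = v x₁ * v x₂ := by
      apply pv_cancel_eq hc0
      rw [hw, hq, pow_two]
    rw [pv_rfl2_of_le h.le, hw', max_eq_left h.le, min_eq_right hc1]
  · -- e = c
    have hq : v (x₁ * x₂ - a4) ≤ v a4 :=
      Valuation.map_sub_le v (by rw [map_mul, ← h]) le_rfl
    have hw' : w ≤ v a4 := by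
      apply pv_cancel he0
      calc w * v a4 = w * (v x₁ * v x₂) := by rw [h]
        _ = v (x₁ * x₂ - a4) ^ 2 := hw
        _ ≤ v a4 ^ 2 := pv_sq_le hq
        _ = v a4 * v a4 := pow_two _
    rw [pv_rfl2_of_le h.le, max_eq_right hw', min_eq_right ha4.le, h]
  · -- c < e
    have hq : v (x₁ * x₂ - a4) = v a4 := by
      apply Valuation.map_sub_eq_of_lt_right
      rwa [map_mul]
    have hw' : w = v a4 ^ 2 / (v x₁ * v x₂) := by
      rw [eq_div_iff hc0, hw, hq]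
    have h1 : v a4 ≤ w := by
      apply pv_cancel hc0
      rw [hw, hq, pow_two]
      exact mul_le_mul' le_rfl h.le
    have h2 : w ≤ 1 := by
      apply pv_cancel hc0
      rw [hw, hq, one_mul]
      exact hec
    rw [pv_rfl2_of_lt h, max_eq_left h1, min_eq_right h2, hw']

/-- Case C: `v a4 < v x₁ < 1`, `v x₂ = v x₁`. -/
theorem pv_caseC (a2 a4 : K) (h2 : v 2 = 1) (ha2 : v a2 = 1) (ha4 : v a4 < 1) (ha40 : a4 ≠ 0)
    (x₁ x₂ x₃ x₄ : K) (hx : x₁ ≠ x₂) (heq : v x₂ = v x₁) (hC1 : v a4 < v x₁) (hC2 : v x₁ < 1)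
    (hS : (x₃ + x₄) * (x₁ - x₂) ^ 2 = 2 * (x₁ * x₂ * (x₁ + x₂ + 2 * a2) + a4 * (x₁ + x₂)))
    (hP : x₃ * x₄ * (x₁ - x₂) ^ 2 = (x₁ * x₂ - a4) ^ 2) :
    (1 ≤ v x₃ ∧ min 1 (max (v x₄) (v a4)) = rfl2 (v a4) (v x₁ * v x₂)) ∨
    (1 ≤ v x₄ ∧ min 1 (max (v x₃) (v a4)) = rfl2 (v a4) (v x₁ * v x₂)) := by
  obtain ⟨hd0, hS', hP'⟩ := pv_setup v a2 a4 h2 x₁ x₂ x₃ x₄ hx hS hP
  have he0 : v a4 ≠ 0 := (Valuation.ne_zero_iff v).mpr ha40
  have hn0 : v x₁ ≠ 0 := (lt_of_le_of_lt zero_le hC1).ne'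
  have hd : v (x₁ - x₂) ≤ v x₁ := Valuation.map_sub_le v le_rfl heq.le
  have hd2 : v (x₁ - x₂) ^ 2 ≠ 0 := pow_ne_zero 2 hd0
  have h2a2 : v (2 * a2) = 1 := by rw [map_mul, h2, ha2, one_mul]
  have hx12 : v (x₁ + x₂) ≤ v x₁ := Valuation.map_add_le v le_rfl heq.le
  have hu : v (x₁ + x₂ + 2 * a2) = 1 := by
    rw [← h2a2]
    apply Valuation.map_add_eq_of_lt_right
    rw [h2a2]
    exact hx12.trans_lt hC2
  have hT1 : v (x₁ * x₂ * (x₁ + x₂ + 2 * a2)) = v x₁ * v x₁ := by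
    rw [map_mul, map_mul, hu, mul_one, heq]
  have hT2 : v (a4 * (x₁ + x₂)) < v x₁ * v x₁ := by
    rw [map_mul]
    exact pv_mul_lt hC1 hx12 hn0
  have hNS : v (x₁ * x₂ * (x₁ + x₂ + 2 * a2) + a4 * (x₁ + x₂)) = v x₁ * v x₁ := by
    rw [← hT1]
    apply Valuation.map_add_eq_of_lt_left
    rwa [hT1]
  rw [hNS] at hS'
  -- bound on vq
  have hsq : v x₁ * v x₁ < v x₁ := by
    calc v x₁ * v x₁ < 1 * v x₁ := pv_mul_lt hC2 le_rfl hn0
      _ = v x₁ := one_mul _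
  have hq : v (x₁ * x₂ - a4) < v x₁ := by
    apply Valuation.map_sub_lt v
    · rw [map_mul, heq]; exact hsq
    · exact hC1
  -- m ≥ 1
  have hm1 : 1 ≤ v (x₃ + x₄) := by
    apply pv_cancel hd2
    rw [hS', one_mul, ← pow_two]
    exact pv_sq_le hd
  -- SP3 condition
  have hcond : v (x₃ * x₄) < v (x₃ + x₄) ^ 2 := by
    by_contra hcon
    have hcon : v (x₃ + x₄) ^ 2 ≤ v (x₃ * x₄) := not_lt.mp hcon
    have h3 : (v x₁ * v x₁) ^ 2 ≤ v (x₁ * x₂ - a4) ^ 2 * v (x₁ - x₂) ^ 2 := by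
      calc (v x₁ * v x₁) ^ 2 = (v (x₃ + x₄) * v (x₁ - x₂) ^ 2) ^ 2 := by rw [hS']
        _ = v (x₃ + x₄) ^ 2 * v (x₁ - x₂) ^ 2 * v (x₁ - x₂) ^ 2 := by rw [mul_pow, pow_two (v (x₁ - x₂) ^ 2), mul_assoc]
        _ ≤ v (x₃ * x₄) * v (x₁ - x₂) ^ 2 * v (x₁ - x₂) ^ 2 :=
            mul_le_mul' (mul_le_mul' hcon le_rfl) le_rfl
        _ = v (x₁ * x₂ - a4) ^ 2 * v (x₁ - x₂) ^ 2 := by rw [hP']
    have h4 : v (x₁ * x₂ - a4) ^ 2 * v (x₁ - x₂) ^ 2 < (v x₁ * v x₁) ^ 2 := by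
      calc v (x₁ * x₂ - a4) ^ 2 * v (x₁ - x₂) ^ 2 < v x₁ ^ 2 * v x₁ ^ 2 :=
            pv_mul_lt (pv_sq_lt hq) (pv_sq_le hd) (pow_ne_zero 2 hn0)
        _ = (v x₁ * v x₁) ^ 2 := by rw [mul_pow]
    exact absurd h3 (not_le.mpr h4)
  have hc1 : v x₁ * v x₂ ≤ 1 := by
    rw [heq]; exact (hsq.trans hC2).le
  have hec : v a4 ^ 2 ≤ v x₁ * v x₂ := by
    rw [heq, ← pow_two]; exact pv_sq_le hC1.le
  -- key: other root
  have hother : ∀ w : Γ, w * v (x₃ + x₄) = v (x₃ * x₄) →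
      w * (v x₁ * v x₂) = v (x₁ * x₂ - a4) ^ 2 := by
    intro w hw
    rw [heq, ← hS', ← hP', ← hw]
    rw [mul_assoc]
  rcases pv_sp3 v hcond with ⟨e1, e2⟩ | ⟨e1, e2⟩
  · left
    exact ⟨e1 ▸ hm1, pv_second v a4 x₁ x₂ _ ha4 ha40 hc1 hec (hother _ e2)⟩
  · right
    exact ⟨e1 ▸ hm1, pv_second v a4 x₁ x₂ _ ha4 ha40 hc1 hec (hother _ e2)⟩

/-- Case D1: `v a4 < v x₂ < v x₁ < 1`. -/
theorem pv_caseD1 (a2 a4 : K) (h2 : v 2 = 1) (ha2 : v a2 = 1) (ha4 : v a4 < 1) (ha40 : a4 ≠ 0)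
    (x₁ x₂ x₃ x₄ : K) (hx : x₁ ≠ x₂) (hlt : v x₂ < v x₁) (hD1 : v a4 < v x₂) (hC2 : v x₁ < 1)
    (hS : (x₃ + x₄) * (x₁ - x₂) ^ 2 = 2 * (x₁ * x₂ * (x₁ + x₂ + 2 * a2) + a4 * (x₁ + x₂)))
    (hP : x₃ * x₄ * (x₁ - x₂) ^ 2 = (x₁ * x₂ - a4) ^ 2) :
    (min 1 (max (v x₃) (v a4)) = v x₂ / v x₁ ∧
      min 1 (max (v x₄) (v a4)) = rfl2 (v a4) (v x₁ * v x₂)) ∨
    (min 1 (max (v x₄) (v a4)) = v x₂ / v x₁ ∧
      min 1 (max (v x₃) (v a4)) = rfl2 (v a4) (v x₁ * v x₂)) := by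
  obtain ⟨hd0, hS', hP'⟩ := pv_setup v a2 a4 h2 x₁ x₂ x₃ x₄ hx hS hP
  have he0 : v a4 ≠ 0 := (Valuation.ne_zero_iff v).mpr ha40
  have hn20 : v x₂ ≠ 0 := (lt_of_le_of_lt zero_le hD1).ne'
  have hn10 : v x₁ ≠ 0 := (lt_of_le_of_lt zero_le hlt).ne'
  have hd : v (x₁ - x₂) = v x₁ := Valuation.map_sub_eq_of_lt_left v hlt
  rw [hd] at hS' hP'
  have hd2 : v x₁ ^ 2 ≠ 0 := pow_ne_zero 2 hn10
  have h2a2 : v (2 * a2) = 1 := by rw [map_mul, h2, ha2, one_mul]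
  have hx12 : v (x₁ + x₂) ≤ v x₁ := Valuation.map_add_le v le_rfl hlt.le
  have hu : v (x₁ + x₂ + 2 * a2) = 1 := by
    rw [← h2a2]
    apply Valuation.map_add_eq_of_lt_right
    rw [h2a2]
    exact hx12.trans_lt hC2
  have hT1 : v (x₁ * x₂ * (x₁ + x₂ + 2 * a2)) = v x₁ * v x₂ := by
    rw [map_mul, map_mul, hu, mul_one]
  have hT2 : v (a4 * (x₁ + x₂)) < v x₁ * v x₂ := by
    rw [map_mul, mul_comm (v x₁) (v x₂)]
    exact pv_mul_lt hD1 hx12 hn10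
  have hNS : v (x₁ * x₂ * (x₁ + x₂ + 2 * a2) + a4 * (x₁ + x₂)) = v x₁ * v x₂ := by
    rw [← hT1]
    apply Valuation.map_add_eq_of_lt_left
    rwa [hT1]
  rw [hNS] at hS'
  -- m * n1 = n2
  have hm : v (x₃ + x₄) * v x₁ = v x₂ := by
    apply pv_cancel_eq hn10
    calc v (x₃ + x₄) * v x₁ * v x₁ = v (x₃ + x₄) * v x₁ ^ 2 := by rw [pow_two, mul_assoc]
      _ = v x₁ * v x₂ := hS'
      _ = v x₂ * v x₁ := mul_comm _ _
  have hmdiv : v (x₃ + x₄) = v x₂ / v x₁ := by rw [eq_div_iff hn10, hm]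
  have hm1 : v (x₃ + x₄) ≤ 1 := by
    apply pv_cancel hn10
    rw [hm, one_mul]; exact hlt.le
  have hme : v a4 ≤ v (x₃ + x₄) := by
    apply pv_cancel hn10
    rw [hm]
    calc v a4 * v x₁ ≤ v a4 * 1 := mul_le_mul' le_rfl hC2.le
      _ = v a4 := mul_one _
      _ ≤ v x₂ := hD1.le
  have hprod : v x₁ * v x₂ < v x₂ := by
    calc v x₁ * v x₂ < 1 * v x₂ := pv_mul_lt hC2 le_rfl hn20
      _ = v x₂ := one_mul _
  have hq : v (x₁ * x₂ - a4) < v x₂ := by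
    apply Valuation.map_sub_lt v
    · rw [map_mul]; exact hprod
    · exact hD1
  have hcond : v (x₃ * x₄) < v (x₃ + x₄) ^ 2 := by
    by_contra hcon
    have hcon : v (x₃ + x₄) ^ 2 ≤ v (x₃ * x₄) := not_lt.mp hcon
    have h3 : v x₂ ^ 2 ≤ v (x₁ * x₂ - a4) ^ 2 := by
      calc v x₂ ^ 2 = (v (x₃ + x₄) * v x₁) ^ 2 := by rw [hm]
        _ = v (x₃ + x₄) ^ 2 * v x₁ ^ 2 := mul_pow _ _ _
        _ ≤ v (x₃ * x₄) * v x₁ ^ 2 := mul_le_mul' hcon le_rfl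
        _ = _ := hP'
    exact absurd h3 (not_le.mpr (pv_sq_lt hq))
  have hc1 : v x₁ * v x₂ ≤ 1 := (hprod.trans (hlt.trans hC2)).le
  have hec : v a4 ^ 2 ≤ v x₁ * v x₂ := by
    rw [pow_two]; exact mul_le_mul' (hD1.le.trans hlt.le) hD1.le
  have hother : ∀ w : Γ, w * v (x₃ + x₄) = v (x₃ * x₄) →
      w * (v x₁ * v x₂) = v (x₁ * x₂ - a4) ^ 2 := by
    intro w hw
    rw [← hS', ← hP', ← hw, mul_assoc]
  rcases pv_sp3 v hcond with ⟨e1, e2⟩ | ⟨e1, e2⟩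
  · left
    refine ⟨?_, pv_second v a4 x₁ x₂ _ ha4 ha40 hc1 hec (hother _ e2)⟩
    rw [pv_sz_mid v (e1 ▸ hme) (e1 ▸ hm1), e1, hmdiv]
  · right
    refine ⟨?_, pv_second v a4 x₁ x₂ _ ha4 ha40 hc1 hec (hother _ e2)⟩
    rw [pv_sz_mid v (e1 ▸ hme) (e1 ▸ hm1), e1, hmdiv]

/-- Case D2: `v x₂ ≤ v a4 < v x₁ < 1`. -/
theorem pv_caseD2 (a2 a4 : K) (h2 : v 2 = 1) (ha2 : v a2 = 1) (_ha4 : v a4 < 1) (ha40 : a4 ≠ 0)
    (x₁ x₂ x₃ x₄ : K) (hx : x₁ ≠ x₂) (hD2 : v x₂ ≤ v a4) (hC1 : v a4 < v x₁) (hC2 : v x₁ < 1)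
    (hS : (x₃ + x₄) * (x₁ - x₂) ^ 2 = 2 * (x₁ * x₂ * (x₁ + x₂ + 2 * a2) + a4 * (x₁ + x₂)))
    (hP : x₃ * x₄ * (x₁ - x₂) ^ 2 = (x₁ * x₂ - a4) ^ 2) :
    min 1 (max (v x₃) (v a4)) = v a4 / v x₁ ∧ min 1 (max (v x₄) (v a4)) = v a4 / v x₁ := by
  obtain ⟨hd0, hS', hP'⟩ := pv_setup v a2 a4 h2 x₁ x₂ x₃ x₄ hx hS hP
  have he0 : v a4 ≠ 0 := (Valuation.ne_zero_iff v).mpr ha40
  have hlt : v x₂ < v x₁ := hD2.trans_lt hC1
  have hn10 : v x₁ ≠ 0 := (lt_of_le_of_lt zero_le hlt).ne'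
  have hd : v (x₁ - x₂) = v x₁ := Valuation.map_sub_eq_of_lt_left v hlt
  rw [hd] at hS' hP'
  have hd2 : v x₁ ^ 2 ≠ 0 := pow_ne_zero 2 hn10
  have h2a2 : v (2 * a2) = 1 := by rw [map_mul, h2, ha2, one_mul]
  have hx12 : v (x₁ + x₂) ≤ v x₁ := Valuation.map_add_le v le_rfl hlt.le
  have hu : v (x₁ + x₂ + 2 * a2) ≤ 1 :=
    Valuation.map_add_le v (hx12.trans hC2.le) h2a2.le
  have hT1 : v (x₁ * x₂ * (x₁ + x₂ + 2 * a2)) ≤ v a4 * v x₁ := by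
    rw [map_mul, map_mul]
    calc v x₁ * v x₂ * v (x₁ + x₂ + 2 * a2) ≤ v x₁ * v a4 * 1 :=
          mul_le_mul' (mul_le_mul' le_rfl hD2) hu
      _ = v a4 * v x₁ := by rw [mul_one, mul_comm]
  have hT2 : v (a4 * (x₁ + x₂)) ≤ v a4 * v x₁ := by
    rw [map_mul]
    exact mul_le_mul' le_rfl hx12
  have hNS : v (x₁ * x₂ * (x₁ + x₂ + 2 * a2) + a4 * (x₁ + x₂)) ≤ v a4 * v x₁ :=
    Valuation.map_add_le v hT1 hT2
  have hq : v (x₁ * x₂ - a4) = v a4 := by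
    apply Valuation.map_sub_eq_of_lt_right
    rw [map_mul]
    calc v x₁ * v x₂ ≤ v x₁ * v a4 := mul_le_mul' le_rfl hD2
      _ < 1 * v a4 := pv_mul_lt hC2 le_rfl he0
      _ = v a4 := one_mul _
  rw [hq] at hP'
  have hMn : v a4 / v x₁ * v x₁ = v a4 := div_mul_cancel₀ _ hn10
  have hst : v (x₃ * x₄) = (v a4 / v x₁) ^ 2 := by
    apply pv_cancel_eq hd2
    rw [hP', ← mul_pow, hMn]
  have hs : v (x₃ + x₄) ≤ v a4 / v x₁ := by
    apply pv_cancel hn10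
    rw [hMn]
    apply pv_cancel hn10
    calc v (x₃ + x₄) * v x₁ * v x₁ = v (x₃ + x₄) * v x₁ ^ 2 := by rw [pow_two, mul_assoc]
      _ = _ := hS'
      _ ≤ v a4 * v x₁ := hNS
  obtain ⟨e3, e4⟩ := pv_sp2 v hst hs
  have hM1 : v a4 / v x₁ ≤ 1 := by
    apply pv_cancel hn10
    rw [hMn, one_mul]; exact hC1.le
  have hMe : v a4 ≤ v a4 / v x₁ := by
    apply pv_cancel hn10
    rw [hMn]
    calc v a4 * v x₁ ≤ v a4 * 1 := mul_le_mul' le_rfl hC2.le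
      _ = v a4 := mul_one _
  exact ⟨by rw [pv_sz_mid v (e3 ▸ hMe) (e3 ▸ hM1), e3],
    by rw [pv_sz_mid v (e4 ▸ hMe) (e4 ▸ hM1), e4]⟩

theorem pv_min_div {a b : Γ} (hb : b ≠ 0) (hab : a ≤ b) : min (b / a) (a / b) = a / b := by
  apply min_eq_right
  rcases eq_or_ne a 0 with ha | ha
  · subst ha; simp
  have h1 : a / b ≤ 1 := by
    apply pv_cancel hb
    rw [div_mul_cancel₀ _ hb, one_mul]; exact hab
  have h2 : 1 ≤ b / a := by
    apply pv_cancel ha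
    rw [div_mul_cancel₀ _ ha, one_mul]; exact hab
  exact h1.trans h2

/-- the pair lemma under the normalisation `v x₂ ≤ v x₁` -/
theorem pv_pair_aux (a2 a4 : K) (h2 : v 2 = 1) (ha2 : v a2 = 1) (ha4 : v a4 < 1) (ha40 : a4 ≠ 0)
    (x₁ x₂ x₃ x₄ : K) (hx : x₁ ≠ x₂) (hle : v x₂ ≤ v x₁)
    (hS : (x₃ + x₄) * (x₁ - x₂) ^ 2 = 2 * (x₁ * x₂ * (x₁ + x₂ + 2 * a2) + a4 * (x₁ + x₂)))
    (hP : x₃ * x₄ * (x₁ - x₂) ^ 2 = (x₁ * x₂ - a4) ^ 2) :
    (min 1 (max (v x₃) (v a4)) =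
        min (min 1 (max (v x₁) (v a4)) / min 1 (max (v x₂) (v a4)))
          (min 1 (max (v x₂) (v a4)) / min 1 (max (v x₁) (v a4))) ∧
      min 1 (max (v x₄) (v a4)) =
        rfl2 (v a4) (min 1 (max (v x₁) (v a4)) * min 1 (max (v x₂) (v a4)))) ∨
    (min 1 (max (v x₄) (v a4)) =
        min (min 1 (max (v x₁) (v a4)) / min 1 (max (v x₂) (v a4)))
          (min 1 (max (v x₂) (v a4)) / min 1 (max (v x₁) (v a4))) ∧
      min 1 (max (v x₃) (v a4)) =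
        rfl2 (v a4) (min 1 (max (v x₁) (v a4)) * min 1 (max (v x₂) (v a4)))) := by
  have he0 : v a4 ≠ 0 := (Valuation.ne_zero_iff v).mpr ha40
  rcases le_or_gt 1 (v x₂) with hA | hA
  · -- Case A
    obtain ⟨h3, h4⟩ := pv_caseA v a2 a4 h2 ha2 ha4 x₁ x₂ x₃ x₄ hx hle hA hS hP
    left
    rw [pv_sz_one v h3, pv_sz_one v h4, pv_sz_one v hA, pv_sz_one v (hA.trans hle)]
    rw [div_one, min_self, one_mul, pv_rfl2_of_le ha4.le]
    exact ⟨rfl, rfl⟩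
  rcases le_or_gt 1 (v x₁) with hB | hB
  · -- Case B
    obtain ⟨h3, h4⟩ := pv_caseB v a2 a4 h2 ha2 ha4 x₁ x₂ x₃ x₄ hx hA hB hS hP
    left
    rw [h3, h4, pv_sz_one v hB]
    set j := min 1 (max (v x₂) (v a4)) with hj
    have hj1 : j ≤ 1 := min_le_left _ _
    have hje : v a4 ≤ j := le_min ha4.le (le_max_right _ _)
    have hj0 : j ≠ 0 := fun h => he0 (le_zero_iff.mp (h ▸ hje))
    rw [one_mul, pv_rfl2_of_le hje, pv_min_div one_ne_zero hj1, div_one]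
    exact ⟨rfl, rfl⟩
  rcases le_or_gt (v x₁) (v a4) with hE | hE
  · -- Case E
    obtain ⟨h3, h4⟩ := pv_caseE v a2 a4 h2 ha2 ha4 ha40 x₁ x₂ x₃ x₄ hx hle hE hS hP
    left
    rw [pv_sz_one v h3, pv_sz_one v h4, pv_sz_low v ha4.le hE, pv_sz_low v ha4.le (hle.trans hE)]
    have hee : v a4 * v a4 < v a4 := by
      calc v a4 * v a4 < 1 * v a4 := pv_mul_lt ha4 le_rfl he0
        _ = v a4 := one_mul _
    rw [div_self he0, min_self, pv_rfl2_of_lt hee, pow_two, div_self (mul_ne_zero he0 he0)]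
    exact ⟨rfl, rfl⟩
  rcases eq_or_lt_of_le hle with heq | hlt
  · -- Case C
    have hs1 : min 1 (max (v x₁) (v a4)) = v x₁ := pv_sz_mid v hE.le hB.le
    have hs2 : min 1 (max (v x₂) (v a4)) = v x₂ := by
      rw [heq]; exact hs1
    have hn0 : v x₁ ≠ 0 := (lt_of_le_of_lt zero_le hE).ne'
    rw [hs1, hs2]
    have hmin : min (v x₁ / v x₂) (v x₂ / v x₁) = 1 := by
      rw [heq, div_self hn0, min_self]
    rw [hmin]
    rcases pv_caseC v a2 a4 h2 ha2 ha4 ha40 x₁ x₂ x₃ x₄ hx heq hE hB hS hP with ⟨h3, h4⟩ | ⟨h4, h3⟩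
    · left
      exact ⟨pv_sz_one v h3, h4⟩
    · right
      exact ⟨pv_sz_one v h4, h3⟩
  rcases lt_or_ge (v a4) (v x₂) with hD | hD
  · -- Case D1
    have hs1 : min 1 (max (v x₁) (v a4)) = v x₁ := pv_sz_mid v hE.le hB.le
    have hs2 : min 1 (max (v x₂) (v a4)) = v x₂ := pv_sz_mid v hD.le hA.le
    have hn0 : v x₁ ≠ 0 := (lt_of_le_of_lt zero_le hE).ne'
    rw [hs1, hs2, pv_min_div hn0 hle]
    exact pv_caseD1 v a2 a4 h2 ha2 ha4 ha40 x₁ x₂ x₃ x₄ hx hlt hD hB hS hP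
  · -- Case D2
    have hs1 : min 1 (max (v x₁) (v a4)) = v x₁ := pv_sz_mid v hE.le hB.le
    have hs2 : min 1 (max (v x₂) (v a4)) = v a4 := pv_sz_low v ha4.le hD
    have hn0 : v x₁ ≠ 0 := (lt_of_le_of_lt zero_le hE).ne'
    obtain ⟨h3, h4⟩ := pv_caseD2 v a2 a4 h2 ha2 ha4 ha40 x₁ x₂ x₃ x₄ hx hD hE hB hS hP
    left
    rw [hs1, hs2, pv_min_div hn0 hE.le, h3, h4]
    have hlt' : v x₁ * v a4 < v a4 := by
      calc v x₁ * v a4 < 1 * v a4 := pv_mul_lt hB le_rfl he0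
        _ = v a4 := one_mul _
    rw [pv_rfl2_of_lt hlt']
    refine ⟨rfl, ?_⟩
    rw [pow_two, mul_comm (v x₁) (v a4), mul_div_mul_left _ _ he0]

/-- the pair lemma, abstract valuation form -/
theorem pv_pair (a2 a4 : K) (h2 : v 2 = 1) (ha2 : v a2 = 1) (ha4 : v a4 < 1) (ha40 : a4 ≠ 0)
    (x₁ x₂ x₃ x₄ : K) (hx : x₁ ≠ x₂)
    (hS : (x₃ + x₄) * (x₁ - x₂) ^ 2 = 2 * (x₁ * x₂ * (x₁ + x₂ + 2 * a2) + a4 * (x₁ + x₂)))
    (hP : x₃ * x₄ * (x₁ - x₂) ^ 2 = (x₁ * x₂ - a4) ^ 2) :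
    (min 1 (max (v x₃) (v a4)) =
        min (min 1 (max (v x₁) (v a4)) / min 1 (max (v x₂) (v a4)))
          (min 1 (max (v x₂) (v a4)) / min 1 (max (v x₁) (v a4))) ∧
      min 1 (max (v x₄) (v a4)) =
        rfl2 (v a4) (min 1 (max (v x₁) (v a4)) * min 1 (max (v x₂) (v a4)))) ∨
    (min 1 (max (v x₄) (v a4)) =
        min (min 1 (max (v x₁) (v a4)) / min 1 (max (v x₂) (v a4)))
          (min 1 (max (v x₂) (v a4)) / min 1 (max (v x₁) (v a4))) ∧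
      min 1 (max (v x₃) (v a4)) =
        rfl2 (v a4) (min 1 (max (v x₁) (v a4)) * min 1 (max (v x₂) (v a4)))) := by
  rcases le_total (v x₂) (v x₁) with hle | hle
  · exact pv_pair_aux v a2 a4 h2 ha2 ha4 ha40 x₁ x₂ x₃ x₄ hx hle hS hP
  · have hS' : (x₃ + x₄) * (x₂ - x₁) ^ 2 =
        2 * (x₂ * x₁ * (x₂ + x₁ + 2 * a2) + a4 * (x₂ + x₁)) := by
      linear_combination hS
    have hP' : x₃ * x₄ * (x₂ - x₁) ^ 2 = (x₂ * x₁ - a4) ^ 2 := by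
      linear_combination hP
    have := pv_pair_aux v a2 a4 h2 ha2 ha4 ha40 x₂ x₁ x₃ x₄ hx.symm hle hS' hP'
    rw [min_comm (min 1 (max (v x₂) (v a4)) / min 1 (max (v x₁) (v a4))),
      mul_comm (min 1 (max (v x₂) (v a4)))] at this
    exact this

/-- the doubling lemma, abstract valuation form -/
theorem pv_dbl (a2 a4 : K) (h2 : v 2 = 1) (ha2 : v a2 = 1) (ha4 : v a4 < 1) (ha40 : a4 ≠ 0)
    (x y x' : K) (hxy : y ^ 2 = x ^ 3 + a2 * x ^ 2 + a4 * x) (hy : y ≠ 0)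
    (hd : x' * (4 * y ^ 2) = (x ^ 2 - a4) ^ 2) :
    min 1 (max (v x') (v a4)) =
      rfl2 (v a4) (min 1 (max (v x) (v a4)) * min 1 (max (v x) (v a4))) := by
  have he0 : v a4 ≠ 0 := (Valuation.ne_zero_iff v).mpr ha40
  have hx0 : x ≠ 0 := by
    rintro rfl
    apply hy
    have : y ^ 2 = 0 := by rw [hxy]; ring
    exact pow_eq_zero_iff (two_ne_zero) |>.mp this
  have hn0 : v x ≠ 0 := (Valuation.ne_zero_iff v).mpr hx0
  have h4 : v (4 : K) = 1 := by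
    have : (4 : K) = 2 * 2 := by norm_num
    rw [this, map_mul, h2, one_mul]
  -- v x' * (v x * v (x^2 + a2 x + a4)) = v (x^2 - a4)^2
  have hfac : y ^ 2 = x * (x ^ 2 + a2 * x + a4) := by rw [hxy]; ring
  have hd' : v x' * (v x * v (x ^ 2 + a2 * x + a4)) = v (x ^ 2 - a4) ^ 2 := by
    have := congrArg v hd
    rw [map_mul, map_mul, h4, one_mul, hfac, map_mul, map_pow] at this
    exact this
  have hg0 : v (x ^ 2 + a2 * x + a4) ≠ 0 := by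
    rw [Ne, Valuation.zero_iff]
    intro h
    apply hy
    have : y ^ 2 = 0 := by rw [hfac, h, mul_zero]
    exact pow_eq_zero_iff (two_ne_zero) |>.mp this
  have hee : v a4 * v a4 < v a4 := by
    calc v a4 * v a4 < 1 * v a4 := pv_mul_lt ha4 le_rfl he0
      _ = v a4 := one_mul _
  rcases le_or_gt 1 (v x) with h1 | h1
  · -- v x ≥ 1 : v x' ≥ 1
    rw [pv_sz_one v h1, one_mul, pv_rfl2_of_le ha4.le]
    apply pv_sz_one
    have hxx : (1 : Γ) ≤ v x * v x := by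
      calc (1 : Γ) = 1 * 1 := (one_mul 1).symm
        _ ≤ v x * v x := mul_le_mul' h1 h1
    have hq : v (x ^ 2 - a4) = v x * v x := by
      rw [← map_mul, ← pow_two]
      apply Valuation.map_sub_eq_of_lt_left
      rw [pow_two, map_mul]
      exact ha4.trans_le hxx
    have hg : v (x ^ 2 + a2 * x + a4) ≤ v x * v x := by
      apply Valuation.map_add_le v (Valuation.map_add_le v _ _) (ha4.le.trans hxx)
      · rw [pow_two, map_mul]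
      · rw [map_mul, ha2]
        exact mul_le_mul' h1 le_rfl
    apply pv_cancel (mul_ne_zero hn0 hg0)
    rw [hd', hq, one_mul]
    calc v x * v (x ^ 2 + a2 * x + a4) ≤ v x * (v x * v x) := mul_le_mul' le_rfl hg
      _ = v x * 1 * (v x * v x) := by rw [mul_one]
      _ ≤ v x * v x * (v x * v x) := mul_le_mul' (mul_le_mul' le_rfl h1) le_rfl
      _ = (v x * v x) ^ 2 := (pow_two _).symm
  rcases le_or_gt (v x) (v a4) with hE | hE
  · -- v x ≤ e : v x' ≥ 1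
    rw [pv_sz_low v ha4.le hE, pv_rfl2_of_lt hee, pow_two, div_self (mul_ne_zero he0 he0)]
    apply pv_sz_one
    have hq : v (x ^ 2 - a4) = v a4 := by
      apply Valuation.map_sub_eq_of_lt_right
      rw [pow_two, map_mul]
      exact (mul_le_mul' hE hE).trans_lt hee
    have hg : v (x ^ 2 + a2 * x + a4) ≤ v a4 := by
      apply Valuation.map_add_le v (Valuation.map_add_le v _ _) le_rfl
      · rw [pow_two, map_mul]
        exact ((mul_le_mul' hE hE).trans_lt hee).le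
      · rw [map_mul, ha2, one_mul]; exact hE
    apply pv_cancel (mul_ne_zero hn0 hg0)
    rw [hd', hq, one_mul]
    calc v x * v (x ^ 2 + a2 * x + a4) ≤ v a4 * v a4 := mul_le_mul' hE hg
      _ = v a4 ^ 2 := (pow_two _).symm
  · -- e < v x < 1
    rw [pv_sz_mid v hE.le h1.le]
    have hxx : v x * v x < v x := by
      calc v x * v x < 1 * v x := pv_mul_lt h1 le_rfl hn0
        _ = v x := one_mul _
    have hg : v (x ^ 2 + a2 * x + a4) = v x := by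
      have h1' : v (x ^ 2 + a2 * x) = v x := by
        have : v (a2 * x) = v x := by rw [map_mul, ha2, one_mul]
        rw [← this]
        apply Valuation.map_add_eq_of_lt_right
        rw [this, pow_two, map_mul]
        exact hxx
      rw [← h1']
      apply Valuation.map_add_eq_of_lt_left
      rw [h1']; exact hE
    rw [hg] at hd'
    have hq : v (x ^ 2 - a4) = v (x * x - a4) := by rw [pow_two]
    rw [hq] at hd'
    exact pv_second v a4 x x _ ha4 ha40 (hxx.trans h1).le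
      (by rw [pow_two]; exact mul_le_mul' hE.le hE.le) hd'

end Abstract

section Final

variable {K : Type*} [Field K] (A : ValuationSubring K)

/-- The pair lemma.  `x₃, x₄` are the `x`-coordinates of `P ± Q`. -/
theorem pair_val (a2 a4 : K) (h2 : A.valuation (2 : K) = 1) (ha2 : A.valuation a2 = 1)
    (ha4 : A.valuation a4 < 1) (ha40 : a4 ≠ 0) (x₁ x₂ x₃ x₄ : K) (hx : x₁ ≠ x₂)
    (hS : (x₃ + x₄) * (x₁ - x₂) ^ 2 = 2 * (x₁ * x₂ * (x₁ + x₂ + 2 * a2) + a4 * (x₁ + x₂)))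
    (hP : x₃ * x₄ * (x₁ - x₂) ^ 2 = (x₁ * x₂ - a4) ^ 2) :
    (sz A (A.valuation a4) x₃ = min (sz A (A.valuation a4) x₁ / sz A (A.valuation a4) x₂)
          (sz A (A.valuation a4) x₂ / sz A (A.valuation a4) x₁) ∧
      sz A (A.valuation a4) x₄ =
        rfl2 (A.valuation a4) (sz A (A.valuation a4) x₁ * sz A (A.valuation a4) x₂)) ∨
    (sz A (A.valuation a4) x₄ = min (sz A (A.valuation a4) x₁ / sz A (A.valuation a4) x₂)
          (sz A (A.valuation a4) x₂ / sz A (A.valuation a4) x₁) ∧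
      sz A (A.valuation a4) x₃ =
        rfl2 (A.valuation a4) (sz A (A.valuation a4) x₁ * sz A (A.valuation a4) x₂)) :=
  pv_pair A.valuation a2 a4 h2 ha2 ha4 ha40 x₁ x₂ x₃ x₄ hx hS hP

-- NOTE: the Spec statement `dbl_val` lives in `Fermat/Agent/S05x/DblVal.lean` (helper32, landed first);
-- the abstract version here is `pv_dbl`.

end Final

end Fermat.Agent.S05x

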