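import Fermat.Agent.S05x.Defs

/-!
# S05 project, module M6_SAW: the sawtooth induction

Abstract lemma (any commutative group `G`, subgroup `L`): if `g 0 ∈ L` and for every `j` the pair
`{g (j+2), g j}` equals `{D, T}` with `D ≡ (g (j+1) / γ)^{±1}` and `T ≡ (g (j+1) * γ)^{±1}` modulo `L`
(`γ = g 1`), then `g k ≡ γ^{±k}` modulo `L` for all `k`.

Application: `psz_pow_mem`.
-/

set_option autoImplicit false
open WeierstrassCurve WeierstrassCurve.Affine WeierstrassCurve.Affine.Point

namespace Fermat.Agent.S05x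

section Abstract

variable {G : Type*} [CommGroup G] (L : Subgroup G)

/-- `x ≡ y^{±1}` modulo the subgroup `L`. -/
def SawRel (x y : G) : Prop := x / y ∈ L ∨ x * y ∈ L

theorem sawRel_refl (x : G) : SawRel L x x := Or.inl (by rw [div_self']; exact L.one_mem)

theorem sawRel_symm {x y : G} (h : SawRel L x y) : SawRel L y x := by
  rcases h with h | h
  · left
    have := L.inv_mem h
    rwa [inv_div] at this
  · right
    rwa [mul_comm]

theorem sawRel_trans {x y z : G} (h₁ : SawRel L x y) (h₂ : SawRel L y z) : SawRel L x z := by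
  rcases h₁ with h₁ | h₁ <;> rcases h₂ with h₂ | h₂
  · left
    have := L.mul_mem h₁ h₂
    rwa [div_mul_div_cancel] at this
  · right
    have := L.mul_mem h₁ h₂
    have e : x / y * (y * z) = x * z := by
      rw [div_mul_eq_mul_div, mul_div_assoc, mul_div_cancel_left]
    rwa [e] at this
  · right
    have := L.div_mem h₁ h₂
    have e : x * y / (y / z) = x * z := by
      rw [div_div_eq_mul_div, mul_assoc, mul_comm y z, ← mul_assoc, mul_div_assoc, div_self',
        mul_one]
    rwa [e] at this
  · left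
    have := L.div_mem h₁ h₂
    have e : x * y / (y * z) = x / z := by
      rw [mul_comm x y, mul_div_mul_left_eq_div]
    rwa [e] at this

/-- The abstract sawtooth lemma. -/
theorem saw_induction (g : ℕ → G) (h0 : g 0 ∈ L)
    (hstep : ∀ j : ℕ, ∃ D T : G, SawRel L D (g (j + 1) / g 1) ∧ SawRel L T (g (j + 1) * g 1) ∧
      ((g (j + 2) = D ∧ g j = T) ∨ (g j = D ∧ g (j + 2) = T))) :
    ∀ k : ℕ, SawRel L (g k) (g 1 ^ k) := by
  have main : ∀ k : ℕ, SawRel L (g k) (g 1 ^ k) ∧ SawRel L (g (k + 1)) (g 1 ^ (k + 1)) := by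
    intro k
    induction k with
    | zero =>
      refine ⟨Or.inl ?_, ?_⟩
      · rw [pow_zero, div_one]; exact h0
      · rw [zero_add, pow_one]; exact sawRel_refl L _
    | succ k ih =>
      obtain ⟨ihk, ihk1⟩ := ih
      refine ⟨ihk1, ?_⟩
      obtain ⟨D, T, hD, hT, hc⟩ := hstep k
      rcases ihk1 with h | h
      · -- `g (k+1) ≡ γ^(k+1)`
        have e1 : g (k + 1) / g 1 / g 1 ^ k = g (k + 1) / g 1 ^ (k + 1) := by
          rw [div_div, ← pow_succ']
        have e2 : g (k + 1) * g 1 / g 1 ^ (k + 1 + 1) = g (k + 1) / g 1 ^ (k + 1) := by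
          rw [pow_succ (g 1) (k + 1), mul_div_mul_right_eq_div]
        have hD' : SawRel L D (g 1 ^ k) := sawRel_trans L hD (Or.inl (by rw [e1]; exact h))
        have hT' : SawRel L T (g 1 ^ (k + 1 + 1)) := sawRel_trans L hT (Or.inl (by rw [e2]; exact h))
        rcases hc with ⟨h2, hk⟩ | ⟨hk, h2⟩
        · -- g (k+2) = D ~ γ^k ~ g k = T ~ γ^(k+2)
          rw [h2]
          refine sawRel_trans L hD' (sawRel_trans L (sawRel_symm L ihk) ?_)
          rw [hk]; exact hT'
        · rw [h2]; exact hT'
      · -- `g (k+1) ≡ γ^-(k+1)`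
        have e1 : g (k + 1) / g 1 * g 1 ^ (k + 1 + 1) = g (k + 1) * g 1 ^ (k + 1) := by
          rw [pow_succ' (g 1) (k + 1), ← mul_assoc, div_mul_cancel]
        have e2 : g (k + 1) * g 1 * g 1 ^ k = g (k + 1) * g 1 ^ (k + 1) := by
          rw [mul_assoc, ← pow_succ']
        have hD' : SawRel L D (g 1 ^ (k + 1 + 1)) := sawRel_trans L hD (Or.inr (by rw [e1]; exact h))
        have hT' : SawRel L T (g 1 ^ k) := sawRel_trans L hT (Or.inr (by rw [e2]; exact h))
        rcases hc with ⟨h2, hk⟩ | ⟨hk, h2⟩
        · rw [h2]; exact hD'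
        · rw [h2]
          refine sawRel_trans L hT' (sawRel_trans L (sawRel_symm L ihk) ?_)
          rw [hk]; exact hD'
  exact fun k => (main k).1

end Abstract

section Apply

variable {K : Type*} [Field K] [DecidableEq K] (A : ValuationSubring K) {W : WeierstrassCurve K}

omit [DecidableEq K] in
theorem psz_ne_zero (H : NodeHyp A W) (Q : W.toAffine.Point) : psz A W Q ≠ 0 := by
  have hη : A.valuation W.a₄ ≠ 0 := (A.valuation.ne_zero_iff).2 H.a₄0
  cases Q with
  | zero => exact one_ne_zero
  | some x y h =>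
    rw [psz_some]
    have h1 := le_sz A (le_of_lt H.a₄m) x
    exact ne_of_gt (lt_of_lt_of_le (zero_lt_iff.2 hη) h1)

/-- sawtooth consequence, with the pair lemma for points as an explicit hypothesis:
for an `n`-torsion point, `psz P ^ n` is an even power of `v(a₄)` -/
theorem psz_pow_mem_of_pair (H : NodeHyp A W)
    (hpair : ∀ P Q : W.toAffine.Point,
      (psz A W (P + Q) = min (psz A W P / psz A W Q) (psz A W Q / psz A W P) ∧
        psz A W (P - Q) = rfl2 (A.valuation W.a₄) (psz A W P * psz A W Q)) ∨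
      (psz A W (P - Q) = min (psz A W P / psz A W Q) (psz A W Q / psz A W P) ∧
        psz A W (P + Q) = rfl2 (A.valuation W.a₄) (psz A W P * psz A W Q)))
    (P : W.toAffine.Point) (n : ℕ) (hP : n • P = 0) :
    ∃ m : ℤ, psz A W P ^ n = A.valuation W.a₄ ^ (2 * m) := by
  have hη : A.valuation W.a₄ ≠ 0 := (A.valuation.ne_zero_iff).2 H.a₄0
  set ηu : A.ValueGroupˣ := Units.mk0 (A.valuation W.a₄) hη with hηu
  set u : ℕ → A.ValueGroupˣ := fun k => Units.mk0 (psz A W (k • P)) (psz_ne_zero A H _) with hu
  set L : Subgroup A.ValueGroupˣ := Subgroup.zpowers (ηu ^ 2) with hL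
  have hu_val : ∀ k, ((u k : A.ValueGroupˣ) : A.ValueGroup) = psz A W (k • P) := fun k => rfl
  have hη2 : ηu ^ 2 ∈ L := Subgroup.mem_zpowers _
  have h0 : u 0 ∈ L := by
    have : u 0 = 1 := by
      apply Units.ext
      rw [hu_val, zero_smul, psz_zero, Units.val_one]
    rw [this]; exact L.one_mem
  have hstep : ∀ j : ℕ, ∃ D T : A.ValueGroupˣ, SawRel L D (u (j + 1) / u 1) ∧
      SawRel L T (u (j + 1) * u 1) ∧ ((u (j + 2) = D ∧ u j = T) ∨ (u j = D ∧ u (j + 2) = T)) := by
    intro j
    have hadd : (j + 1) • P + P = (j + 2) • P := (succ_nsmul P (j + 1)).symm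
    have hsub : (j + 1) • P - P = j • P := by rw [succ_nsmul, add_sub_cancel_right]
    have h1P : (1 : ℕ) • P = P := one_nsmul P
    -- the two candidate values
    have hmin : ∀ X : A.ValueGroupˣ,
        (X : A.ValueGroup) = min (psz A W ((j + 1) • P) / psz A W P)
          (psz A W P / psz A W ((j + 1) • P)) → SawRel L X (u (j + 1) / u 1) := by
      intro X hX
      rcases min_choice (psz A W ((j + 1) • P) / psz A W P)
        (psz A W P / psz A W ((j + 1) • P)) with hm | hm
      · left
        have : X = u (j + 1) / u 1 := by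
          apply Units.ext
          rw [hX, hm, Units.val_div_eq_div_val, hu_val, hu_val, h1P]
        rw [this, div_self']; exact L.one_mem
      · right
        have : X * (u (j + 1) / u 1) = 1 := by
          apply Units.ext
          rw [Units.val_mul, hX, hm, Units.val_div_eq_div_val, hu_val, hu_val, h1P, Units.val_one]
          have ha := psz_ne_zero A H ((j + 1) • P)
          have hb := psz_ne_zero A H P
          field_simp
        rw [this]; exact L.one_mem
    have hrfl : ∀ X : A.ValueGroupˣ,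
        (X : A.ValueGroup) = rfl2 (A.valuation W.a₄) (psz A W ((j + 1) • P) * psz A W P) →
          SawRel L X (u (j + 1) * u 1) := by
      intro X hX
      unfold rfl2 at hX
      split_ifs at hX with hc
      · left
        have : X = u (j + 1) * u 1 := by
          apply Units.ext
          rw [hX, Units.val_mul, hu_val, hu_val, h1P]
        rw [this, div_self']; exact L.one_mem
      · right
        have : X * (u (j + 1) * u 1) = ηu ^ 2 := by
          apply Units.ext
          rw [Units.val_mul, hX, Units.val_mul, hu_val, hu_val, h1P, Units.val_pow_eq_pow_val]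
          have ha := psz_ne_zero A H ((j + 1) • P)
          have hb := psz_ne_zero A H P
          show A.valuation W.a₄ ^ 2 / (psz A W ((j + 1) • P) * psz A W P) *
            (psz A W ((j + 1) • P) * psz A W P) = A.valuation W.a₄ ^ 2
          field_simp
        rw [this]; exact hη2
    rcases hpair ((j + 1) • P) P with ⟨h₁, h₂⟩ | ⟨h₁, h₂⟩
    · rw [hadd] at h₁
      rw [hsub] at h₂
      exact ⟨u (j + 2), u j, hmin _ h₁, hrfl _ h₂, Or.inl ⟨rfl, rfl⟩⟩
    · rw [hsub] at h₁
      rw [hadd] at h₂
      exact ⟨u j, u (j + 2), hmin _ h₁, hrfl _ h₂, Or.inr ⟨rfl, rfl⟩⟩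
  have key := saw_induction L u h0 hstep n
  have hun : u n = 1 := by
    apply Units.ext
    rw [hu_val, hP, psz_zero, Units.val_one]
  have hmem : u 1 ^ n ∈ L := by
    rcases key with h | h
    · rw [hun, one_div] at h
      have := L.inv_mem h
      rwa [inv_inv] at this
    · rwa [hun, one_mul] at h
  obtain ⟨m, hm⟩ := Subgroup.mem_zpowers_iff.1 hmem
  refine ⟨m, ?_⟩
  have h1 : ((u 1 ^ n : A.ValueGroupˣ) : A.ValueGroup) = psz A W P ^ n := by
    rw [Units.val_pow_eq_pow_val, hu_val, one_nsmul]
  have h2 : (((ηu ^ 2) ^ m : A.ValueGroupˣ) : A.ValueGroup) = A.valuation W.a₄ ^ (2 * m) := by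
    rw [← zpow_natCast ηu 2, ← zpow_mul, Units.val_zpow_eq_zpow_val]
    rfl
  rw [← h1, ← hm, h2]

end Apply

end Fermat.Agent.S05x
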