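import Fermat.Agent.S05x.Defs
import Fermat.Agent.S05x.Ident

/-!
# S05 project, module M8_SMOOTH: torsion points with the same nonsingular reduction coincide
-/

set_option autoImplicit false
open WeierstrassCurve WeierstrassCurve.Affine WeierstrassCurve.Affine.Point

namespace Fermat.Agent.S05x

variable {K : Type*} [Field K]

/-- if `v (s * d) = 1` and `v d < 1` then `1 < v s` -/
theorem m8_one_lt_of_mul (A : ValuationSubring K) {s d : K}
    (h1 : A.valuation (s * d) = 1) (hd : A.valuation d < 1) : 1 < A.valuation s := by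
  by_contra hs
  have hs := not_lt.mp hs
  rw [map_mul] at h1
  have : A.valuation s * A.valuation d ≤ 1 * A.valuation d := mul_le_mul' hs le_rfl
  rw [h1, one_mul] at this
  exact absurd hd (not_lt.mpr this)

/-- if `v (a ^ 2) ≤ 1` then `v a ≤ 1` -/
theorem m8_le_one_of_sq (A : ValuationSubring K) {a : K}
    (h : A.valuation (a ^ 2) ≤ 1) : A.valuation a ≤ 1 := by
  by_contra ha
  have ha := not_le.mp ha
  rw [map_pow] at h
  have : 1 < A.valuation a ^ 2 := one_lt_pow' ha two_ne_zero
  exact absurd h (not_le.mpr this)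

/-- a unit plus a non-unit is a unit -/
theorem m8_val_add_eq_one (A : ValuationSubring K) {a b : K}
    (ha : A.valuation a = 1) (hb : A.valuation b < 1) : A.valuation (a + b) = 1 := by
  rw [← ha]
  exact Valuation.map_add_eq_of_lt_left _ (by rw [ha]; exact hb)

/-- non-unit times integral is a non-unit -/
theorem m8_lt_mul (A : ValuationSubring K) {a b : K}
    (ha : A.valuation a < 1) (hb : A.valuation b ≤ 1) : A.valuation (a * b) < 1 := by
  rw [map_mul]
  calc A.valuation a * A.valuation b ≤ A.valuation a * 1 := mul_le_mul' le_rfl hb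
    _ = A.valuation a := mul_one _
    _ < 1 := ha

/-- integral times integral is integral -/
theorem m8_le_mul (A : ValuationSubring K) {a b : K}
    (ha : A.valuation a ≤ 1) (hb : A.valuation b ≤ 1) : A.valuation (a * b) ≤ 1 := by
  rw [map_mul]
  calc A.valuation a * A.valuation b ≤ 1 * 1 := mul_le_mul' ha hb
    _ = 1 := mul_one _

theorem m8_le_pow (A : ValuationSubring K) {a : K}
    (ha : A.valuation a ≤ 1) (k : ℕ) : A.valuation (a ^ k) ≤ 1 := by
  rw [map_pow]
  exact pow_le_one' ha k

variable [DecidableEq K] (A : ValuationSubring K) {W : WeierstrassCurve K}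

/-- points with nonsingular reduction, with M3 (`hM3`: torsion points have integral `x`)
as an explicit hypothesis -/
theorem smooth_fixed_of (H : LocHyp A W) {n : ℕ}
    (hM3 : ∀ {x y : K} (h : W.toAffine.Nonsingular x y),
      n • Point.some x y h = 0 → A.valuation x ≤ 1)
    {x y x' y' : K} (h : W.toAffine.Nonsingular x y) (h' : W.toAffine.Nonsingular x' y')
    (hP : n • Point.some x y h = 0) (hQ : n • Point.some x' y' h' = 0)
    (hx : A.valuation x ≤ 1) (hxx : A.valuation (x' - x) < 1) (hyy : A.valuation (y' - y) < 1)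
    (hns : A.valuation y = 1 ∨ A.valuation (3 * x ^ 2 + 2 * W.a₂ * x + W.a₄) = 1) :
    x' = x ∧ y' = y := by
  have hW := H.w2
  have hv2 := H.two
  have ha2 := H.a₂
  have ha4 := H.a₄
  have h2 : (2 : K) ≠ 0 := by
    intro h0
    rw [h0, _root_.map_zero] at hv2
    exact zero_ne_one hv2
  have hv4 : A.valuation (4 : K) = 1 := by
    have : (4 : K) = 2 * 2 := by norm_num
    rw [this, map_mul, hv2, one_mul]
  -- equations
  have e1 : y ^ 2 = x ^ 3 + W.a₂ * x ^ 2 + W.a₄ * x := (w2_equation_iff hW x y).mp h.1
  have e2 : y' ^ 2 = x' ^ 3 + W.a₂ * x' ^ 2 + W.a₄ * x' :=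
    (w2_equation_iff hW x' y').mp h'.1
  -- integrality
  have hx' : A.valuation x' ≤ 1 := by
    have : x' = x + (x' - x) := by ring
    rw [this]
    exact Valuation.map_add_le _ hx hxx.le
  have hy : A.valuation y ≤ 1 := by
    apply m8_le_one_of_sq
    rw [e1]
    exact Valuation.map_add_le _ (Valuation.map_add_le _ (m8_le_pow A hx 3)
      (m8_le_mul A ha2 (m8_le_pow A hx 2))) (m8_le_mul A ha4 hx)
  by_cases hne : x = x'
  · subst hne
    refine ⟨rfl, ?_⟩
    rcases w2_same_x hW h h' with hyy' | hyy'
    · exact hyy'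
    · by_cases hy0 : y = 0
      · rw [hyy', hy0, _root_.neg_zero]
      · exfalso
        have hym : A.valuation y < 1 := by
          have : y' - y = -(2 * y) := by rw [hyy']; ring
          rw [this, Valuation.map_neg, map_mul, hv2, one_mul] at hyy
          exact hyy
        have hF : A.valuation (3 * x ^ 2 + 2 * W.a₂ * x + W.a₄) = 1 := by
          rcases hns with h1 | h1
          · exact absurd h1 (ne_of_lt hym)
          · exact h1
        obtain ⟨x2, y2, h2', hdbl, hform⟩ := w2_double hW h2 h hy0
        have htors : n • Point.some x2 y2 h2' = 0 := by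
          rw [← hdbl, smul_add, hP, add_zero]
        have hx2 : A.valuation x2 ≤ 1 := hM3 h2' htors
        have key : (x ^ 2 - W.a₄) ^ 2 =
            (3 * x ^ 2 + 2 * W.a₂ * x + W.a₄) ^ 2 - y ^ 2 * (4 * (W.a₂ + 2 * x)) := by
          rw [e1]; ring
        have hy2 : A.valuation (y ^ 2) < 1 := by
          rw [pow_two]; exact m8_lt_mul A hym hym.le
        have hl : A.valuation (x2 * (4 * y ^ 2)) < 1 := by
          have : x2 * (4 * y ^ 2) = y ^ 2 * (x2 * 4) := by ring
          rw [this]
          exact m8_lt_mul A hy2 (m8_le_mul A hx2 hv4.le)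
        have hr : A.valuation ((3 * x ^ 2 + 2 * W.a₂ * x + W.a₄) ^ 2
            - y ^ 2 * (4 * (W.a₂ + 2 * x))) = 1 := by
          have h1 : A.valuation ((3 * x ^ 2 + 2 * W.a₂ * x + W.a₄) ^ 2) = 1 := by
            rw [map_pow, hF, one_pow]
          have h3 : A.valuation (y ^ 2 * (4 * (W.a₂ + 2 * x))) < 1 := by
            refine m8_lt_mul A hy2 (m8_le_mul A hv4.le ?_)
            exact Valuation.map_add_le _ ha2 (m8_le_mul A hv2.le hx)
          rw [Valuation.map_sub_eq_of_lt_left _ (by rw [h1]; exact h3), h1]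
        rw [hform, key, hr] at hl
        exact lt_irrefl _ hl
  · exfalso
    obtain ⟨x₃, y₃, h₃, x₄, y₄, h₄, hadd, hsub, hS, hPi, hD, hL⟩ :=
      w2_add_sub hW h h' hne
    have htors : n • Point.some x₄ y₄ h₄ = 0 := by
      rw [← hsub, smul_sub, hP, hQ, sub_zero]
    have hx4 : A.valuation x₄ ≤ 1 := hM3 h₄ htors
    have hd0 : x - x' ≠ 0 := sub_ne_zero.mpr hne
    have hsd : (y + y') / (x - x') * (x - x') = y + y' := div_mul_cancel₀ _ hd0
    have hxx' : A.valuation (x - x') < 1 := by rw [Valuation.map_sub_swap]; exact hxx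
    have hyy' : A.valuation (y - y') < 1 := by rw [Valuation.map_sub_swap]; exact hyy
    have hs1 : 1 < A.valuation ((y + y') / (x - x')) := by
      rcases hns with h1 | h1
      · apply m8_one_lt_of_mul A (d := x - x') _ hxx'
        rw [hsd]
        have : y + y' = 2 * y + (y' - y) := by ring
        rw [this]
        exact m8_val_add_eq_one A (by rw [map_mul, hv2, h1, one_mul]) hyy
      · have hG : A.valuation (x ^ 2 + x * x' + x' ^ 2 + W.a₂ * (x + x') + W.a₄) = 1 := by
          have : x ^ 2 + x * x' + x' ^ 2 + W.a₂ * (x + x') + W.a₄ =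
              (3 * x ^ 2 + 2 * W.a₂ * x + W.a₄) + (x' - x) * (x' + 2 * x + W.a₂) := by ring
          rw [this]
          refine m8_val_add_eq_one A h1 (m8_lt_mul A hxx ?_)
          exact Valuation.map_add_le _ (Valuation.map_add_le _ hx' (m8_le_mul A hv2.le hx)) ha2
        apply m8_one_lt_of_mul A (d := y - y') _ hyy'
        have : (y + y') / (x - x') * (y - y') =
            x ^ 2 + x * x' + x' ^ 2 + W.a₂ * (x + x') + W.a₄ := by
          have h3 : (x - x') * ((y + y') / (x - x') * (y - y')) =
              (x - x') * (x ^ 2 + x * x' + x' ^ 2 + W.a₂ * (x + x') + W.a₄) := by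
            calc (x - x') * ((y + y') / (x - x') * (y - y'))
                = ((y + y') / (x - x') * (x - x')) * (y - y') := by ring
              _ = (y + y') * (y - y') := by rw [hsd]
              _ = y ^ 2 - y' ^ 2 := by ring
              _ = _ := by rw [e1, e2]; ring
          exact mul_left_cancel₀ hd0 h3
        rw [this]
        exact hG
    have hs2 : 1 < A.valuation (((y + y') / (x - x')) ^ 2) := by
      rw [map_pow]
      exact one_lt_pow' hs1 two_ne_zero
    have hrest : A.valuation (W.a₂ + x + x') ≤ 1 :=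
      Valuation.map_add_le _ (Valuation.map_add_le _ ha2 hx) hx'
    have hx4' : 1 < A.valuation x₄ := by
      have : x₄ = ((y + y') / (x - x')) ^ 2 - (W.a₂ + x + x') := by rw [hL]; ring
      rw [this, Valuation.map_sub_eq_of_lt_left _ (lt_of_le_of_lt hrest hs2)]
      exact hs2
    exact absurd hx4 (not_le.mpr hx4')

end Fermat.Agent.S05x
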