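import Fermat.Agent.S05x.FormalB
import Fermat.Agent.S05x.PairVal
import Fermat.Agent.S05x.PairPtCore
import Fermat.Agent.S05x.Sawtooth
import Fermat.Agent.S05x.NodeCore
import Fermat.Agent.S05x.Smooth
import Fermat.Agent.S05x.LocalMain

/-!
# S05 project: final wiring of the local theory

All the `*_of` cores (which take their dependencies as hypotheses) are plugged together here.
The resulting theorems have exactly the signatures of `Spec.lean`, under names prefixed `fin_`
(so that exact-Spec-name wrappers elsewhere can never clash with this file).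
-/

set_option autoImplicit false
open WeierstrassCurve WeierstrassCurve.Affine WeierstrassCurve.Affine.Point

namespace Fermat.Agent.S05x

variable {K : Type*} [Field K] [DecidableEq K] (A : ValuationSubring K) {W : WeierstrassCurve K}

theorem fin_torsion_x_integral (H : LocHyp A W) {n : ℕ} (hn : n.Prime) (hn2 : n ≠ 2)
    (hnv : A.valuation (n : K) = 1) {x y : K} (h : W.toAffine.Nonsingular x y)
    (hP : n • Point.some x y h = 0) : A.valuation x ≤ 1 :=
  m3b_torsion_x_integral A H hn hn2 hnv h hP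

theorem fin_pair_pt (H : NodeHyp A W) (P Q : W.toAffine.Point) :
    (psz A W (P + Q) = min (psz A W P / psz A W Q) (psz A W Q / psz A W P) ∧
      psz A W (P - Q) = rfl2 (A.valuation W.a₄) (psz A W P * psz A W Q)) ∨
    (psz A W (P - Q) = min (psz A W P / psz A W Q) (psz A W Q / psz A W P) ∧
      psz A W (P + Q) = rfl2 (A.valuation W.a₄) (psz A W P * psz A W Q)) :=
  pair_pt_of A (pair_val A) H P Q

theorem fin_psz_pow_mem (H : NodeHyp A W) (P : W.toAffine.Point) (n : ℕ) (hP : n • P = 0) :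
    ∃ m : ℤ, psz A W P ^ n = A.valuation W.a₄ ^ (2 * m) :=
  psz_pow_mem_of_pair A H (fin_pair_pt A H) P n hP

theorem fin_node_fixed (H : NodeHyp A W) (τ : K →+* K)
    (hτ : ∀ a : K, A.valuation a ≤ 1 → A.valuation (τ a - a) < 1)
    {n : ℕ} (hn : n.Prime) (hn2 : n ≠ 2) (hnv : A.valuation (n : K) = 1)
    (c : K) (hc : τ c = c) (hca : A.valuation W.a₄ = A.valuation c ^ n)
    (β : K) (_hβ : β ^ 2 = W.a₂)
    {x y : K} (h : W.toAffine.Nonsingular x y) (h' : W.toAffine.Nonsingular (τ x) (τ y))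
    (hP : n • Point.some x y h = 0) (hQ : n • Point.some (τ x) (τ y) h' = 0)
    (hx : A.valuation x < 1) : τ x = x ∧ τ y = y :=
  node_fixed_of A H τ hτ hn hn2
    (fun h0 hP0 => fin_torsion_x_integral A H.loc hn hn2 hnv h0 hP0)
    (fun P0 hP0 => fin_psz_pow_mem A H P0 n hP0) c hc hca h h' hP hQ hx

theorem fin_smooth_fixed (H : LocHyp A W) {n : ℕ} (hn : n.Prime) (hn2 : n ≠ 2)
    (hnv : A.valuation (n : K) = 1)
    {x y x' y' : K} (h : W.toAffine.Nonsingular x y) (h' : W.toAffine.Nonsingular x' y')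
    (hP : n • Point.some x y h = 0) (hQ : n • Point.some x' y' h' = 0)
    (hx : A.valuation x ≤ 1) (hxx : A.valuation (x' - x) < 1) (hyy : A.valuation (y' - y) < 1)
    (hns : A.valuation y = 1 ∨ A.valuation (3 * x ^ 2 + 2 * W.a₂ * x + W.a₄) = 1) :
    x' = x ∧ y' = y :=
  smooth_fixed_of A H
    (fun h0 hP0 => fin_torsion_x_integral A H hn hn2 hnv h0 hP0) h h' hP hQ hx hxx hyy hns

theorem fin_local_main (H : LocHyp A W) (τ : K →+* K)
    (hτ : ∀ a : K, A.valuation a ≤ 1 → A.valuation (τ a - a) < 1)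
    {n : ℕ} (hn : n.Prime) (hn2 : n ≠ 2) (hnv : A.valuation (n : K) = 1)
    (hred : A.valuation (W.a₄ ^ 2 * (W.a₂ ^ 2 - 4 * W.a₄)) = 1 ∨
      (NodeHyp A W ∧ (∃ c : K, τ c = c ∧ A.valuation W.a₄ = A.valuation c ^ n) ∧
        ∃ β : K, β ^ 2 = W.a₂))
    {x y : K} (h : W.toAffine.Nonsingular x y) (h' : W.toAffine.Nonsingular (τ x) (τ y))
    (hP : n • Point.some x y h = 0) (hQ : n • Point.some (τ x) (τ y) h' = 0) :
    τ x = x ∧ τ y = y :=
  local_main_of A H τ hτ
    (fun h0 hP0 => fin_torsion_x_integral A H hn hn2 hnv h0 hP0)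
    (fun HN c hc hca β hβ _ _ h0 h0' hP0 hQ0 hx0 =>
      fin_node_fixed A HN τ hτ hn hn2 hnv c hc hca β hβ h0 h0' hP0 hQ0 hx0)
    (fun h0 h0' hP0 hQ0 hx0 hxx0 hyy0 hns0 =>
      fin_smooth_fixed A H hn hn2 hnv h0 h0' hP0 hQ0 hx0 hxx0 hyy0 hns0)
    hred h h' hP hQ

end Fermat.Agent.S05x
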