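import Fermat.Agent.S05x.Defs

/-! S05 project, module M3 (part 1): pure valuation lemmas for points with non-integral `x`. -/

set_option autoImplicit false

namespace Fermat.Agent.S05x

variable {K : Type*} [Field K] {Γ : Type*} [LinearOrderedCommGroupWithZero Γ]

/-- doubling preserves the valuation of a non-integral `x`-coordinate -/
theorem fm_dbl_val (v : Valuation K Γ) {a2 a4 x y x' : K}
    (h2 : v (2 : K) = 1) (ha2 : v a2 ≤ 1) (ha4 : v a4 ≤ 1) (hx : 1 < v x)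
    (hxy : y ^ 2 = x ^ 3 + a2 * x ^ 2 + a4 * x)
    (hd : x' * (4 * y ^ 2) = (x ^ 2 - a4) ^ 2) : v x' = v x := by
  have hx0 : v x ≠ 0 := (zero_lt_one.trans hx).ne'
  have hpos : 0 < v x := zero_lt_one.trans hx
  have h12 : v x < v x ^ 2 := by
    calc v x = v x ^ 1 := (pow_one _).symm
      _ < v x ^ 2 := pow_lt_pow_right₀ hx (by norm_num)
  have h23 : v x ^ 2 < v x ^ 3 := pow_lt_pow_right₀ hx (by norm_num)
  have e1 : v (a2 * x ^ 2) < v (x ^ 3) := by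
    rw [map_mul, map_pow, map_pow]
    calc v a2 * v x ^ 2 ≤ 1 * v x ^ 2 := mul_le_mul_left ha2 _
      _ = v x ^ 2 := one_mul _
      _ < v x ^ 3 := h23
  have e2 : v (a4 * x) < v (x ^ 3) := by
    rw [map_mul, map_pow]
    calc v a4 * v x ≤ 1 * v x := mul_le_mul_left ha4 _
      _ = v x := one_mul _
      _ < v x ^ 2 := h12
      _ < v x ^ 3 := h23
  have hy : v (y ^ 2) = v x ^ 3 := by
    rw [hxy, Valuation.map_add_eq_of_lt_left, Valuation.map_add_eq_of_lt_left _ e1, map_pow]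
    rw [Valuation.map_add_eq_of_lt_left _ e1]; exact e2
  have hn : v (x ^ 2 - a4) = v x ^ 2 := by
    rw [Valuation.map_sub_eq_of_lt_left, map_pow]
    rw [map_pow]
    exact lt_of_le_of_lt ha4 (hx.trans h12)
  have h4 : v (4 : K) = 1 := by
    have : (4 : K) = 2 * 2 := by norm_num
    rw [this, map_mul, h2, one_mul]
  have key := congrArg v hd
  rw [map_mul, map_mul, h4, one_mul, hy, map_pow, hn] at key
  have : v x' * v x ^ 3 = v x * v x ^ 3 := by rw [key, ← pow_mul, pow_succ' (v x) 3]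
  exact mul_right_cancel₀ (pow_ne_zero 3 hx0) this

/-- addition does not decrease the valuation of non-integral `x`-coordinates -/
theorem fm_add_val (v : Valuation K Γ) {a2 a4 x₁ x₂ x₃ x₄ : K}
    (ha2 : v a2 ≤ 1) (ha4 : v a4 ≤ 1)
    (hx2 : 1 < v x₂) (h21 : v x₂ ≤ v x₁) (hne : x₁ ≠ x₂)
    (hS : (x₃ + x₄) * (x₁ - x₂) ^ 2 = 2 * (x₁ * x₂ * (x₁ + x₂ + 2 * a2) + a4 * (x₁ + x₂)))
    (hP : x₃ * x₄ * (x₁ - x₂) ^ 2 = (x₁ * x₂ - a4) ^ 2) : v x₂ ≤ v x₃ := by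
  set c1 := v x₁ with hc1
  set c2 := v x₂ with hc2
  have hc2pos : 0 < c2 := zero_lt_one.trans hx2
  have hc1gt : 1 < c1 := lt_of_lt_of_le hx2 h21
  have hc1pos : 0 < c1 := zero_lt_one.trans hc1gt
  have hδ0 : v (x₁ - x₂) ≠ 0 := (Valuation.ne_zero_iff _).mpr (sub_ne_zero.mpr hne)
  have hδle : v (x₁ - x₂) ≤ c1 := v.map_sub_le le_rfl h21
  have hδ2le : v (x₁ - x₂) ^ 2 ≤ c1 ^ 2 := pow_le_pow_left₀ zero_le hδle 2
  have h2le : v (2 : K) ≤ 1 := by
    have : (2 : K) = 1 + 1 := by norm_num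
    rw [this]; exact v.map_add_le (by simp) (by simp)
  have h12 : 1 < c1 * c2 := by
    calc (1 : Γ) = 1 * 1 := (one_mul _).symm
      _ < c1 * c2 := mul_lt_mul'' hc1gt hx2 zero_le zero_le
  -- the product relation
  have hPi : v x₃ * (v x₄ * v (x₁ - x₂) ^ 2) = (c1 * c2) ^ 2 := by
    have hn : v (x₁ * x₂ - a4) = c1 * c2 := by
      have h0 : v a4 < v (x₁ * x₂) := by rw [map_mul]; exact lt_of_le_of_lt ha4 h12
      rw [Valuation.map_sub_eq_of_lt_left _ h0, map_mul]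
    have h := congrArg v hP
    rw [map_mul, map_mul, map_pow, map_pow, hn] at h
    rw [← mul_assoc]; exact h
  -- the sum relation
  have hSle : v (x₃ + x₄) * v (x₁ - x₂) ^ 2 ≤ c2 * c1 ^ 2 := by
    have h := congrArg v hS
    rw [map_mul, map_pow] at h
    rw [h, map_mul]
    have hA : v (x₁ + x₂ + 2 * a2) ≤ c1 := by
      refine v.map_add_le (v.map_add_le le_rfl h21) ?_
      rw [map_mul]
      calc v 2 * v a2 ≤ 1 * 1 := mul_le_mul' h2le ha2
        _ = 1 := one_mul _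
        _ ≤ c1 := hc1gt.le
    have hB : v (x₁ * x₂ * (x₁ + x₂ + 2 * a2)) ≤ c2 * c1 ^ 2 := by
      rw [map_mul, map_mul]
      calc c1 * c2 * v (x₁ + x₂ + 2 * a2) ≤ c1 * c2 * c1 := mul_le_mul_right hA _
        _ = c2 * c1 ^ 2 := by rw [pow_two, mul_comm c1 c2, mul_assoc]
    have hC : v (a4 * (x₁ + x₂)) ≤ c2 * c1 ^ 2 := by
      rw [map_mul]
      calc v a4 * v (x₁ + x₂) ≤ 1 * c1 := mul_le_mul' ha4 (v.map_add_le le_rfl h21)
        _ = 1 * c1 := rfl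
        _ ≤ (c2 * c1) * c1 := mul_le_mul_left (by rw [mul_comm]; exact h12.le) _
        _ = c2 * c1 ^ 2 := by rw [pow_two, mul_assoc]
    calc v 2 * v (x₁ * x₂ * (x₁ + x₂ + 2 * a2) + a4 * (x₁ + x₂))
        ≤ 1 * (c2 * c1 ^ 2) := mul_le_mul' h2le (v.map_add_le hB hC)
      _ = c2 * c1 ^ 2 := one_mul _
  by_contra hlt
  rw [not_le] at hlt
  have hT0 : 0 < c2 * c1 ^ 2 := mul_pos hc2pos (pow_pos hc1pos 2)
  -- v x₄ * δ² > c2 * c1²
  have h4big : c2 * c1 ^ 2 < v x₄ * v (x₁ - x₂) ^ 2 := by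
    by_contra hle
    rw [not_lt] at hle
    have : v x₃ * (v x₄ * v (x₁ - x₂) ^ 2) < (c1 * c2) ^ 2 := by
      calc v x₃ * (v x₄ * v (x₁ - x₂) ^ 2) ≤ v x₃ * (c2 * c1 ^ 2) := mul_le_mul_right hle _
        _ < c2 * (c2 * c1 ^ 2) := (mul_lt_mul_iff_left₀ hT0).mpr hlt
        _ = (c1 * c2) ^ 2 := by simp only [pow_two]; ac_rfl
    exact absurd hPi this.ne
  have h4gt : c2 < v x₄ := by
    by_contra hle
    rw [not_lt] at hle
    exact absurd h4big (not_lt.mpr (mul_le_mul' hle hδ2le))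
  have hsum : v (x₃ + x₄) = v x₄ := Valuation.map_add_eq_of_lt_right _ (hlt.trans h4gt)
  rw [hsum] at hSle
  exact absurd h4big (not_lt.mpr hSle)

end Fermat.Agent.S05x
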