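import Fermat.Agent.S05x.Defs
import Fermat.Agent.S05x.FormalVal
import Fermat.Agent.S05x.Ident

/-! S05 project, module M3: a point of odd prime order `n` (prime to the residue characteristic)
on `Y² = X³ + a₂X² + a₄X` has integral `x`-coordinate. -/

set_option autoImplicit false
open WeierstrassCurve WeierstrassCurve.Affine WeierstrassCurve.Affine.Point

namespace Fermat.Agent.S05x



variable {K : Type*} [Field K]

/-- the `x`-coordinate of a point (`0` at the origin) -/
def fmX {W : WeierstrassCurve K} : W.toAffine.Point → K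
  | .zero => 0
  | .some x _ _ => x

@[simp] theorem fmX_some {W : WeierstrassCurve K} {x y : K} (h : W.toAffine.Nonsingular x y) :
    fmX (Point.some x y h) = x := rfl

theorem fm_eq_some {W : WeierstrassCurve K} {P : W.toAffine.Point} (hP : P ≠ 0) :
    ∃ (y : K) (h : W.toAffine.Nonsingular (fmX P) y), P = Point.some (fmX P) y h := by
  cases P with
  | zero => exact absurd rfl hP
  | some x y h => exact ⟨y, h, rfl⟩

theorem fm_exists_some {W : WeierstrassCurve K} {P : W.toAffine.Point} (hP : P ≠ 0) :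
    ∃ (x y : K) (h : W.toAffine.Nonsingular x y), P = Point.some x y h := by
  cases P with
  | zero => exact absurd rfl hP
  | some x y h => exact ⟨x, y, h, rfl⟩

variable [DecidableEq K] (A : ValuationSubring K) {W : WeierstrassCurve K}

/-- sum of two points with non-integral `x` -/
theorem fm_add_mem (H : LocHyp A W) {c : A.ValueGroup} (hc : 1 < c) {x₁ y₁ x₂ y₂ : K}
    (h₁ : W.toAffine.Nonsingular x₁ y₁) (h₂ : W.toAffine.Nonsingular x₂ y₂)
    (hv1 : c ≤ A.valuation x₁) (hv2 : c ≤ A.valuation x₂) :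
    Point.some x₁ y₁ h₁ + Point.some x₂ y₂ h₂ = 0 ∨
      c ≤ A.valuation (fmX (Point.some x₁ y₁ h₁ + Point.some x₂ y₂ h₂)) := by
  by_cases hx : x₁ = x₂
  · subst hx
    rcases w2_same_x H.w2 h₁ h₂ with hy2 | hy2
    · have hpt : Point.some x₁ y₂ h₂ = Point.some x₁ y₁ h₁ := by subst hy2; rfl
      rw [hpt]
      by_cases hy : y₁ = 0
      · exact Or.inl (w2_add_self_of_y_eq_zero H.w2 h₁ hy)
      · right
        have h2ne : (2 : K) ≠ 0 := by
          intro h0
          have := H.two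
          rw [h0, _root_.map_zero] at this
          exact zero_ne_one this
        obtain ⟨x', y', h', hsum, hd⟩ := w2_double H.w2 h2ne h₁ hy
        rw [hsum, fmX_some]
        have hE := (w2_equation_iff H.w2 x₁ y₁).mp h₁.1
        have := fm_dbl_val A.valuation H.two H.a₂ H.a₄ (lt_of_lt_of_le hc hv1) hE hd
        rw [this]; exact hv1
    · left
      obtain ⟨h', hneg⟩ := w2_neg_some H.w2 h₁
      have hpt : Point.some x₁ y₂ h₂ = -Point.some x₁ y₁ h₁ := by subst hy2; exact hneg.symm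
      rw [hpt, add_neg_cancel]
  · right
    obtain ⟨x₃, y₃, h₃, x₄, y₄, h₄, hadd, hsub, hS, hP, -, -⟩ := w2_add_sub H.w2 h₁ h₂ hx
    rw [hadd, fmX_some]
    rcases le_total (A.valuation x₂) (A.valuation x₁) with h21 | h12
    · exact hv2.trans (fm_add_val A.valuation H.a₂ H.a₄ (lt_of_lt_of_le hc hv2) h21 hx hS hP)
    · have hS' : (x₃ + x₄) * (x₂ - x₁) ^ 2
          = 2 * (x₂ * x₁ * (x₂ + x₁ + 2 * W.a₂) + W.a₄ * (x₂ + x₁)) := by
        linear_combination hS
      have hP' : x₃ * x₄ * (x₂ - x₁) ^ 2 = (x₂ * x₁ - W.a₄) ^ 2 := by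
        linear_combination hP
      exact hv1.trans (fm_add_val A.valuation H.a₂ H.a₄ (lt_of_lt_of_le hc hv1) h12
        (Ne.symm hx) hS' hP')

/-- the subgroup of points with `v(x) ≥ c`, for `c > 1` -/
def fmSub (H : LocHyp A W) {c : A.ValueGroup} (hc : 1 < c) : AddSubgroup W.toAffine.Point where
  carrier := {P | P = 0 ∨ c ≤ A.valuation (fmX P)}
  zero_mem' := Or.inl rfl
  add_mem' := by
    intro P Q hP hQ
    rcases hP with rfl | hP
    · rw [zero_add]; exact hQ
    rcases hQ with rfl | hQ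
    · rw [add_zero]; exact Or.inr hP
    cases P with
    | zero => rw [show (Point.zero : W.toAffine.Point) = 0 from rfl, zero_add]; exact Or.inr hQ
    | some x₁ y₁ h₁ =>
      cases Q with
      | zero => rw [show (Point.zero : W.toAffine.Point) = 0 from rfl, add_zero]; exact Or.inr hP
      | some x₂ y₂ h₂ => exact fm_add_mem A H hc h₁ h₂ hP hQ
  neg_mem' := by
    intro P hP
    rcases hP with rfl | hP
    · exact Or.inl _root_.neg_zero
    cases P with
    | zero => exact Or.inl _root_.neg_zero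
    | some x y h =>
      right
      obtain ⟨h', hneg⟩ := w2_neg_some H.w2 h
      rw [hneg]; exact hP

theorem mem_fmSub (H : LocHyp A W) {c : A.ValueGroup} (hc : 1 < c) (P : W.toAffine.Point) :
    P ∈ fmSub A H hc ↔ (P = 0 ∨ c ≤ A.valuation (fmX P)) := Iff.rfl

/-- all nonzero multiples of a point of prime order with non-integral `x` have the same `v(x)` -/
theorem fm_nsmul_val (H : LocHyp A W) {n : ℕ} (hn : n.Prime) {x y : K}
    (h : W.toAffine.Nonsingular x y) (hP : n • Point.some x y h = 0) (hx : 1 < A.valuation x)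
    {k : ℕ} (hk1 : 1 ≤ k) (hk : k < n) :
    k • Point.some x y h ≠ 0 ∧ A.valuation (fmX (k • Point.some x y h)) = A.valuation x := by
  set P := Point.some x y h with hPdef
  have hP0 : P ≠ 0 := some_ne_zero h
  have hord : addOrderOf P = n := by
    have : Fact n.Prime := ⟨hn⟩
    exact addOrderOf_eq_prime hP hP0
  have hkP : k • P ≠ 0 := by
    intro h0
    have hdvd := addOrderOf_dvd_of_nsmul_eq_zero h0
    rw [hord] at hdvd
    exact absurd (Nat.le_of_dvd (by omega) hdvd) (by omega)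
  refine ⟨hkP, le_antisymm ?_ ?_⟩
  · -- `P` is a multiple of `k • P`
    have hc' : 1 < A.valuation (fmX (k • P)) := by
      have hmem : k • P ∈ fmSub A H hx := (fmSub A H hx).nsmul_mem (Or.inr le_rfl) k
      rcases hmem with h0 | hle
      · exact absurd h0 hkP
      · exact lt_of_lt_of_le hx hle
    have hcop : Nat.Coprime k n :=
      Nat.Coprime.symm ((Nat.Prime.coprime_iff_not_dvd hn).mpr
        (fun hd => absurd (Nat.le_of_dvd (by omega) hd) (by omega)))
    obtain ⟨m, -, hm⟩ := Nat.exists_mul_mod_eq_one_of_coprime hcop hn.one_lt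
    have hback : m • (k • P) = P := by
      rw [← mul_nsmul', mul_comm, ← mod_addOrderOf_nsmul, hord, hm, one_nsmul]
    have hmem : m • (k • P) ∈ fmSub A H hc' :=
      (fmSub A H hc').nsmul_mem (Or.inr le_rfl) m
    rw [hback] at hmem
    rcases hmem with h0 | hle
    · exact absurd h0 hP0
    · exact hle
  · have hmem : k • P ∈ fmSub A H hx := (fmSub A H hx).nsmul_mem (Or.inr le_rfl) k
    rcases hmem with h0 | hle
    · exact absurd h0 hkP
    · exact hle

omit [DecidableEq K] in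
theorem fm_res_eq (a b : A) (h : A.valuation ((a : K) - (b : K)) < 1) :
    IsLocalRing.residue A a = IsLocalRing.residue A b := by
  rw [← sub_eq_zero, ← map_sub, IsLocalRing.residue_eq_zero_iff, A.valuation_lt_one_iff]
  simpa using h

omit [DecidableEq K] in
theorem fm_res_ne_zero (a : A) (h : A.valuation (a : K) = 1) : IsLocalRing.residue A a ≠ 0 := by
  rw [Ne, IsLocalRing.residue_eq_zero_iff, A.valuation_lt_one_iff, h]
  exact lt_irrefl _

/-- multiples `k • P`, `0 < k < n`, of a point of prime order `n` are nonzero -/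
theorem fm_nsmul_ne_zero {G : Type*} [AddGroup G] {n : ℕ} (hn : n.Prime) {P : G} (hP0 : P ≠ 0)
    (hP : n • P = 0) {k : ℕ} (hk1 : 1 ≤ k) (hk : k < n) : k • P ≠ 0 := by
  have hord : addOrderOf P = n := by
    have : Fact n.Prime := ⟨hn⟩
    exact addOrderOf_eq_prime hP hP0
  intro h0
  have hdvd := addOrderOf_dvd_of_nsmul_eq_zero h0
  rw [hord] at hdvd
  exact absurd (Nat.le_of_dvd (by omega) hdvd) (by omega)

omit [DecidableEq K] in
/-- field identity behind the recursion step -/
theorem fm_step_identity {x a4 u0 u1 u2 X0 X1 X2 : K} (hx : x ≠ 0)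
    (h0 : u0 * X0 = x) (h1 : u1 * X1 = x) (h2 : u2 * X2 = x)
    (hI : X2 * X0 * (X1 - x) ^ 2 = (X1 * x - a4) ^ 2) :
    u2 * u0 - (1 - u1) ^ 2
      = u2 * u0 * ((a4 * u1 / x ^ 2) * (2 - a4 * u1 / x ^ 2)) := by
  have hu0 : u0 ≠ 0 := fun h => hx (by rw [← h0, h, zero_mul])
  have hu1 : u1 ≠ 0 := fun h => hx (by rw [← h1, h, zero_mul])
  have hu2 : u2 ≠ 0 := fun h => hx (by rw [← h2, h, zero_mul])
  have e0 : X0 = x / u0 := by field_simp; linear_combination h0
  have e1 : X1 = x / u1 := by field_simp; linear_combination h1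
  have e2 : X2 = x / u2 := by field_simp; linear_combination h2
  rw [e0, e1, e2] at hI
  field_simp at hI ⊢
  linear_combination -hI

omit [DecidableEq K] in
theorem fm_val_two_le : A.valuation (2 : K) ≤ 1 := by
  have : (2 : K) = 1 + 1 := by norm_num
  rw [this]; exact (A.valuation).map_add_le (by simp) (by simp)

omit [DecidableEq K] in
theorem fm_val_div_sq_lt {x a : K} (hxv : 1 < A.valuation x) (ha : A.valuation a ≤ 1) :
    A.valuation (a / x ^ 2) < 1 := by
  have hpos : 0 < A.valuation x ^ 2 := pow_pos (zero_lt_one.trans hxv) 2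
  rw [map_div₀, map_pow, div_lt_one₀ hpos]
  exact lt_of_le_of_lt ha (one_lt_pow₀ hxv two_ne_zero)

omit [DecidableEq K] in
theorem fm_val_div_lt {x a : K} (hxv : 1 < A.valuation x) (ha : A.valuation a ≤ 1) :
    A.valuation (a / x) < 1 := by
  have hpos : 0 < A.valuation x := zero_lt_one.trans hxv
  rw [map_div₀, div_lt_one₀ hpos]
  exact lt_of_le_of_lt ha hxv

omit [DecidableEq K] in
theorem fm_step_val {x a4 u0 u1 u2 X0 X1 X2 : K} (hxv : 1 < A.valuation x)
    (ha4 : A.valuation a4 ≤ 1)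
    (hu0 : A.valuation u0 = 1) (hu1 : A.valuation u1 = 1) (hu2 : A.valuation u2 = 1)
    (h0 : u0 * X0 = x) (h1 : u1 * X1 = x) (h2 : u2 * X2 = x)
    (hI : X2 * X0 * (X1 - x) ^ 2 = (X1 * x - a4) ^ 2) :
    A.valuation (u2 * u0 - (1 - u1) ^ 2) < 1 := by
  have hx0 : x ≠ 0 := by
    intro h; rw [h, _root_.map_zero] at hxv; exact not_lt_of_gt hxv zero_lt_one
  rw [fm_step_identity hx0 h0 h1 h2 hI]
  have hε : A.valuation (a4 * u1 / x ^ 2) < 1 :=
    fm_val_div_sq_lt A hxv (by rw [map_mul, hu1, mul_one]; exact ha4)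
  have h2e : A.valuation (2 - a4 * u1 / x ^ 2) ≤ 1 :=
    (A.valuation).map_sub_le (fm_val_two_le A) hε.le
  rw [map_mul, map_mul, map_mul, hu2, hu0, one_mul, one_mul]
  calc A.valuation (a4 * u1 / x ^ 2) * A.valuation (2 - a4 * u1 / x ^ 2)
      ≤ A.valuation (a4 * u1 / x ^ 2) * 1 := mul_le_mul_right h2e _
    _ = A.valuation (a4 * u1 / x ^ 2) := mul_one _
    _ < 1 := hε

omit [DecidableEq K] in
theorem fm_dbl_identity {x y a2 a4 u X2 : K} (hx : x ≠ 0) (h2 : u * X2 = x)
    (hE : y ^ 2 = x ^ 3 + a2 * x ^ 2 + a4 * x)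
    (hd : X2 * (4 * y ^ 2) = (x ^ 2 - a4) ^ 2) :
    u - 4 = 4 * (a2 / x + a4 / x ^ 2) + u * ((a4 / x ^ 2) * (2 - a4 / x ^ 2)) := by
  have hu : u ≠ 0 := fun h => hx (by rw [← h2, h, zero_mul])
  have e2 : X2 = x / u := by field_simp; linear_combination h2
  rw [e2, hE] at hd
  field_simp at hd ⊢
  linear_combination -hd

omit [DecidableEq K] in
theorem fm_dbl_res {x y a2 a4 u X2 : K} (hxv : 1 < A.valuation x)
    (ha2 : A.valuation a2 ≤ 1) (ha4 : A.valuation a4 ≤ 1) (hu : A.valuation u = 1)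
    (h2 : u * X2 = x) (hE : y ^ 2 = x ^ 3 + a2 * x ^ 2 + a4 * x)
    (hd : X2 * (4 * y ^ 2) = (x ^ 2 - a4) ^ 2) : A.valuation (u - 4) < 1 := by
  have hx0 : x ≠ 0 := by
    intro h; rw [h, _root_.map_zero] at hxv; exact not_lt_of_gt hxv zero_lt_one
  rw [fm_dbl_identity hx0 h2 hE hd]
  have he : A.valuation (a4 / x ^ 2) < 1 := fm_val_div_sq_lt A hxv ha4
  have hd1 : A.valuation (a2 / x) < 1 := fm_val_div_lt A hxv ha2
  have h4 : A.valuation (4 : K) ≤ 1 := by
    have : (4 : K) = 2 * 2 := by norm_num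
    rw [this, map_mul]
    calc A.valuation (2 : K) * A.valuation (2 : K) ≤ 1 * 1 :=
          mul_le_mul' (fm_val_two_le A) (fm_val_two_le A)
      _ = 1 := one_mul _
  have h2e : A.valuation (2 - a4 / x ^ 2) ≤ 1 :=
    (A.valuation).map_sub_le (fm_val_two_le A) he.le
  refine (A.valuation).map_add_lt ?_ ?_
  · rw [map_mul]
    calc A.valuation (4 : K) * A.valuation (a2 / x + a4 / x ^ 2)
        ≤ 1 * A.valuation (a2 / x + a4 / x ^ 2) := mul_le_mul_left h4 _
      _ = A.valuation (a2 / x + a4 / x ^ 2) := one_mul _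
      _ < 1 := (A.valuation).map_add_lt hd1 he
  · rw [map_mul, map_mul, hu, one_mul]
    calc A.valuation (a4 / x ^ 2) * A.valuation (2 - a4 / x ^ 2)
        ≤ A.valuation (a4 / x ^ 2) * 1 := mul_le_mul_right h2e _
      _ = A.valuation (a4 / x ^ 2) := mul_one _
      _ < 1 := he

/-- point-level recursion identity -/
theorem fm_add_identity_pt (H : LocHyp A W) {n : ℕ} (hn : n.Prime) {x y : K}
    (h : W.toAffine.Nonsingular x y) (hP : n • Point.some x y h = 0)
    {m : ℕ} (hm1 : 1 ≤ m) (hm : m + 2 < n) :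
    fmX ((m + 2) • Point.some x y h) * fmX (m • Point.some x y h)
        * (fmX ((m + 1) • Point.some x y h) - x) ^ 2
      = (fmX ((m + 1) • Point.some x y h) * x - W.a₄) ^ 2 := by
  have hP0 : Point.some x y h ≠ 0 := some_ne_zero h
  have hne1 : (m + 1) • Point.some x y h ≠ 0 :=
    fm_nsmul_ne_zero hn hP0 hP (by omega) (by omega)
  obtain ⟨x1, y1, h1, e1⟩ := fm_exists_some hne1
  have hxne : x1 ≠ x := by
    intro hxx
    subst hxx
    rcases w2_same_x H.w2 h h1 with hy | hy
    · -- (m+1)P = P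
      have : (m + 1) • Point.some x1 y h = Point.some x1 y h := by rw [e1]; subst hy; rfl
      have h0 : m • Point.some x1 y h = 0 := by
        rw [succ_nsmul] at this
        exact add_eq_right.mp this
      exact fm_nsmul_ne_zero hn hP0 hP hm1 (by omega) h0
    · -- (m+1)P = -P
      obtain ⟨h', hneg⟩ := w2_neg_some H.w2 h
      have : (m + 1) • Point.some x1 y h = -Point.some x1 y h := by
        rw [e1, hneg]; subst hy; rfl
      have h0 : (m + 2) • Point.some x1 y h = 0 := by
        rw [succ_nsmul, this, neg_add_cancel]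
      exact fm_nsmul_ne_zero hn hP0 hP (by omega) hm h0
  obtain ⟨x₃, y₃, h₃, x₄, y₄, h₄, hadd, hsub, -, hPi, -, -⟩ := w2_add_sub H.w2 h1 h hxne
  have e3 : (m + 2) • Point.some x y h = Point.some x₃ y₃ h₃ := by
    rw [succ_nsmul, e1]; exact hadd
  have e4 : m • Point.some x y h = Point.some x₄ y₄ h₄ := by
    have : m • Point.some x y h = (m + 1) • Point.some x y h - Point.some x y h := by
      rw [succ_nsmul, add_sub_cancel_right]
    rw [this, e1]; exact hsub
  rw [e3, e4, e1, fmX_some, fmX_some, fmX_some]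
  exact hPi

/-- point-level duplication identity -/
theorem fm_dbl_identity_pt (H : LocHyp A W) {n : ℕ} (hn : n.Prime) (hn3 : 3 ≤ n) {x y : K}
    (h : W.toAffine.Nonsingular x y) (hP : n • Point.some x y h = 0) :
    fmX (2 • Point.some x y h) * (4 * y ^ 2) = (x ^ 2 - W.a₄) ^ 2 := by
  have hP0 : Point.some x y h ≠ 0 := some_ne_zero h
  have h2ne : (2 : K) ≠ 0 := by
    intro h0
    have := H.two
    rw [h0, _root_.map_zero] at this
    exact zero_ne_one this
  have hy : y ≠ 0 := by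
    intro hy
    have h0 : 2 • Point.some x y h = 0 := by
      rw [two_nsmul]; exact w2_add_self_of_y_eq_zero H.w2 h hy
    exact fm_nsmul_ne_zero hn hP0 hP (by omega) (by omega) h0
  obtain ⟨x', y', h', hsum, hd⟩ := w2_double H.w2 h2ne h hy
  rw [two_nsmul, hsum, fmX_some]
  exact hd

/-- the unit `u_k = x / x(kP)` as an element of `A` -/
theorem fm_unit_exists (H : LocHyp A W) {n : ℕ} (hn : n.Prime) {x y : K}
    (h : W.toAffine.Nonsingular x y) (hP : n • Point.some x y h = 0) (hx : 1 < A.valuation x)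
    {k : ℕ} (hk1 : 1 ≤ k) (hk : k < n) :
    ∃ a : A, (a : K) * fmX (k • Point.some x y h) = x := by
  have hv := (fm_nsmul_val A H hn h hP hx hk1 hk).2
  have hx0 : A.valuation x ≠ 0 := (zero_lt_one.trans hx).ne'
  have hX0 : fmX (k • Point.some x y h) ≠ 0 := by
    intro h0; rw [h0, _root_.map_zero] at hv; exact hx0 hv.symm
  have hu : A.valuation (x / fmX (k • Point.some x y h)) = 1 := by
    rw [map_div₀, hv, div_self hx0]
  exact ⟨⟨x / fmX (k • Point.some x y h), (A.valuation_le_one_iff _).mp hu.le⟩,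
    div_mul_cancel₀ _ hX0⟩

theorem fm_unit_val (H : LocHyp A W) {n : ℕ} (hn : n.Prime) {x y : K}
    (h : W.toAffine.Nonsingular x y) (hP : n • Point.some x y h = 0) (hx : 1 < A.valuation x)
    {k : ℕ} (hk1 : 1 ≤ k) (hk : k < n) {a : K} (ha : a * fmX (k • Point.some x y h) = x) :
    A.valuation a = 1 := by
  have hv := (fm_nsmul_val A H hn h hP hx hk1 hk).2
  have hx0 : A.valuation x ≠ 0 := (zero_lt_one.trans hx).ne'
  have := congrArg A.valuation ha
  rw [map_mul, hv] at this
  exact mul_right_cancel₀ hx0 (this.trans (one_mul _).symm)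

/-- the induction predicate: `u_k ≡ k²` -/
def FmQ {x y : K} (h : W.toAffine.Nonsingular x y) (k : ℕ) : Prop :=
  ∃ a : A, (a : K) * fmX (k • Point.some x y h) = x ∧
    IsLocalRing.residue A a = ((k : ℕ) : IsLocalRing.ResidueField A) ^ 2

theorem fm_Q_one {x y : K} (h : W.toAffine.Nonsingular x y) : FmQ A h 1 :=
  ⟨1, by simp, by simp⟩

theorem fm_Q_two (H : LocHyp A W) {n : ℕ} (hn : n.Prime) (hn3 : 3 ≤ n) {x y : K}
    (h : W.toAffine.Nonsingular x y) (hP : n • Point.some x y h = 0) (hx : 1 < A.valuation x) :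
    FmQ A h 2 := by
  obtain ⟨a, ha⟩ := fm_unit_exists A H hn h hP hx (k := 2) (by omega) (by omega)
  refine ⟨a, ha, ?_⟩
  have hu := fm_unit_val A H hn h hP hx (k := 2) (by omega) (by omega) ha
  have hE := (w2_equation_iff H.w2 x y).mp h.1
  have hd := fm_dbl_identity_pt A H hn hn3 h hP
  have hlt := fm_dbl_res A hx H.a₂ H.a₄ hu ha hE hd
  have h4 : (((4 : A)) : K) = 4 := rfl
  have := fm_res_eq A a 4 (by rw [h4]; exact hlt)
  rw [this, map_ofNat]
  push_cast
  norm_num

theorem fm_Q_step (H : LocHyp A W) {n : ℕ} (hn : n.Prime) {x y : K}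
    (h : W.toAffine.Nonsingular x y) (hP : n • Point.some x y h = 0) (hx : 1 < A.valuation x)
    {m : ℕ} (hm1 : 1 ≤ m) (hm : m + 2 < n) (h0 : FmQ A h m) (h1 : FmQ A h (m + 1)) :
    FmQ A h (m + 2) := by
  obtain ⟨a0, ha0, hφ0⟩ := h0
  obtain ⟨a1, ha1, hφ1⟩ := h1
  obtain ⟨a2, ha2⟩ := fm_unit_exists A H hn h hP hx (k := m + 2) (by omega) hm
  refine ⟨a2, ha2, ?_⟩
  have hu0 := fm_unit_val A H hn h hP hx hm1 (by omega) ha0
  have hu1 := fm_unit_val A H hn h hP hx (k := m + 1) (by omega) (by omega) ha1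
  have hu2 := fm_unit_val A H hn h hP hx (k := m + 2) (by omega) hm ha2
  have hI := fm_add_identity_pt A H hn h hP hm1 hm
  have hlt := fm_step_val A hx H.a₄ hu0 hu1 hu2 ha0 ha1 ha2 hI
  have hrel := fm_res_eq A (a2 * a0) ((1 - a1) ^ 2) (by simpa using hlt)
  rw [map_mul, map_pow, map_sub, map_one, hφ0, hφ1] at hrel
  have hne : ((m : ℕ) : IsLocalRing.ResidueField A) ^ 2 ≠ 0 := by
    rw [← hφ0]; exact fm_res_ne_zero A a0 hu0
  apply mul_right_cancel₀ hne
  rw [hrel]
  push_cast
  ring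

theorem fm_Q_all (H : LocHyp A W) {n : ℕ} (hn : n.Prime) (hn3 : 3 ≤ n) {x y : K}
    (h : W.toAffine.Nonsingular x y) (hP : n • Point.some x y h = 0) (hx : 1 < A.valuation x)
    (m : ℕ) : (m + 1 < n → FmQ A h (m + 1)) ∧ (m + 2 < n → FmQ A h (m + 2)) := by
  induction m with
  | zero => exact ⟨fun _ => fm_Q_one A h, fun _ => fm_Q_two A H hn hn3 h hP hx⟩
  | succ m ih =>
    refine ⟨fun hlt => ih.2 (by omega), fun hlt => ?_⟩
    exact fm_Q_step A H hn h hP hx (m := m + 1) (by omega) hlt (ih.1 (by omega)) (ih.2 (by omega))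

/-- **M3**: a point of odd prime order `n`, `v(n) = 1`, has integral `x`-coordinate. -/
theorem torsion_x_integral (H : LocHyp A W) {n : ℕ} (hn : n.Prime) (hn2 : n ≠ 2)
    (hnv : A.valuation (n : K) = 1) {x y : K} (h : W.toAffine.Nonsingular x y)
    (hP : n • Point.some x y h = 0) : A.valuation x ≤ 1 := by
  by_contra hx'
  rw [not_le] at hx'
  have hn3 : 3 ≤ n := by have := hn.two_le; omega
  obtain ⟨k, rfl⟩ : ∃ k, n = k + 3 := ⟨n - 3, by omega⟩
  have hP0 : Point.some x y h ≠ 0 := some_ne_zero h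
  -- `(k+2) • P = -P`
  have hneg : (k + 2) • Point.some x y h = -Point.some x y h := by
    have : (k + 2) • Point.some x y h + Point.some x y h = 0 := by
      rw [← succ_nsmul]; exact hP
    exact eq_neg_of_add_eq_zero_left this
  obtain ⟨h', hneg'⟩ := w2_neg_some H.w2 h
  -- residue of `k + 3` is nonzero
  have hN : ((k + 3 : ℕ) : IsLocalRing.ResidueField A) ≠ 0 := by
    have h1 : A.valuation (((k + 3 : ℕ) : A) : K) = 1 := by
      have : (((k + 3 : ℕ) : A) : K) = ((k + 3 : ℕ) : K) := by norm_cast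
      rw [this]; exact hnv
    have := fm_res_ne_zero A ((k + 3 : ℕ) : A) h1
    rwa [map_natCast] at this
  -- `Q (k+2)` gives `(k+2)² = 1`
  obtain ⟨a, ha, hφa⟩ := (fm_Q_all A H hn hn3 h hP hx' k).2 (by omega)
  rw [hneg, hneg', fmX_some] at ha
  have hx0 : x ≠ 0 := by
    intro h0; rw [h0, _root_.map_zero] at hx'; exact not_lt_of_gt hx' zero_lt_one
  have ha1 : a = 1 := by
    apply Subtype.ext
    have : (a : K) * x = 1 * x := by rw [ha, one_mul]
    simpa using mul_right_cancel₀ hx0 this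
  rw [ha1, map_one] at hφa
  -- `Q (k+1)` gives `(k+1)² ≠ 0`
  obtain ⟨b, hb, hφb⟩ := (fm_Q_all A H hn hn3 h hP hx' k).1 (by omega)
  have hub := fm_unit_val A H hn h hP hx' (k := k + 1) (by omega) (by omega) hb
  have hb0 := fm_res_ne_zero A b hub
  rw [hφb] at hb0
  -- contradiction
  have hprod : ((k + 1 : ℕ) : IsLocalRing.ResidueField A) * ((k + 3 : ℕ) : IsLocalRing.ResidueField A) = 0 := by
    have : ((k + 2 : ℕ) : IsLocalRing.ResidueField A) ^ 2 = 1 := hφa.symm
    push_cast at this ⊢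
    linear_combination this
  rcases mul_eq_zero.mp hprod with h1 | h1
  · exact hb0 (by rw [h1]; ring)
  · exact hN h1

end Fermat.Agent.S05x
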