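import Fermat.Agent.S05x.Defs
import Fermat.Agent.S05x.Ident

/-!
# S05 project, module M3 (backup version by helper79)

Torsion of odd prime order `n` (a unit of `A`) on `Y² = X³ + a₂X² + a₄X` has integral
`x`-coordinate: the kernel of reduction has no `n`-torsion.
-/

set_option autoImplicit false
open WeierstrassCurve WeierstrassCurve.Affine WeierstrassCurve.Affine.Point

namespace Fermat.Agent.S05x

/-! ### Part A: pure valuation lemmas -/

theorem m3b_key {Γ : Type*} [LinearOrderedCommGroupWithZero Γ] (a b s δ2 p r : Γ)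
    (hr : 0 < r) (hp : 0 < p) (hδ : 0 < δ2) (hδp : δ2 ≤ p ^ 2)
    (hab : a * b * δ2 = (p * r) ^ 2) (hs : s * δ2 ≤ p ^ 2 * r) (hsum : a < b → s = b) :
    r ≤ a := by
  by_contra hlt
  have hlt := lt_of_not_ge hlt
  have hpr : 0 < p ^ 2 * r := mul_pos (pow_pos hp 2) hr
  have hb : p ^ 2 * r < b * δ2 := by
    by_contra hcon
    have hcon := le_of_not_gt hcon
    have h1 : a * (b * δ2) ≤ a * (p ^ 2 * r) := by gcongr
    have h2 : a * (p ^ 2 * r) < r * (p ^ 2 * r) := mul_lt_mul_of_pos_right hlt hpr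
    have h3 : a * (b * δ2) = r * (p ^ 2 * r) := by
      rw [← mul_assoc, hab]
      simp only [pow_two]
      ac_rfl
    rw [h3] at h1
    exact absurd (lt_of_le_of_lt h1 h2) (lt_irrefl _)
  have hab' : a < b := by
    have h1 : a * δ2 < b * δ2 := by
      calc a * δ2 < r * δ2 := mul_lt_mul_of_pos_right hlt hδ
        _ ≤ r * p ^ 2 := by gcongr
        _ = p ^ 2 * r := mul_comm _ _
        _ < b * δ2 := hb
    exact lt_of_mul_lt_mul_right h1 zero_le
  rw [hsum hab'] at hs
  exact absurd (lt_of_lt_of_le hb hs) (lt_irrefl _)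

variable {K : Type*} [Field K]

section Val
variable (A : ValuationSubring K)

theorem m3b_val_y {a2 a4 x y : K} (ha2 : A.valuation a2 ≤ 1) (ha4 : A.valuation a4 ≤ 1)
    (hx : 1 < A.valuation x) (hxy : y ^ 2 = x ^ 3 + a2 * x ^ 2 + a4 * x) :
    A.valuation y ^ 2 = A.valuation x ^ 3 := by
  have h0 : (0 : A.ValueGroup) < A.valuation x := lt_trans zero_lt_one hx
  have h1 : A.valuation (a2 * x ^ 2) < A.valuation (x ^ 3) := by
    rw [map_mul, map_pow, map_pow]
    calc A.valuation a2 * A.valuation x ^ 2 ≤ 1 * A.valuation x ^ 2 := by gcongr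
      _ = A.valuation x ^ 2 := one_mul _
      _ < A.valuation x ^ 3 := pow_lt_pow_right₀ hx (by norm_num)
  have h2 : A.valuation (a4 * x) < A.valuation (x ^ 3) := by
    rw [map_mul, map_pow]
    calc A.valuation a4 * A.valuation x ≤ 1 * A.valuation x := by gcongr
      _ = A.valuation x ^ 1 := by rw [one_mul, pow_one]
      _ < A.valuation x ^ 3 := pow_lt_pow_right₀ hx (by norm_num)
  have h3 : A.valuation (x ^ 3 + a2 * x ^ 2) = A.valuation (x ^ 3) :=
    Valuation.map_add_eq_of_lt_left _ h1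
  have h4 : A.valuation (x ^ 3 + a2 * x ^ 2 + a4 * x) = A.valuation (x ^ 3) := by
    rw [← h3]
    exact Valuation.map_add_eq_of_lt_left _ (by rw [h3]; exact h2)
  rw [← map_pow, hxy, h4, map_pow]

/-- `v(x² - a₄) = v(x)²` for `v(x) > 1`. -/
theorem m3b_val_sq_sub {a4 x : K} (ha4 : A.valuation a4 ≤ 1) (hx : 1 < A.valuation x) :
    A.valuation (x ^ 2 - a4) = A.valuation x ^ 2 := by
  have h1 : A.valuation a4 < A.valuation (x ^ 2) := by
    rw [map_pow]
    exact lt_of_le_of_lt ha4 (one_lt_pow₀ hx (by norm_num))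
  rw [Valuation.map_sub_eq_of_lt_left _ h1, map_pow]

theorem m3b_val_four (h2 : A.valuation (2 : K) = 1) : A.valuation (4 : K) = 1 := by
  have : (4 : K) = 2 * 2 := by norm_num
  rw [this, map_mul, h2, one_mul]

/-- doubling preserves the valuation of `x` when `v(x) > 1`. -/
theorem m3b_val_dbl {a2 a4 x y x' : K} (h2 : A.valuation (2 : K) = 1)
    (ha2 : A.valuation a2 ≤ 1) (ha4 : A.valuation a4 ≤ 1)
    (hx : 1 < A.valuation x) (hxy : y ^ 2 = x ^ 3 + a2 * x ^ 2 + a4 * x)
    (hd : x' * (4 * y ^ 2) = (x ^ 2 - a4) ^ 2) : A.valuation x' = A.valuation x := by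
  have h0 : (0 : A.ValueGroup) < A.valuation x := lt_trans zero_lt_one hx
  have hy := m3b_val_y A ha2 ha4 hx hxy
  have h := congrArg A.valuation hd
  rw [map_mul, map_mul, map_pow, map_pow, m3b_val_four A h2, one_mul, hy,
    m3b_val_sq_sub A ha4 hx] at h
  have h3 : A.valuation x ^ 3 ≠ 0 := pow_ne_zero _ h0.ne'
  have : A.valuation x' * A.valuation x ^ 3 = A.valuation x * A.valuation x ^ 3 := by
    rw [h, ← pow_mul, ← pow_succ']
  exact mul_right_cancel₀ h3 this

/-- sum/difference: if `v(x₁) ≥ v(x₂) > 1` then `v(x₃), v(x₄) ≥ v(x₂)`. -/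
theorem m3b_val_add {a2 a4 x₁ x₂ x₃ x₄ : K} (h2 : A.valuation (2 : K) = 1)
    (ha2 : A.valuation a2 ≤ 1) (ha4 : A.valuation a4 ≤ 1)
    (hx₂ : 1 < A.valuation x₂) (hle : A.valuation x₂ ≤ A.valuation x₁) (hx : x₁ ≠ x₂)
    (hS : (x₃ + x₄) * (x₁ - x₂) ^ 2 = 2 * (x₁ * x₂ * (x₁ + x₂ + 2 * a2) + a4 * (x₁ + x₂)))
    (hP : x₃ * x₄ * (x₁ - x₂) ^ 2 = (x₁ * x₂ - a4) ^ 2) :
    A.valuation x₂ ≤ A.valuation x₃ ∧ A.valuation x₂ ≤ A.valuation x₄ := by
  set v := A.valuation with hv
  have hx₁ : 1 < v x₁ := lt_of_lt_of_le hx₂ hle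
  have h01 : (0 : A.ValueGroup) < v x₁ := lt_trans zero_lt_one hx₁
  have h02 : (0 : A.ValueGroup) < v x₂ := lt_trans zero_lt_one hx₂
  have hd0 : 0 < v (x₁ - x₂) ^ 2 :=
    pow_pos (zero_lt_iff.mpr ((Valuation.ne_zero_iff _).mpr (sub_ne_zero.mpr hx))) 2
  have hd : v (x₁ - x₂) ≤ v x₁ := v.map_sub_le le_rfl hle
  have hd2 : v (x₁ - x₂) ^ 2 ≤ v x₁ ^ 2 := by gcongr
  have h12 : 1 < v x₁ * v x₂ := one_lt_mul_of_lt_of_le' hx₁ hx₂.le
  -- valuation of the product
  have hprod : v (x₁ * x₂ - a4) = v x₁ * v x₂ := by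
    have : v a4 < v (x₁ * x₂) := by
      rw [map_mul]
      exact lt_of_le_of_lt ha4 h12
    rw [v.map_sub_eq_of_lt_left this, map_mul]
  have hP' : v x₃ * v x₄ * v (x₁ - x₂) ^ 2 = (v x₁ * v x₂) ^ 2 := by
    have := congrArg v hP
    rwa [map_mul, map_mul, map_pow, map_pow, hprod] at this
  -- bound for the sum
  have hS' : v (x₃ + x₄) * v (x₁ - x₂) ^ 2 ≤ v x₁ ^ 2 * v x₂ := by
    have := congrArg v hS
    rw [map_mul, map_pow, map_mul, h2, one_mul] at this
    rw [this]
    apply v.map_add_le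
    · rw [map_mul, map_mul]
      have : v (x₁ + x₂ + 2 * a2) ≤ v x₁ := by
        apply v.map_add_le (v.map_add_le le_rfl hle)
        rw [map_mul, h2, one_mul]
        exact le_trans ha2 hx₁.le
      calc v x₁ * v x₂ * v (x₁ + x₂ + 2 * a2) ≤ v x₁ * v x₂ * v x₁ := by gcongr
        _ = v x₁ ^ 2 * v x₂ := by rw [pow_two]; ac_rfl
    · rw [map_mul]
      have h1 : v (x₁ + x₂) ≤ v x₁ := v.map_add_le le_rfl hle
      calc v a4 * v (x₁ + x₂) ≤ 1 * v x₁ := by gcongr
        _ = v x₁ * 1 := by rw [one_mul, mul_one]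
        _ ≤ v x₁ * (v x₁ * v x₂) := by gcongr
        _ = v x₁ ^ 2 * v x₂ := by rw [pow_two]; ac_rfl
  refine ⟨m3b_key (v x₃) (v x₄) (v (x₃ + x₄)) _ (v x₁) (v x₂) h02 h01 hd0 hd2 hP' hS'
      (fun h => v.map_add_eq_of_lt_right h), ?_⟩
  refine m3b_key (v x₄) (v x₃) (v (x₃ + x₄)) _ (v x₁) (v x₂) h02 h01 hd0 hd2 ?_ hS'
      (fun h => v.map_add_eq_of_lt_left h)
  rw [mul_comm (v x₄)]; exact hP'

end Val

/-! ### Part B: the subgroups `{O} ∪ {v(x) ≥ lam}` for `lam > 1` -/
section Sub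
variable [DecidableEq K] (A : ValuationSubring K) {W : WeierstrassCurve K}

omit [DecidableEq K] in
theorem m3b_two_ne_zero (h2 : A.valuation (2 : K) = 1) : (2 : K) ≠ 0 := by
  intro h
  rw [h, _root_.map_zero] at h2
  exact zero_ne_one h2

/-- the `x`-coordinate of a point (`0` at the origin). -/
def m3bXc : W.toAffine.Point → K
  | .zero => 0
  | .some x _ _ => x

omit [DecidableEq K] in
@[simp] theorem m3bXc_some {x y : K} (h : W.toAffine.Nonsingular x y) :
    m3bXc (Point.some x y h) = x := rfl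

omit [DecidableEq K] in
theorem m3b_exists_some {P : W.toAffine.Point} (hP : P ≠ 0) :
    ∃ (x y : K) (h : W.toAffine.Nonsingular x y), P = Point.some x y h := by
  cases P with
  | zero => exact absurd rfl hP
  | some x y h => exact ⟨x, y, h, rfl⟩

theorem m3b_xc_neg (hW : IsW2 W) (P : W.toAffine.Point) : m3bXc (-P) = m3bXc P := by
  cases P with
  | zero => rfl
  | some x y h =>
    obtain ⟨h', hneg⟩ := w2_neg_some hW h
    rw [hneg]
    rfl

theorem m3b_double_mem (H : LocHyp A W) {lam : A.ValueGroup} (hlam : 1 < lam) {x y : K}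
    (h : W.toAffine.Nonsingular x y) (hx : lam ≤ A.valuation x) :
    Point.some x y h + Point.some x y h = 0 ∨
      ∃ (x' y' : K) (h' : W.toAffine.Nonsingular x' y'),
        Point.some x y h + Point.some x y h = Point.some x' y' h' ∧
          A.valuation x' = A.valuation x := by
  by_cases hy : y = 0
  · exact Or.inl (w2_add_self_of_y_eq_zero H.w2 h hy)
  · right
    obtain ⟨x', y', h', hadd, hd⟩ := w2_double H.w2 (m3b_two_ne_zero A H.two) h hy
    refine ⟨x', y', h', hadd, ?_⟩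
    exact m3b_val_dbl A H.two H.a₂ H.a₄ (lt_of_lt_of_le hlam hx)
      ((w2_equation_iff H.w2 x y).mp h.1) hd

theorem m3b_add_mem_aux (H : LocHyp A W) {lam : A.ValueGroup} (hlam : 1 < lam)
    {x₁ y₁ x₂ y₂ : K} (h₁ : W.toAffine.Nonsingular x₁ y₁) (h₂ : W.toAffine.Nonsingular x₂ y₂)
    (_hx₁ : lam ≤ A.valuation x₁) (hx₂ : lam ≤ A.valuation x₂) (hne : x₁ ≠ x₂)
    (hle : A.valuation x₂ ≤ A.valuation x₁) :
    ∃ (x₃ y₃ : K) (h₃ : W.toAffine.Nonsingular x₃ y₃),
      Point.some x₁ y₁ h₁ + Point.some x₂ y₂ h₂ = Point.some x₃ y₃ h₃ ∧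
        lam ≤ A.valuation x₃ := by
  obtain ⟨x₃, y₃, h₃, x₄, y₄, h₄, hadd, -, hS, hP, -, -⟩ := w2_add_sub H.w2 h₁ h₂ hne
  refine ⟨x₃, y₃, h₃, hadd, ?_⟩
  exact le_trans hx₂ (m3b_val_add A H.two H.a₂ H.a₄ (lt_of_lt_of_le hlam hx₂) hle hne hS hP).1

/-- The subgroup `{O} ∪ {P : v(x(P)) ≥ lam}`, for `lam > 1`. -/
def m3bSub (H : LocHyp A W) (lam : A.ValueGroup) (hlam : 1 < lam) :
    AddSubgroup W.toAffine.Point where
  carrier := {P | P = 0 ∨ ∃ (x y : K) (h : W.toAffine.Nonsingular x y),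
    P = Point.some x y h ∧ lam ≤ A.valuation x}
  zero_mem' := Or.inl rfl
  neg_mem' := by
    rintro P (rfl | ⟨x, y, h, rfl, hx⟩)
    · exact Or.inl _root_.neg_zero
    · obtain ⟨h', hneg⟩ := w2_neg_some H.w2 h
      exact Or.inr ⟨x, -y, h', hneg, hx⟩
  add_mem' := by
    rintro P Q (rfl | ⟨x₁, y₁, h₁, rfl, hx₁⟩) hQ
    · rw [zero_add]; exact hQ
    rcases hQ with rfl | ⟨x₂, y₂, h₂, rfl, hx₂⟩
    · rw [add_zero]; exact Or.inr ⟨x₁, y₁, h₁, rfl, hx₁⟩
    by_cases hne : x₁ = x₂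
    · subst hne
      rcases w2_same_x H.w2 h₁ h₂ with hy | hy
      · subst hy
        rcases m3b_double_mem A H hlam h₁ hx₁ with h0 | ⟨x', y', h', hadd, hv⟩
        · exact Or.inl h0
        · exact Or.inr ⟨x', y', h', hadd, by rw [hv]; exact hx₁⟩
      · subst hy
        left
        obtain ⟨h', hneg⟩ := w2_neg_some H.w2 h₁
        have : Point.some x₁ (-y₁) h₂ = -Point.some x₁ y₁ h₁ := by rw [hneg]
        rw [this, add_neg_cancel]
    · rcases le_total (A.valuation x₂) (A.valuation x₁) with hle | hle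
      · obtain ⟨x₃, y₃, h₃, hadd, hv⟩ := m3b_add_mem_aux A H hlam h₁ h₂ hx₁ hx₂ hne hle
        exact Or.inr ⟨x₃, y₃, h₃, hadd, hv⟩
      · obtain ⟨x₃, y₃, h₃, hadd, hv⟩ :=
          m3b_add_mem_aux A H hlam h₂ h₁ hx₂ hx₁ (Ne.symm hne) hle
        exact Or.inr ⟨x₃, y₃, h₃, by rw [add_comm]; exact hadd, hv⟩

theorem m3b_mem_sub_iff (H : LocHyp A W) (lam : A.ValueGroup) (hlam : 1 < lam)
    (P : W.toAffine.Point) : P ∈ m3bSub A H lam hlam ↔
      (P = 0 ∨ ∃ (x y : K) (h : W.toAffine.Nonsingular x y),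
        P = Point.some x y h ∧ lam ≤ A.valuation x) := Iff.rfl

/-- (b): all nonzero multiples of a point of prime order with `v(x) > 1` have the same `v(x)`. -/
theorem m3b_multiples (H : LocHyp A W) {n : ℕ} (hn : n.Prime) {x y : K}
    (h : W.toAffine.Nonsingular x y) (hP : n • Point.some x y h = 0)
    (hx : 1 < A.valuation x) {k : ℕ} (hk : ¬ n ∣ k) :
    k • Point.some x y h ≠ 0 ∧ A.valuation (m3bXc (k • Point.some x y h)) = A.valuation x := by
  set P := Point.some x y h with hPdef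
  have hP0 : P ≠ 0 := by rw [hPdef]; exact fun h0 => by cases h0
  have hord : addOrderOf P = n := by
    have hdvd : addOrderOf P ∣ n := addOrderOf_dvd_of_nsmul_eq_zero hP
    rcases (Nat.dvd_prime hn).mp hdvd with h1 | h1
    · exact absurd (AddMonoid.addOrderOf_eq_one_iff.mp h1) hP0
    · exact h1
  have hkP : k • P ≠ 0 := by
    intro h0
    have := addOrderOf_dvd_of_nsmul_eq_zero h0
    rw [hord] at this
    exact hk this
  refine ⟨hkP, ?_⟩
  obtain ⟨xk, yk, hk', hkeq⟩ := m3b_exists_some hkP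
  rw [hkeq, m3bXc_some]
  apply le_antisymm
  · -- `P` is a multiple of `k • P`
    have hcop : Nat.Coprime k n := (Nat.Coprime.symm ((Nat.Prime.coprime_iff_not_dvd hn).mpr hk))
    obtain ⟨m, -, hm⟩ := Nat.exists_mul_mod_eq_one_of_coprime hcop hn.one_lt
    have hmk : (m * k) • P = P := by
      have h1 : (m * k) % addOrderOf P = 1 := by rw [hord, mul_comm]; exact hm
      rw [← mod_addOrderOf_nsmul P (m * k), h1, one_nsmul]
    by_contra hlt
    have hlt := lt_of_not_ge hlt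
    have h1 : 1 < A.valuation xk := lt_trans hx hlt
    have hmem : k • P ∈ m3bSub A H (A.valuation xk) h1 :=
      Or.inr ⟨xk, yk, hk', hkeq, le_rfl⟩
    have hmem2 : (m * k) • P ∈ m3bSub A H (A.valuation xk) h1 := by
      rw [mul_nsmul']
      exact AddSubgroup.nsmul_mem _ hmem m
    rw [hmk] at hmem2
    rcases hmem2 with h0 | ⟨x', y', h', heq, hv⟩
    · exact hP0 h0
    · rw [hPdef] at heq
      cases heq
      exact absurd hv (not_le.mpr hlt)
  · have hmem : P ∈ m3bSub A H (A.valuation x) hx := Or.inr ⟨x, y, h, rfl, le_rfl⟩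
    have hmem2 : k • P ∈ m3bSub A H (A.valuation x) hx := AddSubgroup.nsmul_mem _ hmem k
    rcases hmem2 with h0 | ⟨x', y', h', heq, hv⟩
    · exact absurd h0 hkP
    · rw [hkeq] at heq
      cases heq
      exact hv

end Sub

/-! ### Part C: residues -/
section Res
variable (A : ValuationSubring K)

open Classical in
/-- residue class of an element of `K` (junk value `0` outside `A`). -/
noncomputable def m3bRes (a : K) : IsLocalRing.ResidueField A :=
  if h : a ∈ A then IsLocalRing.residue A ⟨a, h⟩ else 0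

theorem m3bRes_of_mem {a : K} (h : a ∈ A) : m3bRes A a = IsLocalRing.residue A ⟨a, h⟩ := by
  rw [m3bRes, dif_pos h]

theorem m3bRes_add {a b : K} (ha : a ∈ A) (hb : b ∈ A) :
    m3bRes A (a + b) = m3bRes A a + m3bRes A b := by
  rw [m3bRes_of_mem A ha, m3bRes_of_mem A hb, m3bRes_of_mem A (A.add_mem _ _ ha hb), ← map_add]
  rfl

theorem m3bRes_mul {a b : K} (ha : a ∈ A) (hb : b ∈ A) :
    m3bRes A (a * b) = m3bRes A a * m3bRes A b := by
  rw [m3bRes_of_mem A ha, m3bRes_of_mem A hb, m3bRes_of_mem A (A.mul_mem _ _ ha hb), ← map_mul]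
  rfl

theorem m3bRes_one : m3bRes A (1 : K) = 1 := by
  rw [m3bRes_of_mem A A.one_mem, ← map_one (IsLocalRing.residue A)]
  rfl

theorem m3bRes_natCast (k : ℕ) : m3bRes A (k : K) = (k : IsLocalRing.ResidueField A) := by
  have hk : (k : K) ∈ A := natCast_mem A k
  rw [m3bRes_of_mem A hk, ← map_natCast (IsLocalRing.residue A)]
  rfl

theorem m3bRes_eq_zero {a : K} (h : A.valuation a < 1) : m3bRes A a = 0 := by
  have ha : a ∈ A := (A.valuation_le_one_iff a).mp h.le
  rw [m3bRes_of_mem A ha, IsLocalRing.residue_eq_zero_iff, A.valuation_lt_one_iff]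
  exact h

theorem m3bRes_ne_zero {a : K} (h : A.valuation a = 1) : m3bRes A a ≠ 0 := by
  have ha : a ∈ A := (A.valuation_le_one_iff a).mp h.le
  rw [m3bRes_of_mem A ha, Ne, IsLocalRing.residue_eq_zero_iff, A.valuation_lt_one_iff]
  exact not_lt.mpr h.ge

theorem m3bRes_one_sub {a : K} (h : A.valuation a < 1) : m3bRes A (1 - a) = 1 := by
  have ha : a ∈ A := (A.valuation_le_one_iff a).mp h.le
  have hna : -a ∈ A := A.neg_mem _ ha
  rw [sub_eq_add_neg, m3bRes_add A A.one_mem hna, m3bRes_one,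
    m3bRes_eq_zero A (by rwa [Valuation.map_neg]), add_zero]

theorem m3bRes_sub {a b : K} (ha : a ∈ A) (hb : b ∈ A) :
    m3bRes A (a - b) = m3bRes A a - m3bRes A b := by
  have hnb : -b ∈ A := A.neg_mem _ hb
  have h0 : m3bRes A (-b) + m3bRes A b = 0 := by
    rw [← m3bRes_add A hnb hb, neg_add_cancel]
    exact m3bRes_eq_zero A (by rw [_root_.map_zero]; exact zero_lt_one)
  rw [sub_eq_add_neg, m3bRes_add A ha hnb, eq_neg_of_add_eq_zero_left h0, sub_eq_add_neg]

/-- the recursion `u_{m+1} u_{m-1} ≡ (1 - u_m)²`. -/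
theorem m3b_rec_res {a4 x xm x3 x4 : K} (ha4 : A.valuation a4 ≤ 1) (hx : 1 < A.valuation x)
    (hm : A.valuation xm = A.valuation x) (h3 : A.valuation x3 = A.valuation x)
    (h4 : A.valuation x4 = A.valuation x)
    (hP : x3 * x4 * (xm - x) ^ 2 = (xm * x - a4) ^ 2) :
    m3bRes A (x / x3) * m3bRes A (x / x4) = (1 - m3bRes A (x / xm)) ^ 2 := by
  have hv0 : A.valuation x ≠ 0 := (lt_trans zero_lt_one hx).ne'
  have hx0 : x ≠ 0 := (Valuation.ne_zero_iff _).mp hv0
  have hm0 : xm ≠ 0 := (Valuation.ne_zero_iff _).mp (by rw [hm]; exact hv0)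
  have h30 : x3 ≠ 0 := (Valuation.ne_zero_iff _).mp (by rw [h3]; exact hv0)
  have h40 : x4 ≠ 0 := (Valuation.ne_zero_iff _).mp (by rw [h4]; exact hv0)
  have hum : A.valuation (x / xm) = 1 := by rw [map_div₀, hm, div_self hv0]
  have hu3 : A.valuation (x / x3) = 1 := by rw [map_div₀, h3, div_self hv0]
  have hu4 : A.valuation (x / x4) = 1 := by rw [map_div₀, h4, div_self hv0]
  have mem : ∀ {a : K}, A.valuation a = 1 → a ∈ A := fun h => (A.valuation_le_one_iff _).mp h.le
  have heps : A.valuation (a4 / (xm * x)) < 1 := by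
    rw [map_div₀, map_mul, hm]
    have h1 : 1 < A.valuation x * A.valuation x := one_lt_mul_of_lt_of_le' hx hx.le
    rw [div_lt_iff₀ (lt_trans zero_lt_one h1), one_mul]
    exact lt_of_le_of_lt ha4 h1
  have hid : (1 - x / xm) ^ 2 = x / x3 * (x / x4) * (1 - a4 / (xm * x)) ^ 2 := by
    field_simp
    linear_combination hP
  have h1e : (1 - a4 / (xm * x)) ∈ A :=
    sub_mem A.one_mem ((A.valuation_le_one_iff _).mp heps.le)
  have hL : m3bRes A ((1 - x / xm) ^ 2) = (1 - m3bRes A (x / xm)) ^ 2 := by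
    have h1m : (1 - x / xm) ∈ A := sub_mem A.one_mem (mem hum)
    rw [pow_two, m3bRes_mul A h1m h1m, m3bRes_sub A A.one_mem (mem hum), m3bRes_one, pow_two]
  have hR : m3bRes A (x / x3 * (x / x4) * (1 - a4 / (xm * x)) ^ 2) =
      m3bRes A (x / x3) * m3bRes A (x / x4) := by
    rw [pow_two, m3bRes_mul A (A.mul_mem _ _ (mem hu3) (mem hu4)) (A.mul_mem _ _ h1e h1e),
      m3bRes_mul A (mem hu3) (mem hu4), m3bRes_mul A h1e h1e, m3bRes_one_sub A heps, mul_one,
      mul_one]
  rw [← hL, hid, hR]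

/-- the base case `u₂ ≡ 4`. -/
theorem m3b_two_res {a2 a4 x y x2 : K} (ha2 : A.valuation a2 ≤ 1)
    (ha4 : A.valuation a4 ≤ 1) (hx : 1 < A.valuation x)
    (hxy : y ^ 2 = x ^ 3 + a2 * x ^ 2 + a4 * x) (hd : x2 * (4 * y ^ 2) = (x ^ 2 - a4) ^ 2)
    (hx2 : A.valuation x2 = A.valuation x) :
    m3bRes A (x / x2) = 4 := by
  have hv0 : A.valuation x ≠ 0 := (lt_trans zero_lt_one hx).ne'
  have hpos : (0 : A.ValueGroup) < A.valuation x := lt_trans zero_lt_one hx
  have hx0 : x ≠ 0 := (Valuation.ne_zero_iff _).mp hv0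
  have h20 : x2 ≠ 0 := (Valuation.ne_zero_iff _).mp (by rw [hx2]; exact hv0)
  have hu2 : A.valuation (x / x2) = 1 := by rw [map_div₀, hx2, div_self hv0]
  have mem : ∀ {a : K}, A.valuation a ≤ 1 → a ∈ A := fun h => (A.valuation_le_one_iff _).mp h
  have he1 : A.valuation (a4 / x ^ 2) < 1 := by
    rw [map_div₀, map_pow]
    have h1 : 1 < A.valuation x ^ 2 := one_lt_pow₀ hx (by norm_num)
    rw [div_lt_iff₀ (lt_trans zero_lt_one h1), one_mul]
    exact lt_of_le_of_lt ha4 h1
  have he2 : A.valuation (a2 / x) < 1 := by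
    rw [map_div₀]
    rw [div_lt_iff₀ hpos, one_mul]
    exact lt_of_le_of_lt ha2 hx
  have hx2sq : x ^ 2 - a4 ≠ 0 := by
    intro h0
    have := m3b_val_sq_sub A ha4 hx
    rw [h0, _root_.map_zero] at this
    exact (pow_ne_zero 2 hv0) this.symm
  have hid : x / x2 * (1 - a4 / x ^ 2) ^ 2 = 4 * (1 + (a2 / x + a4 / x ^ 2)) := by
    field_simp
    linear_combination (-1 : K) * hd + 4 * x2 * hxy
  have h1e : (1 - a4 / x ^ 2) ∈ A := sub_mem A.one_mem (mem he1.le)
  have hsum : A.valuation (a2 / x + a4 / x ^ 2) < 1 := Valuation.map_add_lt _ he2 he1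
  have h4 : m3bRes A (4 : K) = 4 := by
    have : (4 : K) = ((4 : ℕ) : K) := by norm_num
    rw [this, m3bRes_natCast]
    norm_num
  have hL : m3bRes A (x / x2 * (1 - a4 / x ^ 2) ^ 2) = m3bRes A (x / x2) := by
    rw [pow_two, m3bRes_mul A (mem hu2.le) (A.mul_mem _ _ h1e h1e), m3bRes_mul A h1e h1e,
      m3bRes_one_sub A he1, mul_one, mul_one]
  have hR : m3bRes A (4 * (1 + (a2 / x + a4 / x ^ 2))) = 4 := by
    have h4m : (4 : K) ∈ A := by
      have : (4 : K) = ((4 : ℕ) : K) := by norm_num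
      rw [this]; exact natCast_mem A 4
    rw [m3bRes_mul A h4m (A.add_mem _ _ A.one_mem (mem hsum.le)),
      m3bRes_add A A.one_mem (mem hsum.le), m3bRes_one, m3bRes_eq_zero A hsum, add_zero, mul_one,
      h4]
  rw [← hL, hid, hR]

end Res

/-- the contradiction in the residue field. -/
theorem m3b_field_contra {κ : Type*} [Field κ] (n : ℕ) (hn3 : 3 ≤ n) (h2 : (2 : κ) ≠ 0)
    (hn : (n : κ) ≠ 0) (U : ℕ → κ) (hU1 : U 1 = 1) (hU2 : U 2 = 4)
    (hne : ∀ k, 1 ≤ k → k ≤ n - 1 → U k ≠ 0)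
    (hrec : ∀ m, 2 ≤ m → m ≤ n - 2 → U (m + 1) * U (m - 1) = (1 - U m) ^ 2)
    (hend1 : U (n - 1) = 1) (hend2 : U (n - 2) = U 2) : False := by
  have hsq : ∀ k, 1 ≤ k → k ≤ n - 1 → U k = (k : κ) ^ 2 := by
    intro k
    induction k using Nat.strong_induction_on with
    | _ k ih =>
      intro hk1 hkn
      rcases Nat.lt_or_ge k 3 with hk3 | hk3
      · interval_cases k
        · rw [hU1]; norm_num
        · rw [hU2]; norm_num
      · -- k = m + 1 with m = k - 1 ≥ 2
        obtain ⟨m, rfl⟩ : ∃ m, k = m + 1 := ⟨k - 1, by omega⟩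
        have hm2 : 2 ≤ m := by omega
        have hr := hrec m hm2 (by omega)
        have ihm := ih m (by omega) (by omega) (by omega)
        have ihm1 := ih (m - 1) (by omega) (by omega) (by omega)
        have hne1 := hne (m - 1) (by omega) (by omega)
        rw [ihm, ihm1] at hr
        rw [ihm1] at hne1
        have hcast : ((m - 1 : ℕ) : κ) = (m : κ) - 1 := by
          rw [Nat.cast_sub (by omega)]; simp
        rw [hcast] at hr hne1
        have : (U (m + 1) - ((m : κ) + 1) ^ 2) * ((m : κ) - 1) ^ 2 = 0 := by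
          linear_combination hr
        rcases mul_eq_zero.mp this with h | h
        · push_cast
          exact sub_eq_zero.mp h
        · exact absurd h hne1
  have h1 := hsq (n - 1) (by omega) le_rfl
  have h2' := hsq (n - 2) (by omega) (by omega)
  rw [hend1] at h1
  rw [hend2, hU2] at h2'
  have hc1 : ((n - 1 : ℕ) : κ) = (n : κ) - 1 := by rw [Nat.cast_sub (by omega)]; simp
  have hc2 : ((n - 2 : ℕ) : κ) = (n : κ) - 2 := by rw [Nat.cast_sub (by omega)]; simp
  rw [hc1] at h1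
  rw [hc2] at h2'
  have : (2 : κ) * (n : κ) = 0 := by linear_combination h2' - h1
  rcases mul_eq_zero.mp this with h | h
  · exact h2 h
  · exact hn h

/-! ### Part D: the theorem -/
section Final
variable [DecidableEq K] (A : ValuationSubring K) {W : WeierstrassCurve K}

theorem m3b_torsion_x_integral (H : LocHyp A W) {n : ℕ} (hn : n.Prime) (hn2 : n ≠ 2)
    (hnv : A.valuation (n : K) = 1) {x y : K} (h : W.toAffine.Nonsingular x y)
    (hP : n • Point.some x y h = 0) : A.valuation x ≤ 1 := by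
  by_contra hx
  have hx : 1 < A.valuation x := lt_of_not_ge hx
  have hv0 : A.valuation x ≠ 0 := (lt_trans zero_lt_one hx).ne'
  have hx0 : x ≠ 0 := (Valuation.ne_zero_iff _).mp hv0
  have hn3 : 3 ≤ n := by
    have := hn.two_le
    omega
  have hmult : ∀ k, 1 ≤ k → k ≤ n - 1 → k • Point.some x y h ≠ 0 ∧
      A.valuation (m3bXc (k • Point.some x y h)) = A.valuation x :=
    fun k hk1 hkn => m3b_multiples A H hn h hP hx
      (Nat.not_dvd_of_pos_of_lt (by omega) (by omega))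
  have hxy : y ^ 2 = x ^ 3 + W.a₂ * x ^ 2 + W.a₄ * x := (w2_equation_iff H.w2 x y).mp h.1
  refine m3b_field_contra (κ := IsLocalRing.ResidueField A) n hn3 ?_ ?_
    (fun k => m3bRes A (x / m3bXc (k • Point.some x y h))) ?_ ?_ ?_ ?_ ?_ ?_
  · -- 2 ≠ 0
    have h2 : A.valuation ((2 : ℕ) : K) = 1 := by
      rw [Nat.cast_ofNat]; exact H.two
    have := m3bRes_ne_zero A h2
    rw [m3bRes_natCast] at this
    simpa using this
  · -- n ≠ 0
    have := m3bRes_ne_zero A hnv
    rwa [m3bRes_natCast] at this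
  · -- U 1 = 1
    show m3bRes A (x / m3bXc ((1 : ℕ) • Point.some x y h)) = 1
    rw [one_nsmul, m3bXc_some, div_self hx0, m3bRes_one]
  · -- U 2 = 4
    show m3bRes A (x / m3bXc ((2 : ℕ) • Point.some x y h)) = 4
    have h2P := hmult 2 (by omega) (by omega)
    rw [two_nsmul] at h2P ⊢
    have hy : y ≠ 0 := by
      intro hy
      exact h2P.1 (w2_add_self_of_y_eq_zero H.w2 h hy)
    obtain ⟨x', y', h', hadd, hd⟩ := w2_double H.w2 (m3b_two_ne_zero A H.two) h hy
    rw [hadd, m3bXc_some] at h2P ⊢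
    exact m3b_two_res A H.a₂ H.a₄ hx hxy hd h2P.2
  · -- U k ≠ 0
    intro k hk1 hkn
    apply m3bRes_ne_zero
    rw [map_div₀, (hmult k hk1 hkn).2, div_self hv0]
  · -- recursion
    intro m hm2 hmn
    show m3bRes A (x / m3bXc ((m + 1) • Point.some x y h)) *
        m3bRes A (x / m3bXc ((m - 1) • Point.some x y h)) =
      (1 - m3bRes A (x / m3bXc (m • Point.some x y h))) ^ 2
    have hmP := hmult m (by omega) (by omega)
    have hm1P := hmult (m + 1) (by omega) (by omega)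
    have hm0P := hmult (m - 1) (by omega) (by omega)
    obtain ⟨xm, ym, hm', hmeq⟩ := m3b_exists_some hmP.1
    have hsucc : (m + 1) • Point.some x y h = m • Point.some x y h + Point.some x y h :=
      succ_nsmul _ _
    have hpred : (m - 1) • Point.some x y h = m • Point.some x y h - Point.some x y h := by
      have : m • Point.some x y h = (m - 1) • Point.some x y h + Point.some x y h := by
        rw [← succ_nsmul, Nat.sub_add_cancel (by omega)]
      rw [this, add_sub_cancel_right]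
    have hne : xm ≠ x := by
      intro hxm
      subst hxm
      rcases w2_same_x H.w2 h hm' with hy | hy
      · subst hy
        apply hm0P.1
        rw [hpred, hmeq, sub_self]
      · subst hy
        apply hm1P.1
        obtain ⟨h'', hneg⟩ := w2_neg_some H.w2 h
        rw [hsucc, hmeq]
        have : Point.some xm (-y) hm' = -Point.some xm y h := by rw [hneg]
        rw [this, neg_add_cancel]
    obtain ⟨x₃, y₃, h₃, x₄, y₄, h₄, hadd, hsub, -, hPi, -, -⟩ :=
      w2_add_sub H.w2 hm' h hne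
    rw [hsucc, hmeq, hadd, m3bXc_some] at hm1P
    rw [hpred, hmeq, hsub, m3bXc_some] at hm0P
    rw [hmeq, m3bXc_some] at hmP
    rw [hsucc, hpred, hmeq, hadd, hsub, m3bXc_some, m3bXc_some, m3bXc_some]
    exact m3b_rec_res A H.a₄ hx hmP.2 hm1P.2 hm0P.2 hPi
  · -- U (n - 1) = 1
    show m3bRes A (x / m3bXc ((n - 1) • Point.some x y h)) = 1
    have : (n - 1) • Point.some x y h = -Point.some x y h := by
      apply eq_neg_of_add_eq_zero_left
      rw [← succ_nsmul, Nat.sub_add_cancel (by omega)]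
      exact hP
    rw [this, m3b_xc_neg H.w2, m3bXc_some, div_self hx0, m3bRes_one]
  · -- U (n - 2) = U 2
    show m3bRes A (x / m3bXc ((n - 2) • Point.some x y h)) =
      m3bRes A (x / m3bXc (2 • Point.some x y h))
    have : (n - 2) • Point.some x y h = -((2 : ℕ) • Point.some x y h) := by
      apply eq_neg_of_add_eq_zero_left
      rw [← add_nsmul, Nat.sub_add_cancel (by omega)]
      exact hP
    rw [this, m3b_xc_neg H.w2]

end Final

end Fermat.Agent.S05x
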