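import Fermat.Agent.S05x.Defs
import Fermat.Agent.S05x.Inertia
import Fermat.Statements.S05
import Fermat.Agent.S51x.VC
import Fermat.Agent.S51x.Gal

/-!
# S05 project, backup for M10 (assembly): transport of the Frey curve to the shape
`Y² = X³ + a₂X² + a₄X` and application of the local main theorem.
-/

set_option autoImplicit false
open WeierstrassCurve WeierstrassCurve.Affine WeierstrassCurve.Affine.Point

namespace Fermat.Agent.S05x.FreyB

open Fermat.Agent.S51x (vcEquiv)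

abbrev Kb := AlgebraicClosure ℚ

noncomputable section

/-- rewriting the coordinates of an affine point -/
theorem some_congr {W : WeierstrassCurve Kb} {x₁ y₁ x₂ y₂ : Kb}
    (h₁ : W.toAffine.Nonsingular x₁ y₁) (hx : x₁ = x₂) (hy : y₁ = y₂) :
    ∃ h₂ : W.toAffine.Nonsingular x₂ y₂, Point.some x₁ y₁ h₁ = Point.some x₂ y₂ h₂ := by
  subst hx
  subst hy
  exact ⟨h₁, rfl⟩

/-- **Transport**: if the local main theorem applies to `C • (E⁄Kb)` (with `C` fixed by `σ`),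
then `σ` fixes the coordinates of every `n`-torsion point of `E⁄Kb`. -/
theorem transport_fixed (E : WeierstrassCurve ℚ) (C : VariableChange Kb)
    (σ : Kb ≃ₐ[ℚ] Kb)
    (hu : σ (C.u : Kb) = C.u) (hr : σ C.r = C.r) (hs : σ C.s = C.s) (ht : σ C.t = C.t)
    (n : ℕ)
    (hloc : ∀ {X Y : Kb} (h : (C • (E⁄Kb)).toAffine.Nonsingular X Y)
      (h' : (C • (E⁄Kb)).toAffine.Nonsingular (σ X) (σ Y)),
      n • Point.some X Y h = 0 → n • Point.some (σ X) (σ Y) h' = 0 → σ X = X ∧ σ Y = Y)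
    {x y : Kb} (h : (E⁄Kb).Nonsingular x y)
    (hP : n • (Point.some x y h : (E⁄Kb).Point) = 0) : σ x = x ∧ σ y = y := by
  have hu0 : (C.u : Kb) ≠ 0 := C.u.ne_zero
  -- the point on `C • W`
  obtain ⟨hXY, hQ⟩ := Fermat.Agent.S51x.vcEquiv_symm_some (E⁄Kb) C h
  have hnQ : n • Point.some _ _ hXY = 0 := by
    rw [← hQ, ← map_nsmul, hP, _root_.map_zero]
  -- the conjugate point
  obtain ⟨hσ, hσP⟩ := Fermat.Agent.S51x.smul_some E σ h
  have hnσ : n • (Point.some (σ x) (σ y) hσ : (E⁄Kb).Point) = 0 := by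
    rw [← hσP, ← Fermat.Agent.S51x.smul_nsmul_point, hP]
    rfl
  obtain ⟨hXY', hQ'⟩ := Fermat.Agent.S51x.vcEquiv_symm_some (E⁄Kb) C hσ
  have hnQ' : n • Point.some _ _ hXY' = 0 := by
    rw [← hQ', ← map_nsmul, hnσ, _root_.map_zero]
  have ex : (σ x - C.r) / (C.u : Kb) ^ 2 = σ ((x - C.r) / (C.u : Kb) ^ 2) := by
    rw [map_div₀, map_sub, map_pow, hu, hr]
  have ey : (σ y - C.s * (σ x - C.r) - C.t) / (C.u : Kb) ^ 3 =
      σ ((y - C.s * (x - C.r) - C.t) / (C.u : Kb) ^ 3) := by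
    rw [map_div₀, map_sub, map_sub, map_mul, map_sub, map_pow, hu, hr, hs, ht]
  obtain ⟨h2, e2⟩ := some_congr hXY' ex ey
  rw [e2] at hnQ'
  obtain ⟨hX, hY⟩ := hloc hXY h2 hnQ hnQ'
  have hxX : x = (C.u : Kb) ^ 2 * ((x - C.r) / (C.u : Kb) ^ 2) + C.r := by
    field_simp
    ring
  have hyY : y = (C.u : Kb) ^ 3 * ((y - C.s * (x - C.r) - C.t) / (C.u : Kb) ^ 3) +
      (C.u : Kb) ^ 2 * C.s * ((x - C.r) / (C.u : Kb) ^ 2) + C.t := by
    field_simp
    ring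
  constructor
  · conv_lhs => rw [hxX]
    rw [map_add, map_mul, map_pow, hu, hr, hX]
    exact hxX.symm
  · conv_lhs => rw [hyY]
    rw [map_add, map_add, map_mul, map_mul, map_mul, map_pow, map_pow, hu, hs, ht, hX, hY]
    exact hyY.symm

/-! ### The Frey curve and its two `W2` models -/

variable (P : FreyPackage)

/-- `a^p`, `b^p` as elements of `Kb`. -/
def cA : Kb := ((P.a ^ P.p : ℤ) : Kb)
def cB : Kb := ((P.b ^ P.p : ℤ) : Kb)

theorem frey_a₁ : (P.freyCurve⁄Kb).a₁ = 1 := by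
  change algebraMap ℚ Kb P.freyCurve.a₁ = 1
  simp [FreyPackage.freyCurve]

theorem frey_a₃ : (P.freyCurve⁄Kb).a₃ = 0 := by
  change algebraMap ℚ Kb P.freyCurve.a₃ = 0
  simp [FreyPackage.freyCurve]

theorem frey_a₆ : (P.freyCurve⁄Kb).a₆ = 0 := by
  change algebraMap ℚ Kb P.freyCurve.a₆ = 0
  simp [FreyPackage.freyCurve]

theorem frey_a₂ : (P.freyCurve⁄Kb).a₂ = (cB P - 1 - cA P) / 4 := by
  change algebraMap ℚ Kb P.freyCurve.a₂ = _
  simp [FreyPackage.freyCurve, cA, cB]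

theorem frey_a₄ : (P.freyCurve⁄Kb).a₄ = -(cA P) * (cB P) / 16 := by
  change algebraMap ℚ Kb P.freyCurve.a₄ = _
  simp [FreyPackage.freyCurve, cA, cB]

theorem half_ne_zero : (1 / 2 : Kb) ≠ 0 := by norm_num

/-- The variable change `(X, Y) ↦ (X/4 + r, Y/8 - X/8 - r/2)`. -/
def vcr (r : Kb) : VariableChange Kb := ⟨Units.mk0 (1 / 2) half_ne_zero, r, -1 / 2, -r / 2⟩

theorem vcr_u (r : Kb) : ((vcr r).u : Kb) = 1 / 2 := rfl
theorem vcr_r (r : Kb) : (vcr r).r = r := rfl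
theorem vcr_s (r : Kb) : (vcr r).s = -1 / 2 := rfl
theorem vcr_t (r : Kb) : (vcr r).t = -r / 2 := rfl

theorem vcr_a₁ (r : Kb) : (vcr r • (P.freyCurve⁄Kb)).a₁ = 0 := by
  rw [Fermat.Agent.S51x.vc_a₁, vcr_u, vcr_s, frey_a₁]
  ring

theorem vcr_a₃ (r : Kb) : (vcr r • (P.freyCurve⁄Kb)).a₃ = 0 := by
  rw [Fermat.Agent.S51x.vc_a₃, vcr_u, vcr_r, vcr_t, frey_a₁, frey_a₃]
  ring

theorem vcr_a₂ (r : Kb) : (vcr r • (P.freyCurve⁄Kb)).a₂ = cB P - cA P + 12 * r := by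
  rw [Fermat.Agent.S51x.vc_a₂, vcr_u, vcr_r, vcr_s, frey_a₁, frey_a₂]
  ring

theorem vcr_a₄ (r : Kb) : (vcr r • (P.freyCurve⁄Kb)).a₄ =
    -(cA P * cB P) + 8 * r * (cB P - 1 - cA P) + 8 * r + 48 * r ^ 2 := by
  rw [Fermat.Agent.S51x.vc_a₄, vcr_u, vcr_r, vcr_s, vcr_t, frey_a₁, frey_a₂, frey_a₃, frey_a₄]
  ring

theorem vcr_a₆ (r : Kb) : (vcr r • (P.freyCurve⁄Kb)).a₆ =
    -(4 * r * (cA P * cB P)) + 16 * r ^ 2 * (cB P - 1 - cA P) + 64 * r ^ 3 + 16 * r ^ 2 := by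
  rw [Fermat.Agent.S51x.vc_a₆, vcr_u, vcr_r, vcr_t, frey_a₁, frey_a₂, frey_a₃, frey_a₄, frey_a₆]
  ring

/-! ### Arithmetic of the Frey package at an odd prime `q ≠ p` -/

section Arith

variable {q : ℕ} (hq : q.Prime)
include hq

theorem q_prime_int : Prime (q : ℤ) := Nat.prime_iff_prime_int.mp hq

theorem q_dvd_pow_iff (z : ℤ) {n : ℕ} (hn : n ≠ 0) : (q : ℤ) ∣ z ^ n ↔ (q : ℤ) ∣ z :=
  ⟨fun h => (q_prime_int hq).dvd_of_dvd_pow h, fun h => dvd_pow h hn⟩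

theorem not_dvd_of_gcd_eq_one {x y : ℤ} (hg : gcd x y = 1) (hx : (q : ℤ) ∣ x) :
    ¬ (q : ℤ) ∣ y := by
  intro hy
  have h1 : (q : ℤ) ∣ gcd x y := dvd_gcd hx hy
  rw [hg] at h1
  exact (q_prime_int hq).not_isUnit (isUnit_of_dvd_one h1)

end Arith

/-! ### The main theorem for the Frey curve -/

/-- The statement of the local main theorem (module M9) over `Kb`. -/
def LocalMainStmt : Prop :=
  ∀ (A : ValuationSubring Kb) {W : WeierstrassCurve Kb} (_H : LocHyp A W) (τ : Kb →+* Kb)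
    (_hτ : ∀ a : Kb, A.valuation a ≤ 1 → A.valuation (τ a - a) < 1)
    {n : ℕ} (_hn : n.Prime) (_hn2 : n ≠ 2) (_hnv : A.valuation (n : Kb) = 1)
    (_hred : A.valuation (W.a₄ ^ 2 * (W.a₂ ^ 2 - 4 * W.a₄)) = 1 ∨
      (NodeHyp A W ∧ (∃ c : Kb, τ c = c ∧ A.valuation W.a₄ = A.valuation c ^ n) ∧
        ∃ β : Kb, β ^ 2 = W.a₂))
    {x y : Kb} (h : W.toAffine.Nonsingular x y) (h' : W.toAffine.Nonsingular (τ x) (τ y))
    (_hP : n • Point.some x y h = 0) (_hQ : n • Point.some (τ x) (τ y) h' = 0),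
    τ x = x ∧ τ y = y

theorem frey_point_fixed (hLM : LocalMainStmt) {q : ℕ} (hq : q.Prime) (hq2 : q ≠ 2) (hqp : q ≠ P.p)
    (A : ValuationSubring Kb) (hA : A.LiesOverPrime q) (σ : Kb ≃ₐ[ℚ] Kb)
    (hσ : σ ∈ A.inertiaSubgroupIn ℚ) {x y : Kb} (h : (P.freyCurve⁄Kb).Nonsingular x y)
    (hP : P.p • (Point.some x y h : (P.freyCurve⁄Kb).Point) = 0) : σ x = x ∧ σ y = y := by
  have hp0 : P.p ≠ 0 := P.hp0
  have hτ := inertia_facts A σ hσ
  have hle := val_int_le_one A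
  have hone := fun z => val_int_eq_one_iff A hq hA z
  have hn2 : P.p ≠ 2 := by have := P.hp5; omega
  have hnv : A.valuation ((P.p : ℕ) : Kb) = 1 := by
    have h1 : ((P.p : ℕ) : Kb) = (((P.p : ℕ) : ℤ) : Kb) := (Int.cast_natCast _).symm
    rw [h1, hone]
    intro hd
    have := Int.natCast_dvd_natCast.mp hd
    exact hqp ((Nat.prime_dvd_prime_iff_eq hq P.pp).mp this)
  have h2v : A.valuation (2 : Kb) = 1 := by
    have h1 : (2 : Kb) = ((2 : ℤ) : Kb) := by norm_num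
    rw [h1, hone]
    intro hd
    have h3 : q ∣ 2 := Int.natCast_dvd_natCast.mp (by simpa using hd)
    exact hq2 ((Nat.prime_dvd_prime_iff_eq hq Nat.prime_two).mp h3)
  have hσint : ∀ z : ℤ, σ (z : Kb) = (z : Kb) := fun z => map_intCast σ z
  have hσ2 : σ (2 : Kb) = 2 := map_ofNat σ 2
  have hσ4 : σ (4 : Kb) = 4 := map_ofNat σ 4
  have hu : σ ((vcr 0).u : Kb) = (vcr 0).u := by
    rw [vcr_u]; simp [hσ2]
  -- shape and integrality of the models
  have hA' : cA P = ((P.a ^ P.p : ℤ) : Kb) := rfl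
  have hB' : cB P = ((P.b ^ P.p : ℤ) : Kb) := rfl
  by_cases hc : (q : ℤ) ∣ P.c
  · -- node case, model centred at the `2`-torsion point with `x = a^p/4`
    have hqa : ¬ (q : ℤ) ∣ P.a := fun hd =>
      not_dvd_of_gcd_eq_one hq P.hgcdac hd hc
    set r : Kb := cA P / 4 with hr
    have e2 : (vcr r • (P.freyCurve⁄Kb)).a₂ = ((P.a ^ P.p + P.c ^ P.p : ℤ) : Kb) := by
      rw [vcr_a₂, hr, ← P.hFLT, hA', hB']
      push_cast
      ring
    have e4 : (vcr r • (P.freyCurve⁄Kb)).a₄ = (((P.a * P.c) ^ P.p : ℤ) : Kb) := by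
      rw [vcr_a₄, hr, mul_pow, ← P.hFLT, hA', hB']
      push_cast
      ring
    have e6 : (vcr r • (P.freyCurve⁄Kb)).a₆ = 0 := by
      rw [vcr_a₆, hr]
      ring
    have hloc : LocHyp A (vcr r • (P.freyCurve⁄Kb)) :=
      ⟨⟨vcr_a₁ P r, vcr_a₃ P r, e6⟩, h2v, by rw [e2]; exact hle _, by rw [e4]; exact hle _⟩
    have hnode : NodeHyp A (vcr r • (P.freyCurve⁄Kb)) := by
      refine ⟨hloc, ?_, ?_, ?_⟩
      · rw [e2, hone]
        intro hd
        have h1 : (q : ℤ) ∣ P.c ^ P.p := dvd_pow hc hp0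
        have h3 : (q : ℤ) ∣ P.a ^ P.p := (dvd_add_left h1).mp hd
        exact hqa ((q_dvd_pow_iff hq _ hp0).mp h3)
      · rw [e4]
        have h1 := hle ((P.a * P.c) ^ P.p)
        rcases lt_or_eq_of_le h1 with h3 | h3
        · exact h3
        · exfalso
          rw [hone] at h3
          exact h3 (dvd_pow (dvd_mul_of_dvd_right hc _) hp0)
      · rw [e4]
        have : ((P.a * P.c) ^ P.p : ℤ) ≠ 0 := pow_ne_zero _ (mul_ne_zero P.ha0 P.hc0)
        exact_mod_cast this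
    obtain ⟨β, hβ⟩ := IsAlgClosed.exists_pow_nat_eq (vcr r • (P.freyCurve⁄Kb)).a₂
      (n := 2) (by norm_num)
    refine transport_fixed P.freyCurve (vcr r) σ hu ?_ ?_ ?_ P.p ?_ h hP
    · rw [vcr_r, hr, hA', map_div₀, hσint, hσ4]
    · rw [vcr_s]; simp [hσ2]
    · rw [vcr_t, hr, hA', map_div₀, map_neg, map_div₀, hσint, hσ4, hσ2]
    · intro X Y hXY hXY' e1 e2'
      refine hLM A hloc (σ : Kb →+* Kb) hτ P.pp hn2 hnv
        (Or.inr ⟨hnode, ⟨((P.a * P.c : ℤ) : Kb), hσint _, ?_⟩, β, hβ⟩) hXY hXY' e1 e2'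
      rw [e4, ← map_pow]
      push_cast
      rfl
  · -- model centred at `(0,0)`
    have e2 : (vcr 0 • (P.freyCurve⁄Kb)).a₂ = ((P.b ^ P.p - P.a ^ P.p : ℤ) : Kb) := by
      rw [vcr_a₂, hA', hB']
      push_cast
      ring
    have e4 : (vcr 0 • (P.freyCurve⁄Kb)).a₄ = ((-(P.a * P.b) ^ P.p : ℤ) : Kb) := by
      rw [vcr_a₄, mul_pow, hA', hB']
      push_cast
      ring
    have e6 : (vcr 0 • (P.freyCurve⁄Kb)).a₆ = 0 := by
      rw [vcr_a₆]
      ring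
    have hloc : LocHyp A (vcr 0 • (P.freyCurve⁄Kb)) :=
      ⟨⟨vcr_a₁ P 0, vcr_a₃ P 0, e6⟩, h2v, by rw [e2]; exact hle _, by rw [e4]; exact hle _⟩
    have hcp : ¬ (q : ℤ) ∣ P.c ^ P.p := fun hd => hc ((q_dvd_pow_iff hq _ hp0).mp hd)
    have key : (A.valuation ((vcr 0 • (P.freyCurve⁄Kb)).a₄ ^ 2 *
          ((vcr 0 • (P.freyCurve⁄Kb)).a₂ ^ 2 - 4 * (vcr 0 • (P.freyCurve⁄Kb)).a₄)) = 1 ∨
        (NodeHyp A (vcr 0 • (P.freyCurve⁄Kb)) ∧
          (∃ c : Kb, (σ : Kb →+* Kb) c = c ∧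
            A.valuation (vcr 0 • (P.freyCurve⁄Kb)).a₄ = A.valuation c ^ P.p) ∧
          ∃ β : Kb, β ^ 2 = (vcr 0 • (P.freyCurve⁄Kb)).a₂)) → σ x = x ∧ σ y = y := by
      intro hred
      refine transport_fixed P.freyCurve (vcr 0) σ hu ?_ ?_ ?_ P.p ?_ h hP
      · rw [vcr_r]; simp
      · rw [vcr_s]; simp [hσ2]
      · rw [vcr_t]; simp
      · intro X Y hXY hXY' e1 e2'
        exact hLM A hloc (σ : Kb →+* Kb) hτ P.pp hn2 hnv hred hXY hXY' e1 e2'
    by_cases hab : (q : ℤ) ∣ P.a * P.b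
    · -- node case
      have hnode : NodeHyp A (vcr 0 • (P.freyCurve⁄Kb)) := by
        refine ⟨hloc, ?_, ?_, ?_⟩
        · rw [e2, hone]
          intro hd
          rcases (q_prime_int hq).dvd_or_dvd hab with ha | hb
          · have h1 : (q : ℤ) ∣ P.a ^ P.p := dvd_pow ha hp0
            have h3 : (q : ℤ) ∣ P.b ^ P.p := (dvd_sub_left h1).mp hd
            exact not_dvd_of_gcd_eq_one hq P.hgcdab ha ((q_dvd_pow_iff hq _ hp0).mp h3)
          · have h1 : (q : ℤ) ∣ P.b ^ P.p := dvd_pow hb hp0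
            have h3 : (q : ℤ) ∣ P.a ^ P.p := (dvd_sub_right h1).mp hd
            exact not_dvd_of_gcd_eq_one hq P.hgcdab ((q_dvd_pow_iff hq _ hp0).mp h3) hb
        · rw [e4]
          have h1 := hle (-(P.a * P.b) ^ P.p)
          rcases lt_or_eq_of_le h1 with h3 | h3
          · exact h3
          · exfalso
            rw [hone] at h3
            exact h3 ((dvd_neg).mpr (dvd_pow hab hp0))
        · rw [e4]
          have : (-(P.a * P.b) ^ P.p : ℤ) ≠ 0 :=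
            neg_ne_zero.mpr (pow_ne_zero _ (mul_ne_zero P.ha0 P.hb0))
          exact_mod_cast this
      obtain ⟨β, hβ⟩ := IsAlgClosed.exists_pow_nat_eq (vcr 0 • (P.freyCurve⁄Kb)).a₂
        (n := 2) (by norm_num)
      refine key (Or.inr ⟨hnode, ⟨((P.a * P.b : ℤ) : Kb), hσint _, ?_⟩, β, hβ⟩)
      rw [e4, ← map_pow]
      push_cast
      rw [Valuation.map_neg]
    · -- good reduction
      refine key (Or.inl ?_)
      have e : (vcr 0 • (P.freyCurve⁄Kb)).a₄ ^ 2 *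
          ((vcr 0 • (P.freyCurve⁄Kb)).a₂ ^ 2 - 4 * (vcr 0 • (P.freyCurve⁄Kb)).a₄) =
          ((((P.a * P.b) ^ P.p * P.c ^ P.p) ^ 2 : ℤ) : Kb) := by
        rw [e2, e4, ← P.hFLT, mul_pow]
        push_cast
        ring
      rw [e, hone]
      intro hd
      have h1 := (q_prime_int hq).dvd_of_dvd_pow hd
      rcases (q_prime_int hq).dvd_or_dvd h1 with h3 | h3
      · exact hab ((q_dvd_pow_iff hq _ hp0).mp h3)
      · exact hcp h3

/-- **S05 from the local main theorem.** -/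
theorem s05_of_localMain (hLM : LocalMainStmt) {q : ℕ} (hq : q.Prime) (hq2 : q ≠ 2)
    (hqp : q ≠ P.p) : P.GaloisRepUnramifiedAt q := by
  intro A hA σ hσ x
  obtain ⟨Q, hQ⟩ := x
  apply Subtype.ext
  change σ • Q = Q
  rw [Submodule.mem_torsionBy_iff] at hQ
  have hQ' : P.p • Q = 0 := by
    rwa [natCast_zsmul] at hQ
  rcases Q with _ | ⟨x, y, h⟩
  · rfl
  · obtain ⟨h', e⟩ := Fermat.Agent.S51x.smul_some P.freyCurve σ h
    obtain ⟨hx, hy⟩ := frey_point_fixed P hLM hq hq2 hqp A hA σ hσ h hQ'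
    obtain ⟨h2, e2⟩ := some_congr h' hx hy
    exact e.trans e2

end

end Fermat.Agent.S05x.FreyB
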