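import Fermat.Agent.S05x.NodeCore
import Fermat.Agent.S05x.Formal
import Fermat.Agent.S05x.PairVal
import Fermat.Agent.S05x.PairPtCore
import Fermat.Agent.S05x.Sawtooth

/-!
# S05 project, module M7: torsion points reducing to the node are fixed by inertia

`node_fixed` (exact Spec signature) = `node_fixed_of` (NodeCore) with M3 := `torsion_x_integral`
(Formal) and M6 := `psz_pow_mem_of_pair` (Sawtooth) fed with `pair_pt_of` (PairPtCore) and
`pair_val` (PairVal).  No Spec stub is used.
-/

set_option autoImplicit false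
open WeierstrassCurve WeierstrassCurve.Affine WeierstrassCurve.Affine.Point

namespace Fermat.Agent.S05x

variable {K : Type*} [Field K] [DecidableEq K] (A : ValuationSubring K) {W : WeierstrassCurve K}

/-- M6 without any Spec stub: for an `n`-torsion point, `psz P ^ n` is an even power of `v(a₄)`. -/
theorem m7_psz_pow_mem (H : NodeHyp A W) (P : W.toAffine.Point) (n : ℕ) (hP : n • P = 0) :
    ∃ m : ℤ, psz A W P ^ n = A.valuation W.a₄ ^ (2 * m) :=
  psz_pow_mem_of_pair A H (fun P Q => pair_pt_of A (pair_val A) H P Q) P n hP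

/-- points reducing to the node are fixed by inertia -/
theorem node_fixed (H : NodeHyp A W) (τ : K →+* K)
    (hτ : ∀ a : K, A.valuation a ≤ 1 → A.valuation (τ a - a) < 1)
    {n : ℕ} (hn : n.Prime) (hn2 : n ≠ 2) (hnv : A.valuation (n : K) = 1)
    (c : K) (hc : τ c = c) (hca : A.valuation W.a₄ = A.valuation c ^ n)
    (β : K) (hβ : β ^ 2 = W.a₂)
    {x y : K} (h : W.toAffine.Nonsingular x y) (h' : W.toAffine.Nonsingular (τ x) (τ y))
    (hP : n • Point.some x y h = 0) (hQ : n • Point.some (τ x) (τ y) h' = 0)
    (hx : A.valuation x < 1) : τ x = x ∧ τ y = y :=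
  have _ := β
  have _ := hβ
  node_fixed_of A H τ hτ hn hn2 (fun h hP => torsion_x_integral A H.loc hn hn2 hnv h hP)
    (fun P hP => m7_psz_pow_mem A H P n hP) c hc hca h h' hP hQ hx

end Fermat.Agent.S05x
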