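import Fermat.Agent.S05x.Defs

/-!
# S05 project, module M4 (pair lemma), implementation by helper2

`pair_val` with the exact `Spec.lean` signature.  Pure valuation casework.
-/

set_option autoImplicit false

namespace Fermat.Agent.S05x.PVB

section helpers
variable {Γ₀ : Type*} [LinearOrderedCommGroupWithZero Γ₀]

/-- value-level clipped size -/
def szv (η p : Γ₀) : Γ₀ := min 1 (max p η)

lemma szv_of_one_le {η p : Γ₀} (h : 1 ≤ p) : szv η p = 1 := by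
  unfold szv; exact min_eq_left (h.trans (le_max_left _ _))

lemma szv_of_le {η p : Γ₀} (hη : η ≤ 1) (h : p ≤ η) : szv η p = η := by
  unfold szv; rw [max_eq_right h, min_eq_right hη]

lemma szv_of_mid {η p : Γ₀} (h1 : η ≤ p) (h2 : p ≤ 1) : szv η p = p := by
  unfold szv; rw [max_eq_left h1, min_eq_right h2]

lemma rfl2_of_le {η z : Γ₀} (h : η ≤ z) : rfl2 η z = z := if_pos h

lemma rfl2_of_lt {η z : Γ₀} (h : z < η) : rfl2 η z = η ^ 2 / z := if_neg (not_le.mpr h)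

lemma min_div_div {s₁ s₂ : Γ₀} (h : s₂ ≤ s₁) (h0 : s₂ ≠ 0) :
    min (s₁ / s₂) (s₂ / s₁) = s₂ / s₁ := by
  have h2 : 0 < s₂ := zero_lt_iff.mpr h0
  have h1 : 0 < s₁ := h2.trans_le h
  apply min_eq_right
  calc s₂ / s₁ ≤ 1 := (div_le_one₀ h1).mpr h
    _ ≤ s₁ / s₂ := (one_le_div₀ h2).mpr h

end helpers

variable {K : Type*} [Field K] {Γ₀ : Type*} [LinearOrderedCommGroupWithZero Γ₀] (v : Valuation K Γ₀)

theorem sp2_aux {a b : K} {M : Γ₀} (hP : v a * v b ≤ M ^ 2) (hS : v (a + b) ≤ M) : v a ≤ M := by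
  by_contra hlt
  rw [not_le] at hlt
  have hb : v b < v a := by
    by_contra hb
    rw [not_lt] at hb
    have h1 : M ^ 2 < v a * v a := by
      rw [pow_two]
      exact mul_lt_mul'' hlt hlt zero_le zero_le
    have h2 : v a * v a ≤ v a * v b := by gcongr
    exact absurd (h1.trans_le (h2.trans hP)) (lt_irrefl _)
  rw [Valuation.map_add_eq_of_lt_left v hb] at hS
  exact absurd (hlt.trans_le hS) (lt_irrefl _)

/-- product `≤ M²`, sum `≤ M` : both `≤ M` -/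
theorem sp2 {x₃ x₄ : K} {M : Γ₀} (hP : v x₃ * v x₄ ≤ M ^ 2) (hS : v (x₃ + x₄) ≤ M) :
    v x₃ ≤ M ∧ v x₄ ≤ M :=
  ⟨sp2_aux v hP hS, sp2_aux v (by rwa [mul_comm]) (by rwa [add_comm])⟩

/-- product `= M²`, sum `≤ M` : both `= M` -/
theorem sp1 {x₃ x₄ : K} {M : Γ₀} (hM : M ≠ 0) (hP : v x₃ * v x₄ = M ^ 2) (hS : v (x₃ + x₄) ≤ M) :
    v x₃ = M ∧ v x₄ = M := by
  obtain ⟨h3, h4⟩ := sp2 v hP.le hS
  have hMpos : 0 < M := zero_lt_iff.mpr hM
  constructor
  · by_contra hne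
    have hlt : v x₃ < M := lt_of_le_of_ne h3 hne
    have : v x₃ * v x₄ < M ^ 2 := by
      rw [pow_two]
      calc v x₃ * v x₄ ≤ v x₃ * M := by gcongr
        _ < M * M := by gcongr
    exact absurd hP this.ne
  · by_contra hne
    have hlt : v x₄ < M := lt_of_le_of_ne h4 hne
    have : v x₃ * v x₄ < M ^ 2 := by
      rw [pow_two]
      calc v x₃ * v x₄ ≤ M * v x₄ := by gcongr
        _ < M * M := by gcongr
    exact absurd hP this.ne

/-- sum `= S`, product `≤ P < S²`: one has size `S`, the other `≤ P / S` -/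
theorem sp3' {x₃ x₄ : K} {S P : Γ₀} (hS : v (x₃ + x₄) = S) (hP : v x₃ * v x₄ ≤ P)
    (h : P < S ^ 2) :
    (v x₃ = S ∧ v x₄ * S ≤ P) ∨ (v x₄ = S ∧ v x₃ * S ≤ P) := by
  rcases lt_trichotomy (v x₃) (v x₄) with hlt | heq | hgt
  · right
    have : v (x₃ + x₄) = v x₄ := Valuation.map_add_eq_of_lt_right v hlt
    rw [hS] at this
    exact ⟨this.symm, by rw [this]; exact hP⟩
  · exfalso
    have h1 : S ≤ v x₃ := by
      rw [← hS]
      exact (Valuation.map_add v x₃ x₄).trans (by rw [heq, max_self])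
    have : S ^ 2 ≤ P := by
      calc S ^ 2 = S * S := pow_two S
        _ ≤ v x₃ * v x₃ := by gcongr
        _ = v x₃ * v x₄ := by rw [heq]
        _ ≤ P := hP
    exact absurd (h.trans_le this) (lt_irrefl _)
  · left
    have : v (x₃ + x₄) = v x₃ := Valuation.map_add_eq_of_lt_left v hgt
    rw [hS] at this
    exact ⟨this.symm, by rw [this, mul_comm]; exact hP⟩

/-- sum `= S`, product `= P < S²`: one has size `S`, the other `P / S` -/
theorem sp3 {x₃ x₄ : K} {S P : Γ₀} (hS : v (x₃ + x₄) = S) (hP : v x₃ * v x₄ = P)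
    (h : P < S ^ 2) :
    (v x₃ = S ∧ v x₄ * S = P) ∨ (v x₄ = S ∧ v x₃ * S = P) := by
  rcases sp3' v hS hP.le h with ⟨h1, _⟩ | ⟨h1, _⟩
  · left; exact ⟨h1, by rw [← h1, mul_comm]; exact hP⟩
  · right; exact ⟨h1, by rw [← h1]; exact hP⟩

theorem sp4_aux {a b : K} {P : Γ₀} (hP : v a * v b = P) (h1 : 1 ≤ P) (hS : v (a + b) ≤ P) :
    1 ≤ v a := by
  by_contra hlt
  rw [not_le] at hlt
  have hP0 : P ≠ 0 := (zero_lt_one.trans_le h1).ne'
  have hb0 : v b ≠ 0 := by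
    intro h0; rw [h0, mul_zero] at hP; exact hP0 hP.symm
  have hbP : P < v b := by
    calc P = v a * v b := hP.symm
      _ < 1 * v b := by
        gcongr
        exact zero_lt_iff.mpr hb0
      _ = v b := one_mul _
  have hab : v a < v b := hlt.trans (h1.trans_lt hbP)
  rw [Valuation.map_add_eq_of_lt_right v hab] at hS
  exact absurd (hbP.trans_le hS) (lt_irrefl _)

/-- product `= P ≥ 1`, sum `≤ P`: both `≥ 1` -/
theorem sp4 {x₃ x₄ : K} {P : Γ₀} (hP : v x₃ * v x₄ = P) (h1 : 1 ≤ P) (hS : v (x₃ + x₄) ≤ P) :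
    1 ≤ v x₃ ∧ 1 ≤ v x₄ :=
  ⟨sp4_aux v hP h1 hS, sp4_aux v (by rwa [mul_comm]) h1 (by rwa [add_comm])⟩

/-- Case I: both `x₁, x₂` have size `≥ 1`. -/
theorem pair_caseI (a2 a4 : K) (h2 : v (2 : K) = 1) (ha2 : v a2 = 1)
    (ha4 : v a4 < 1) (x₁ x₂ x₃ x₄ : K) (hx : x₁ ≠ x₂)
    (hS : (x₃ + x₄) * (x₁ - x₂) ^ 2 = 2 * (x₁ * x₂ * (x₁ + x₂ + 2 * a2) + a4 * (x₁ + x₂)))
    (hP : x₃ * x₄ * (x₁ - x₂) ^ 2 = (x₁ * x₂ - a4) ^ 2)
    (hle : v x₂ ≤ v x₁) (h1 : 1 ≤ v x₂) : 1 ≤ v x₃ ∧ 1 ≤ v x₄ := by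
  set p₁ := v x₁ with hp₁
  set p₂ := v x₂ with hp₂
  set η := v a4 with hη
  set d := v (x₁ - x₂) with hd
  have hd0 : d ≠ 0 := (Valuation.ne_zero_iff v).mpr (sub_ne_zero.mpr hx)
  have hdpos : 0 < d := zero_lt_iff.mpr hd0
  have h1' : 1 ≤ p₁ := h1.trans hle
  have hS' : v (x₃ + x₄) * d ^ 2 =
      v (x₁ * x₂ * (x₁ + x₂ + 2 * a2) + a4 * (x₁ + x₂)) := by
    have := congrArg v hS
    rw [map_mul, map_pow, map_mul, h2, one_mul] at this
    exact this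
  have hP' : v x₃ * v x₄ * d ^ 2 = v (x₁ * x₂ - a4) ^ 2 := by
    have := congrArg v hP
    rw [map_mul, map_mul, map_pow, map_pow] at this
    exact this
  have hdle : d ≤ p₁ := (Valuation.map_sub v x₁ x₂).trans (max_le le_rfl hle)
  have h12 : v (x₁ * x₂) = p₁ * p₂ := map_mul v x₁ x₂
  have hX : v (x₁ * x₂ - a4) = p₁ * p₂ := by
    rw [Valuation.map_sub_eq_of_lt_left v, h12]
    rw [h12]
    calc v a4 < 1 := ha4
      _ = 1 * 1 := (one_mul 1).symm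
      _ ≤ p₁ * p₂ := by gcongr
  have h2a2 : v (2 * a2) = 1 := by rw [map_mul, h2, ha2, one_mul]
  have hsum : v (x₁ + x₂) ≤ p₁ := Valuation.map_add_le v le_rfl hle
  have hu : v (x₁ + x₂ + 2 * a2) ≤ p₁ := Valuation.map_add_le v hsum (h2a2.le.trans h1')
  have hN : v (x₁ * x₂ * (x₁ + x₂ + 2 * a2) + a4 * (x₁ + x₂)) ≤ p₁ * p₂ * p₁ := by
    apply Valuation.map_add_le
    · rw [map_mul, h12]
      gcongr
    · rw [map_mul]
      calc v a4 * v (x₁ + x₂) ≤ 1 * p₁ := by gcongr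
        _ = 1 * 1 * p₁ := by simp
        _ ≤ p₁ * p₂ * p₁ := by gcongr
  rw [hX] at hP'
  have hP1 : 1 ≤ v x₃ * v x₄ := by
    apply le_of_mul_le_mul_right _ (pow_pos hdpos 2)
    rw [hP', one_mul]
    calc d ^ 2 ≤ p₁ ^ 2 := by gcongr
      _ = (p₁ * 1) ^ 2 := by rw [mul_one]
      _ ≤ (p₁ * p₂) ^ 2 := by gcongr
  have hSP : v (x₃ + x₄) ≤ v x₃ * v x₄ := by
    apply le_of_mul_le_mul_right _ (pow_pos hdpos 2)
    rw [hP', hS']
    calc _ ≤ p₁ * p₂ * p₁ := hN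
      _ = p₁ * p₂ * (p₁ * 1) := by rw [mul_one]
      _ ≤ p₁ * p₂ * (p₁ * p₂) := by gcongr
      _ = (p₁ * p₂) ^ 2 := (pow_two _).symm
  exact sp4 v rfl hP1 hSP

/-- Case II: `v x₂ < 1 ≤ v x₁`. -/
theorem pair_caseII (a2 a4 : K) (h2 : v (2 : K) = 1) (ha2 : v a2 = 1)
    (ha4 : v a4 < 1) (x₁ x₂ x₃ x₄ : K)
    (hS : (x₃ + x₄) * (x₁ - x₂) ^ 2 = 2 * (x₁ * x₂ * (x₁ + x₂ + 2 * a2) + a4 * (x₁ + x₂)))
    (hP : x₃ * x₄ * (x₁ - x₂) ^ 2 = (x₁ * x₂ - a4) ^ 2)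
    (h1 : 1 ≤ v x₁) (h1' : v x₂ < 1) :
    (v a4 < v x₂ → v x₃ = v x₂ ∧ v x₄ = v x₂) ∧
    (v x₂ ≤ v a4 → v x₃ ≤ v a4 ∧ v x₄ ≤ v a4) := by
  set p₁ := v x₁ with hp₁
  set p₂ := v x₂ with hp₂
  set η := v a4 with hη
  have hlt : p₂ < p₁ := h1'.trans_le h1
  have hp₁pos : 0 < p₁ := zero_lt_one.trans_le h1
  have hd : v (x₁ - x₂) = p₁ := Valuation.map_sub_eq_of_lt_left v hlt
  have hS' : v (x₃ + x₄) * p₁ ^ 2 =
      v (x₁ * x₂ * (x₁ + x₂ + 2 * a2) + a4 * (x₁ + x₂)) := by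
    have := congrArg v hS
    rw [map_mul, map_pow, map_mul, h2, one_mul, hd] at this
    exact this
  have hP' : v x₃ * v x₄ * p₁ ^ 2 = v (x₁ * x₂ - a4) ^ 2 := by
    have := congrArg v hP
    rw [map_mul, map_mul, map_pow, map_pow, hd] at this
    exact this
  have h12 : v (x₁ * x₂) = p₁ * p₂ := map_mul v x₁ x₂
  have h2a2 : v (2 * a2) = 1 := by rw [map_mul, h2, ha2, one_mul]
  have hsum : v (x₁ + x₂) ≤ p₁ := Valuation.map_add_le v le_rfl hlt.le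
  have hu : v (x₁ + x₂ + 2 * a2) ≤ p₁ := Valuation.map_add_le v hsum (h2a2.le.trans h1)
  have hp₁sq : 0 < p₁ ^ 2 := pow_pos hp₁pos 2
  constructor
  · intro hηp
    have hp₂0 : p₂ ≠ 0 := (zero_le.trans_lt hηp).ne'
    have hX : v (x₁ * x₂ - a4) = p₁ * p₂ := by
      rw [Valuation.map_sub_eq_of_lt_left v, h12]
      rw [h12]
      calc v a4 < p₂ := hηp
        _ = 1 * p₂ := (one_mul _).symm
        _ ≤ p₁ * p₂ := by gcongr
    have hN : v (x₁ * x₂ * (x₁ + x₂ + 2 * a2) + a4 * (x₁ + x₂)) ≤ p₁ * p₂ * p₁ := by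
      apply Valuation.map_add_le
      · rw [map_mul, h12]
        gcongr
      · rw [map_mul]
        calc v a4 * v (x₁ + x₂) ≤ p₂ * p₁ := by gcongr
          _ = 1 * p₂ * p₁ := by rw [one_mul]
          _ ≤ p₁ * p₂ * p₁ := by gcongr
    rw [hX] at hP'
    have hP2 : v x₃ * v x₄ = p₂ ^ 2 := by
      apply mul_right_cancel₀ hp₁sq.ne'
      rw [hP']; field_simp
    have hS2 : v (x₃ + x₄) ≤ p₂ := by
      apply le_of_mul_le_mul_right _ hp₁sq
      rw [hS']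
      calc _ ≤ p₁ * p₂ * p₁ := hN
        _ = p₂ * p₁ ^ 2 := by field_simp
    exact sp1 v hp₂0 hP2 hS2
  · intro hpη
    have hX : v (x₁ * x₂ - a4) ≤ p₁ * η := by
      apply Valuation.map_sub_le
      · rw [h12]; gcongr
      · calc v a4 = 1 * η := (one_mul _).symm
          _ ≤ p₁ * η := by gcongr
    have hN : v (x₁ * x₂ * (x₁ + x₂ + 2 * a2) + a4 * (x₁ + x₂)) ≤ p₁ * η * p₁ := by
      apply Valuation.map_add_le
      · rw [map_mul, h12]
        gcongr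
      · rw [map_mul]
        calc v a4 * v (x₁ + x₂) ≤ η * p₁ := by gcongr
          _ = 1 * η * p₁ := by rw [one_mul]
          _ ≤ p₁ * η * p₁ := by gcongr
    have hP2 : v x₃ * v x₄ ≤ η ^ 2 := by
      apply le_of_mul_le_mul_right _ hp₁sq
      rw [hP']
      calc v (x₁ * x₂ - a4) ^ 2 ≤ (p₁ * η) ^ 2 := by gcongr
        _ = η ^ 2 * p₁ ^ 2 := by field_simp
    have hS2 : v (x₃ + x₄) ≤ η := by
      apply le_of_mul_le_mul_right _ hp₁sq
      rw [hS']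
      calc _ ≤ p₁ * η * p₁ := hN
        _ = η * p₁ ^ 2 := by field_simp
    exact sp2 v hP2 hS2

/-- Case III-i: `v x₂ < v x₁ < 1`. -/
theorem pair_caseIIIi (a2 a4 : K) (h2 : v (2 : K) = 1) (ha2 : v a2 = 1)
    (ha4 : v a4 < 1) (ha40 : a4 ≠ 0) (x₁ x₂ x₃ x₄ : K)
    (hS : (x₃ + x₄) * (x₁ - x₂) ^ 2 = 2 * (x₁ * x₂ * (x₁ + x₂ + 2 * a2) + a4 * (x₁ + x₂)))
    (hP : x₃ * x₄ * (x₁ - x₂) ^ 2 = (x₁ * x₂ - a4) ^ 2)
    (h1 : v x₁ < 1) (hlt : v x₂ < v x₁) :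
    (v x₂ ≤ v a4 → v x₃ * v x₁ = v a4 ∧ v x₄ * v x₁ = v a4) ∧
    (v a4 < v x₂ → v a4 < v x₁ * v x₂ →
      (v x₃ * v x₁ = v x₂ ∧ v x₄ = v x₁ * v x₂) ∨ (v x₄ * v x₁ = v x₂ ∧ v x₃ = v x₁ * v x₂)) ∧
    (v a4 < v x₂ → v x₁ * v x₂ < v a4 →
      (v x₃ * v x₁ = v x₂ ∧ v x₄ * (v x₁ * v x₂) = v a4 ^ 2) ∨
        (v x₄ * v x₁ = v x₂ ∧ v x₃ * (v x₁ * v x₂) = v a4 ^ 2)) ∧
    (v a4 < v x₂ → v x₁ * v x₂ = v a4 →
      (v x₃ * v x₁ = v x₂ ∧ v x₄ ≤ v a4) ∨ (v x₄ * v x₁ = v x₂ ∧ v x₃ ≤ v a4)) := by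
  set p₁ := v x₁ with hp₁
  set p₂ := v x₂ with hp₂
  set η := v a4 with hη
  have hη0 : η ≠ 0 := (Valuation.ne_zero_iff v).mpr ha40
  have hηpos : 0 < η := zero_lt_iff.mpr hη0
  have hp₁pos : 0 < p₁ := zero_le.trans_lt hlt
  have hp₁0 : p₁ ≠ 0 := hp₁pos.ne'
  have hd : v (x₁ - x₂) = p₁ := Valuation.map_sub_eq_of_lt_left v hlt
  have hS' : v (x₃ + x₄) * p₁ ^ 2 =
      v (x₁ * x₂ * (x₁ + x₂ + 2 * a2) + a4 * (x₁ + x₂)) := by
    have := congrArg v hS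
    rw [map_mul, map_pow, map_mul, h2, one_mul, hd] at this
    exact this
  have hP' : v x₃ * v x₄ * p₁ ^ 2 = v (x₁ * x₂ - a4) ^ 2 := by
    have := congrArg v hP
    rw [map_mul, map_mul, map_pow, map_pow, hd] at this
    exact this
  have h12 : v (x₁ * x₂) = p₁ * p₂ := map_mul v x₁ x₂
  have h2a2 : v (2 * a2) = 1 := by rw [map_mul, h2, ha2, one_mul]
  have hsum : v (x₁ + x₂) = p₁ := Valuation.map_add_eq_of_lt_left v hlt
  have hu : v (x₁ + x₂ + 2 * a2) = 1 := by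
    rw [Valuation.map_add_eq_of_lt_right v, h2a2]
    rw [h2a2, hsum]; exact h1
  have hT1 : v (x₁ * x₂ * (x₁ + x₂ + 2 * a2)) = p₁ * p₂ := by
    rw [map_mul, h12, hu, mul_one]
  have hT2 : v (a4 * (x₁ + x₂)) = η * p₁ := by rw [map_mul, hsum]
  have hp₁sq : 0 < p₁ ^ 2 := pow_pos hp₁pos 2
  refine ⟨?_, ?_, ?_, ?_⟩
  · -- `p₂ ≤ η`
    intro hpη
    have h12lt : p₁ * p₂ < η := by
      calc p₁ * p₂ ≤ p₁ * η := by gcongr
        _ < 1 * η := by gcongr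
        _ = η := one_mul _
    have hX : v (x₁ * x₂ - a4) = η := by
      rw [Valuation.map_sub_eq_of_lt_right v]
      rw [h12]; exact h12lt
    have hN : v (x₁ * x₂ * (x₁ + x₂ + 2 * a2) + a4 * (x₁ + x₂)) ≤ η * p₁ := by
      apply Valuation.map_add_le
      · rw [hT1, mul_comm]; gcongr
      · rw [hT2]
    rw [hX] at hP'
    have hM : η / p₁ ≠ 0 := div_ne_zero hη0 hp₁0
    have hP2 : v x₃ * v x₄ = (η / p₁) ^ 2 := by
      apply mul_right_cancel₀ hp₁sq.ne'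
      rw [hP']; field_simp
    have hS2 : v (x₃ + x₄) ≤ η / p₁ := by
      apply le_of_mul_le_mul_right _ hp₁sq
      rw [hS']
      calc _ ≤ η * p₁ := hN
        _ = η / p₁ * p₁ ^ 2 := by field_simp
    obtain ⟨e3, e4⟩ := sp1 v hM hP2 hS2
    rw [e3, e4]
    exact ⟨div_mul_cancel₀ _ hp₁0, div_mul_cancel₀ _ hp₁0⟩
  all_goals
    intro hηp
    have hp₂pos : 0 < p₂ := hηpos.trans hηp
    have hp₂0 : p₂ ≠ 0 := hp₂pos.ne'
    have hN : v (x₁ * x₂ * (x₁ + x₂ + 2 * a2) + a4 * (x₁ + x₂)) = p₁ * p₂ := by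
      rw [Valuation.map_add_eq_of_lt_left v, hT1]
      rw [hT1, hT2, mul_comm]
      gcongr
    rw [hN] at hS'
    have hS2 : v (x₃ + x₄) = p₂ / p₁ := by
      apply mul_right_cancel₀ hp₁sq.ne'
      rw [hS']; field_simp
    have hlt2 : p₂ < p₂ / p₁ := by
      rw [lt_div_iff₀ hp₁pos]
      calc p₂ * p₁ < p₂ * 1 := by gcongr
        _ = p₂ := mul_one _
    have hsq : p₂ ^ 2 < (p₂ / p₁) ^ 2 := by gcongr
  · -- `η < p₁ p₂`
    intro h12gt
    have hX : v (x₁ * x₂ - a4) = p₁ * p₂ := by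
      rw [Valuation.map_sub_eq_of_lt_left v, h12]
      rw [h12]; exact h12gt
    rw [hX] at hP'
    have hP2 : v x₃ * v x₄ = p₂ ^ 2 := by
      apply mul_right_cancel₀ hp₁sq.ne'
      rw [hP']; field_simp
    have fin : ∀ b : Γ₀, b * (p₂ / p₁) = p₂ ^ 2 → b = p₁ * p₂ := by
      intro b hb
      have : b * p₂ = p₁ * p₂ * p₂ := by
        calc b * p₂ = b * (p₂ / p₁) * p₁ := by field_simp
          _ = p₂ ^ 2 * p₁ := by rw [hb]
          _ = p₁ * p₂ * p₂ := by field_simp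
      exact mul_right_cancel₀ hp₂0 this
    rcases sp3 v hS2 hP2 hsq with ⟨e3, e4⟩ | ⟨e4, e3⟩
    · left
      exact ⟨by rw [e3]; exact div_mul_cancel₀ _ hp₁0, fin _ e4⟩
    · right
      exact ⟨by rw [e4]; exact div_mul_cancel₀ _ hp₁0, fin _ e3⟩
  · -- `p₁ p₂ < η`
    intro h12lt
    have hX : v (x₁ * x₂ - a4) = η := by
      rw [Valuation.map_sub_eq_of_lt_right v]
      rw [h12]; exact h12lt
    rw [hX] at hP'
    have hP2 : v x₃ * v x₄ = η ^ 2 / p₁ ^ 2 := by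
      apply mul_right_cancel₀ hp₁sq.ne'
      rw [hP']; field_simp
    have hlt3 : η ^ 2 / p₁ ^ 2 < (p₂ / p₁) ^ 2 := by
      rw [div_pow]
      apply div_lt_div_of_pos_right _ hp₁sq
      gcongr
    have fin : ∀ b : Γ₀, b * (p₂ / p₁) = η ^ 2 / p₁ ^ 2 → b * (p₁ * p₂) = η ^ 2 := by
      intro b hb
      calc b * (p₁ * p₂) = b * (p₂ / p₁) * p₁ ^ 2 := by field_simp
        _ = η ^ 2 / p₁ ^ 2 * p₁ ^ 2 := by rw [hb]
        _ = η ^ 2 := by field_simp
    rcases sp3 v hS2 hP2 hlt3 with ⟨e3, e4⟩ | ⟨e4, e3⟩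
    · left
      exact ⟨by rw [e3]; exact div_mul_cancel₀ _ hp₁0, fin _ e4⟩
    · right
      exact ⟨by rw [e4]; exact div_mul_cancel₀ _ hp₁0, fin _ e3⟩
  · -- `p₁ p₂ = η`
    intro h12eq
    have hX : v (x₁ * x₂ - a4) ≤ η := by
      apply Valuation.map_sub_le v _ le_rfl
      rw [h12, h12eq]
    have hP2 : v x₃ * v x₄ ≤ p₂ ^ 2 := by
      apply le_of_mul_le_mul_right _ hp₁sq
      rw [hP']
      calc v (x₁ * x₂ - a4) ^ 2 ≤ η ^ 2 := by gcongr
        _ = (p₁ * p₂) ^ 2 := by rw [h12eq]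
        _ = p₂ ^ 2 * p₁ ^ 2 := by field_simp
    have fin : ∀ b : Γ₀, b * (p₂ / p₁) ≤ p₂ ^ 2 → b ≤ η := by
      intro b hb
      have : b * p₂ ≤ p₁ * p₂ * p₂ := by
        calc b * p₂ = b * (p₂ / p₁) * p₁ := by field_simp
          _ ≤ p₂ ^ 2 * p₁ := by gcongr
          _ = p₁ * p₂ * p₂ := by field_simp
      rw [← h12eq]
      exact le_of_mul_le_mul_right this hp₂pos
    rcases sp3' v hS2 hP2 hsq with ⟨e3, e4⟩ | ⟨e4, e3⟩
    · left
      exact ⟨by rw [e3]; exact div_mul_cancel₀ _ hp₁0, fin _ e4⟩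
    · right
      exact ⟨by rw [e4]; exact div_mul_cancel₀ _ hp₁0, fin _ e3⟩

/-- Case III-ii: `v x₂ = v x₁ < 1`. -/
theorem pair_caseIIIii (a2 a4 : K) (h2 : v (2 : K) = 1) (ha2 : v a2 = 1)
    (ha4 : v a4 < 1) (ha40 : a4 ≠ 0) (x₁ x₂ x₃ x₄ : K) (hx : x₁ ≠ x₂)
    (hS : (x₃ + x₄) * (x₁ - x₂) ^ 2 = 2 * (x₁ * x₂ * (x₁ + x₂ + 2 * a2) + a4 * (x₁ + x₂)))
    (hP : x₃ * x₄ * (x₁ - x₂) ^ 2 = (x₁ * x₂ - a4) ^ 2)
    (h1 : v x₁ < 1) (heq : v x₂ = v x₁) :
    (v x₁ ≤ v a4 → 1 ≤ v x₃ ∧ 1 ≤ v x₄) ∧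
    (v a4 < v x₁ → v a4 < v x₁ * v x₁ →
      (1 ≤ v x₃ ∧ v x₄ = v x₁ * v x₁) ∨ (1 ≤ v x₄ ∧ v x₃ = v x₁ * v x₁)) ∧
    (v a4 < v x₁ → v x₁ * v x₁ = v a4 →
      (1 ≤ v x₃ ∧ v x₄ ≤ v a4) ∨ (1 ≤ v x₄ ∧ v x₃ ≤ v a4)) ∧
    (v a4 < v x₁ → v x₁ * v x₁ < v a4 →
      (1 ≤ v x₃ ∧ v x₄ * (v x₁ * v x₁) = v a4 ^ 2) ∨
        (1 ≤ v x₄ ∧ v x₃ * (v x₁ * v x₁) = v a4 ^ 2)) := by
  set p := v x₁ with hp
  set η := v a4 with hη
  set d := v (x₁ - x₂) with hd
  have hη0 : η ≠ 0 := (Valuation.ne_zero_iff v).mpr ha40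
  have hηpos : 0 < η := zero_lt_iff.mpr hη0
  have hd0 : d ≠ 0 := (Valuation.ne_zero_iff v).mpr (sub_ne_zero.mpr hx)
  have hdpos : 0 < d := zero_lt_iff.mpr hd0
  have hdsq : 0 < d ^ 2 := pow_pos hdpos 2
  have hdle : d ≤ p := (Valuation.map_sub v x₁ x₂).trans (max_le le_rfl heq.le)
  have hppos : 0 < p := hdpos.trans_le hdle
  have hp0 : p ≠ 0 := hppos.ne'
  have hd1 : d < 1 := hdle.trans_lt h1
  have hppsq : 0 < p ^ 2 := pow_pos hppos 2
  have hS' : v (x₃ + x₄) * d ^ 2 =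
      v (x₁ * x₂ * (x₁ + x₂ + 2 * a2) + a4 * (x₁ + x₂)) := by
    have := congrArg v hS
    rw [map_mul, map_pow, map_mul, h2, one_mul] at this
    exact this
  have hP' : v x₃ * v x₄ * d ^ 2 = v (x₁ * x₂ - a4) ^ 2 := by
    have := congrArg v hP
    rw [map_mul, map_mul, map_pow, map_pow] at this
    exact this
  have h12 : v (x₁ * x₂) = p * p := by rw [map_mul, heq]
  have h2a2 : v (2 * a2) = 1 := by rw [map_mul, h2, ha2, one_mul]
  have hsum : v (x₁ + x₂) ≤ p := Valuation.map_add_le v le_rfl heq.le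
  have hu : v (x₁ + x₂ + 2 * a2) = 1 := by
    rw [Valuation.map_add_eq_of_lt_right v, h2a2]
    rw [h2a2]; exact hsum.trans_lt h1
  have hT1 : v (x₁ * x₂ * (x₁ + x₂ + 2 * a2)) = p * p := by
    rw [map_mul, h12, hu, mul_one]
  have hT2 : v (a4 * (x₁ + x₂)) ≤ η * p := by rw [map_mul]; gcongr
  refine ⟨?_, ?_, ?_, ?_⟩
  · -- `p ≤ η`
    intro hpη
    have hpp : p * p < η := by
      calc p * p ≤ p * η := by gcongr
        _ < 1 * η := by gcongr
        _ = η := one_mul _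
    have hX : v (x₁ * x₂ - a4) = η := by
      rw [Valuation.map_sub_eq_of_lt_right v]
      rw [h12]; exact hpp
    have hN : v (x₁ * x₂ * (x₁ + x₂ + 2 * a2) + a4 * (x₁ + x₂)) ≤ η * p := by
      apply Valuation.map_add_le v _ hT2
      rw [hT1]; gcongr
    rw [hX] at hP'
    have hP1 : 1 ≤ v x₃ * v x₄ := by
      apply le_of_mul_le_mul_right _ hdsq
      rw [hP', one_mul]
      calc d ^ 2 ≤ p ^ 2 := by gcongr
        _ ≤ η ^ 2 := by gcongr
    have hSP : v (x₃ + x₄) ≤ v x₃ * v x₄ := by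
      apply le_of_mul_le_mul_right _ hdsq
      rw [hP', hS']
      calc _ ≤ η * p := hN
        _ ≤ η * η := by gcongr
        _ = η ^ 2 := (pow_two _).symm
    exact sp4 v rfl hP1 hSP
  all_goals
    intro hηp
    have hN : v (x₁ * x₂ * (x₁ + x₂ + 2 * a2) + a4 * (x₁ + x₂)) = p * p := by
      rw [Valuation.map_add_eq_of_lt_left v, hT1]
      rw [hT1]
      calc v (a4 * (x₁ + x₂)) ≤ η * p := hT2
        _ < p * p := by gcongr
    rw [hN] at hS'
    have hS2 : v (x₃ + x₄) = p * p / d ^ 2 := by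
      apply mul_right_cancel₀ hdsq.ne'
      rw [hS']; field_simp
    have hS1 : 1 ≤ p * p / d ^ 2 := by
      rw [one_le_div₀ hdsq, pow_two]
      gcongr
    have hSpos : 0 < p * p / d ^ 2 := zero_lt_one.trans_le hS1
    -- `S² d² < S²`
    have hlt2 : (p * p) ^ 2 / d ^ 2 < (p * p / d ^ 2) ^ 2 := by
      have e : (p * p) ^ 2 / d ^ 2 = (p * p / d ^ 2) ^ 2 * d ^ 2 := by field_simp
      rw [e]
      calc (p * p / d ^ 2) ^ 2 * d ^ 2 < (p * p / d ^ 2) ^ 2 * 1 :=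
            mul_lt_mul_of_pos_left (pow_lt_one₀ zero_le hd1 two_ne_zero) (pow_pos hSpos 2)
        _ = _ := mul_one _
  · -- `η < p²`
    intro hgt
    have hX : v (x₁ * x₂ - a4) = p * p := by
      rw [Valuation.map_sub_eq_of_lt_left v, h12]
      rw [h12]; exact hgt
    rw [hX] at hP'
    have hP2 : v x₃ * v x₄ = (p * p) ^ 2 / d ^ 2 := by
      apply mul_right_cancel₀ hdsq.ne'
      rw [hP']; field_simp
    have fin : ∀ b : Γ₀, b * (p * p / d ^ 2) = (p * p) ^ 2 / d ^ 2 → b = p * p := by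
      intro b hb
      have : b * (p * p) = p * p * (p * p) := by
        calc b * (p * p) = b * (p * p / d ^ 2) * d ^ 2 := by field_simp
          _ = (p * p) ^ 2 / d ^ 2 * d ^ 2 := by rw [hb]
          _ = p * p * (p * p) := by field_simp
      exact mul_right_cancel₀ (mul_ne_zero hp0 hp0) this
    rcases sp3 v hS2 hP2 hlt2 with ⟨e3, e4⟩ | ⟨e4, e3⟩
    · left; exact ⟨by rw [e3]; exact hS1, fin _ e4⟩
    · right; exact ⟨by rw [e4]; exact hS1, fin _ e3⟩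
  · -- `p² = η`
    intro heq2
    have hX : v (x₁ * x₂ - a4) ≤ p * p := by
      apply Valuation.map_sub_le v h12.le
      rw [heq2]
    have hP2 : v x₃ * v x₄ ≤ (p * p) ^ 2 / d ^ 2 := by
      rw [le_div_iff₀ hdsq, hP']
      gcongr
    have fin : ∀ b : Γ₀, b * (p * p / d ^ 2) ≤ (p * p) ^ 2 / d ^ 2 → b ≤ η := by
      intro b hb
      have : b * (p * p) ≤ p * p * (p * p) := by
        calc b * (p * p) = b * (p * p / d ^ 2) * d ^ 2 := by field_simp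
          _ ≤ (p * p) ^ 2 / d ^ 2 * d ^ 2 := by gcongr
          _ = p * p * (p * p) := by field_simp
      rw [← heq2]
      exact le_of_mul_le_mul_right this (mul_pos hppos hppos)
    rcases sp3' v hS2 hP2 hlt2 with ⟨e3, e4⟩ | ⟨e4, e3⟩
    · left; exact ⟨by rw [e3]; exact hS1, fin _ e4⟩
    · right; exact ⟨by rw [e4]; exact hS1, fin _ e3⟩
  · -- `p² < η`
    intro hlt
    have hX : v (x₁ * x₂ - a4) = η := by
      rw [Valuation.map_sub_eq_of_lt_right v]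
      rw [h12]; exact hlt
    rw [hX] at hP'
    have hP2 : v x₃ * v x₄ = η ^ 2 / d ^ 2 := by
      apply mul_right_cancel₀ hdsq.ne'
      rw [hP']; field_simp
    have hlt3 : η ^ 2 / d ^ 2 < (p * p / d ^ 2) ^ 2 := by
      have e : (p * p / d ^ 2) ^ 2 = (p * p) ^ 2 / d ^ 2 / d ^ 2 := by field_simp
      rw [e, lt_div_iff₀ hdsq, div_mul_cancel₀ _ hdsq.ne', lt_div_iff₀ hdsq]
      calc η ^ 2 * d ^ 2 ≤ η ^ 2 * p ^ 2 := by gcongr
        _ < p ^ 2 * p ^ 2 := by gcongr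
        _ = (p * p) ^ 2 := by field_simp
    have fin : ∀ b : Γ₀, b * (p * p / d ^ 2) = η ^ 2 / d ^ 2 → b * (p * p) = η ^ 2 := by
      intro b hb
      calc b * (p * p) = b * (p * p / d ^ 2) * d ^ 2 := by field_simp
        _ = η ^ 2 / d ^ 2 * d ^ 2 := by rw [hb]
        _ = η ^ 2 := by field_simp
    rcases sp3 v hS2 hP2 hlt3 with ⟨e3, e4⟩ | ⟨e4, e3⟩
    · left; exact ⟨by rw [e3]; exact hS1, fin _ e4⟩
    · right; exact ⟨by rw [e4]; exact hS1, fin _ e3⟩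


/-! ## Assembly -/

section assembly
variable {K : Type*} [Field K] (A : ValuationSubring K)

theorem sz_eq_szv (η : A.ValueGroup) (x : K) : sz A η x = szv η (A.valuation x) := rfl

/-- the pair lemma, assuming `v x₂ ≤ v x₁` -/
theorem pair_val_aux (a2 a4 : K) (h2 : A.valuation (2 : K) = 1) (ha2 : A.valuation a2 = 1)
    (ha4 : A.valuation a4 < 1) (ha40 : a4 ≠ 0) (x₁ x₂ x₃ x₄ : K) (hx : x₁ ≠ x₂)
    (hS : (x₃ + x₄) * (x₁ - x₂) ^ 2 = 2 * (x₁ * x₂ * (x₁ + x₂ + 2 * a2) + a4 * (x₁ + x₂)))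
    (hP : x₃ * x₄ * (x₁ - x₂) ^ 2 = (x₁ * x₂ - a4) ^ 2)
    (hle : A.valuation x₂ ≤ A.valuation x₁) :
    (sz A (A.valuation a4) x₃ = min (sz A (A.valuation a4) x₁ / sz A (A.valuation a4) x₂)
          (sz A (A.valuation a4) x₂ / sz A (A.valuation a4) x₁) ∧
      sz A (A.valuation a4) x₄ =
        rfl2 (A.valuation a4) (sz A (A.valuation a4) x₁ * sz A (A.valuation a4) x₂)) ∨
    (sz A (A.valuation a4) x₄ = min (sz A (A.valuation a4) x₁ / sz A (A.valuation a4) x₂)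
          (sz A (A.valuation a4) x₂ / sz A (A.valuation a4) x₁) ∧
      sz A (A.valuation a4) x₃ =
        rfl2 (A.valuation a4) (sz A (A.valuation a4) x₁ * sz A (A.valuation a4) x₂)) := by
  simp only [sz_eq_szv]
  set v := A.valuation with hv
  set p₁ := v x₁ with hp₁
  set p₂ := v x₂ with hp₂
  set η := v a4 with hη
  have hη0 : η ≠ 0 := (Valuation.ne_zero_iff v).mpr ha40
  have hηpos : 0 < η := zero_lt_iff.mpr hη0
  have hη1 : η ≤ 1 := ha4.le
  have hηη : η * η < η := by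
    calc η * η < 1 * η := by gcongr
      _ = η := one_mul _
  rcases le_or_gt 1 p₂ with h1 | h1
  · -- Case I
    obtain ⟨e3, e4⟩ := pair_caseI v a2 a4 h2 ha2 ha4 x₁ x₂ x₃ x₄ hx hS hP hle h1
    left
    rw [szv_of_one_le e3, szv_of_one_le e4, szv_of_one_le (h1.trans hle), szv_of_one_le h1,
      div_one, min_self, mul_one, rfl2_of_le hη1]
    exact ⟨rfl, rfl⟩
  rcases le_or_gt 1 p₁ with h1' | h1'
  · -- Case II
    obtain ⟨ca, cb⟩ := pair_caseII v a2 a4 h2 ha2 ha4 x₁ x₂ x₃ x₄ hS hP h1' h1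
    left
    rw [szv_of_one_le h1']
    rcases lt_or_ge η p₂ with hηp | hpη
    · obtain ⟨e3, e4⟩ := ca hηp
      have hp₂0 : p₂ ≠ 0 := (hηpos.trans hηp).ne'
      rw [e3, e4, szv_of_mid hηp.le h1.le, min_div_div h1.le hp₂0, div_one, one_mul,
        rfl2_of_le hηp.le]
      exact ⟨rfl, rfl⟩
    · obtain ⟨e3, e4⟩ := cb hpη
      rw [szv_of_le hη1 e3, szv_of_le hη1 e4, szv_of_le hη1 hpη, min_div_div hη1 hη0, div_one,
        one_mul, rfl2_of_le le_rfl]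
      exact ⟨rfl, rfl⟩
  -- Case III
  have hp₁pos : 0 < p₁ := by
    rcases eq_or_ne p₁ 0 with h0 | h0
    · exfalso
      have hx1 : x₁ = 0 := (Valuation.zero_iff v).mp h0
      have hx2 : x₂ = 0 := by
        apply (Valuation.zero_iff v).mp
        exact le_antisymm (by rw [← h0]; exact hle) zero_le
      exact hx (hx1.trans hx2.symm)
    · exact zero_lt_iff.mpr h0
  have hp₁0 : p₁ ≠ 0 := hp₁pos.ne'
  rcases lt_or_eq_of_le hle with hlt | heq
  · -- Case III-i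
    obtain ⟨ca, cb, cc, cd⟩ := pair_caseIIIi v a2 a4 h2 ha2 ha4 ha40 x₁ x₂ x₃ x₄ hS hP h1' hlt
    rcases le_or_gt p₂ η with hpη | hηp
    · obtain ⟨e3, e4⟩ := ca hpη
      left
      rw [szv_of_le hη1 hpη]
      have key : ∀ a : A.ValueGroup, a * p₁ = η →
          szv η a = min (szv η p₁ / η) (η / szv η p₁) ∧ szv η a = rfl2 η (szv η p₁ * η) := by
        intro a ha
        have hηa : η ≤ a := by
          calc η = a * p₁ := ha.symm
            _ ≤ a * 1 := by gcongr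
            _ = a := mul_one _
        rcases le_or_gt η p₁ with hηp₁ | hp₁η
        · have ha1 : a ≤ 1 := by
            apply le_of_mul_le_mul_right _ hp₁pos
            rw [ha, one_mul]; exact hηp₁
          have hae : a = η / p₁ := eq_div_of_mul_eq hp₁0 ha
          have hlt' : p₁ * η < η := by
            calc p₁ * η < 1 * η := by gcongr
              _ = η := one_mul _
          rw [szv_of_mid hηa ha1, szv_of_mid hηp₁ h1'.le, min_div_div hηp₁ hη0, rfl2_of_lt hlt', hae]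
          refine ⟨rfl, ?_⟩
          field_simp
        · have ha1 : 1 ≤ a := by
            apply le_of_mul_le_mul_right _ hp₁pos
            rw [ha, one_mul]; exact hp₁η.le
          rw [szv_of_one_le ha1, szv_of_le hη1 hp₁η.le, div_self hη0, min_self, rfl2_of_lt hηη]
          refine ⟨rfl, ?_⟩
          field_simp
      exact ⟨(key _ e3).1, (key _ e4).2⟩
    · have hp₂pos : 0 < p₂ := hηpos.trans hηp
      have hp₂0 : p₂ ≠ 0 := hp₂pos.ne'
      have hηp₁ : η < p₁ := hηp.trans hlt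
      have h12le : p₁ * p₂ ≤ 1 := by
        calc p₁ * p₂ ≤ 1 * 1 := by gcongr
          _ = 1 := one_mul _
      rw [szv_of_mid hηp₁.le h1'.le, szv_of_mid hηp.le h1.le, min_div_div hlt.le hp₂0]
      -- the point of size `p₂ / p₁`
      have keyA : ∀ a : A.ValueGroup, a * p₁ = p₂ → szv η a = p₂ / p₁ := by
        intro a ha
        have hηa : η ≤ a := by
          calc η ≤ p₂ := hηp.le
            _ = a * p₁ := ha.symm
            _ ≤ a * 1 := by gcongr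
            _ = a := mul_one _
        have ha1 : a ≤ 1 := by
          apply le_of_mul_le_mul_right _ hp₁pos
          rw [ha, one_mul]; exact hlt.le
        rw [szv_of_mid hηa ha1]
        exact eq_div_of_mul_eq hp₁0 ha
      rcases lt_trichotomy η (p₁ * p₂) with hgt | heq' | hlt'
      · have keyB : ∀ b : A.ValueGroup, b = p₁ * p₂ → szv η b = rfl2 η (p₁ * p₂) := by
          intro b hb
          rw [hb, szv_of_mid hgt.le h12le, rfl2_of_le hgt.le]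
        rcases cb hηp hgt with ⟨e3, e4⟩ | ⟨e4, e3⟩
        · left; exact ⟨keyA _ e3, keyB _ e4⟩
        · right; exact ⟨keyA _ e4, keyB _ e3⟩
      · have keyB : ∀ b : A.ValueGroup, b ≤ η → szv η b = rfl2 η (p₁ * p₂) := by
          intro b hb
          rw [szv_of_le hη1 hb, rfl2_of_le heq'.le, heq']
        rcases cd hηp heq'.symm with ⟨e3, e4⟩ | ⟨e4, e3⟩
        · left; exact ⟨keyA _ e3, keyB _ e4⟩
        · right; exact ⟨keyA _ e4, keyB _ e3⟩
      · have h12pos : 0 < p₁ * p₂ := mul_pos hp₁pos hp₂pos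
        have keyB : ∀ b : A.ValueGroup, b * (p₁ * p₂) = η ^ 2 → szv η b = rfl2 η (p₁ * p₂) := by
          intro b hb
          have hηb : η ≤ b := by
            apply le_of_mul_le_mul_right _ h12pos
            rw [hb, pow_two]
            gcongr
          have hb1 : b ≤ 1 := by
            apply le_of_mul_le_mul_right _ h12pos
            rw [hb, one_mul, pow_two]
            gcongr
          rw [szv_of_mid hηb hb1, rfl2_of_lt hlt']
          exact eq_div_of_mul_eq h12pos.ne' hb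
        rcases cc hηp hlt' with ⟨e3, e4⟩ | ⟨e4, e3⟩
        · left; exact ⟨keyA _ e3, keyB _ e4⟩
        · right; exact ⟨keyA _ e4, keyB _ e3⟩
  · -- Case III-ii
    obtain ⟨ca, cb, cc, cd⟩ :=
      pair_caseIIIii v a2 a4 h2 ha2 ha4 ha40 x₁ x₂ x₃ x₄ hx hS hP h1' heq
    rw [show p₂ = p₁ from heq]
    have hs0 : szv η p₁ ≠ 0 := by
      have : η ≤ szv η p₁ := le_min hη1 (le_max_right _ _)
      exact (hηpos.trans_le this).ne'
    rw [div_self hs0, min_self]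
    rcases le_or_gt p₁ η with hpη | hηp
    · obtain ⟨e3, e4⟩ := ca hpη
      left
      rw [szv_of_one_le e3, szv_of_one_le e4, szv_of_le hη1 hpη, rfl2_of_lt hηη]
      refine ⟨rfl, ?_⟩
      field_simp
    · rw [szv_of_mid hηp.le h1'.le]
      have hpp1 : p₁ * p₁ ≤ 1 := by
        calc p₁ * p₁ ≤ 1 * 1 := by gcongr
          _ = 1 := one_mul _
      rcases lt_trichotomy η (p₁ * p₁) with hgt | heq' | hlt'
      · have keyB : ∀ b : A.ValueGroup, b = p₁ * p₁ → szv η b = rfl2 η (p₁ * p₁) := by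
          intro b hb
          rw [hb, szv_of_mid hgt.le hpp1, rfl2_of_le hgt.le]
        rcases cb hηp hgt with ⟨e3, e4⟩ | ⟨e4, e3⟩
        · left; exact ⟨szv_of_one_le e3, keyB _ e4⟩
        · right; exact ⟨szv_of_one_le e4, keyB _ e3⟩
      · have keyB : ∀ b : A.ValueGroup, b ≤ η → szv η b = rfl2 η (p₁ * p₁) := by
          intro b hb
          rw [szv_of_le hη1 hb, rfl2_of_le heq'.le, heq']
        rcases cc hηp heq'.symm with ⟨e3, e4⟩ | ⟨e4, e3⟩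
        · left; exact ⟨szv_of_one_le e3, keyB _ e4⟩
        · right; exact ⟨szv_of_one_le e4, keyB _ e3⟩
      · have hpppos : 0 < p₁ * p₁ := mul_pos hp₁pos hp₁pos
        have keyB : ∀ b : A.ValueGroup, b * (p₁ * p₁) = η ^ 2 → szv η b = rfl2 η (p₁ * p₁) := by
          intro b hb
          have hηb : η ≤ b := by
            apply le_of_mul_le_mul_right _ hpppos
            rw [hb, pow_two]
            gcongr
          have hb1 : b ≤ 1 := by
            apply le_of_mul_le_mul_right _ hpppos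
            rw [hb, one_mul, pow_two]
            gcongr
          rw [szv_of_mid hηb hb1, rfl2_of_lt hlt']
          exact eq_div_of_mul_eq hpppos.ne' hb
        rcases cd hηp hlt' with ⟨e3, e4⟩ | ⟨e4, e3⟩
        · left; exact ⟨szv_of_one_le e3, keyB _ e4⟩
        · right; exact ⟨szv_of_one_le e4, keyB _ e3⟩

/-- **The pair lemma** (`Spec.pair_val`). `x₃, x₄` are the `x`-coordinates of `P ± Q`. -/
theorem pair_val (a2 a4 : K) (h2 : A.valuation (2 : K) = 1) (ha2 : A.valuation a2 = 1)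
    (ha4 : A.valuation a4 < 1) (ha40 : a4 ≠ 0) (x₁ x₂ x₃ x₄ : K) (hx : x₁ ≠ x₂)
    (hS : (x₃ + x₄) * (x₁ - x₂) ^ 2 = 2 * (x₁ * x₂ * (x₁ + x₂ + 2 * a2) + a4 * (x₁ + x₂)))
    (hP : x₃ * x₄ * (x₁ - x₂) ^ 2 = (x₁ * x₂ - a4) ^ 2) :
    (sz A (A.valuation a4) x₃ = min (sz A (A.valuation a4) x₁ / sz A (A.valuation a4) x₂)
          (sz A (A.valuation a4) x₂ / sz A (A.valuation a4) x₁) ∧
      sz A (A.valuation a4) x₄ =
        rfl2 (A.valuation a4) (sz A (A.valuation a4) x₁ * sz A (A.valuation a4) x₂)) ∨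
    (sz A (A.valuation a4) x₄ = min (sz A (A.valuation a4) x₁ / sz A (A.valuation a4) x₂)
          (sz A (A.valuation a4) x₂ / sz A (A.valuation a4) x₁) ∧
      sz A (A.valuation a4) x₃ =
        rfl2 (A.valuation a4) (sz A (A.valuation a4) x₁ * sz A (A.valuation a4) x₂)) := by
  rcases le_total (A.valuation x₂) (A.valuation x₁) with hle | hle
  · exact pair_val_aux A a2 a4 h2 ha2 ha4 ha40 x₁ x₂ x₃ x₄ hx hS hP hle
  · have hS' : (x₃ + x₄) * (x₂ - x₁) ^ 2 =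
        2 * (x₂ * x₁ * (x₂ + x₁ + 2 * a2) + a4 * (x₂ + x₁)) := by linear_combination hS
    have hP' : x₃ * x₄ * (x₂ - x₁) ^ 2 = (x₂ * x₁ - a4) ^ 2 := by linear_combination hP
    have := pair_val_aux A a2 a4 h2 ha2 ha4 ha40 x₂ x₁ x₃ x₄ hx.symm hS' hP' hle
    rw [min_comm, mul_comm (sz A (A.valuation a4) x₂)] at this
    exact this

end assembly

end Fermat.Agent.S05x.PVB
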