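import Fermat.Agent.S05x.Defs
import Fermat.Statements.S05

/-! S05 project: INTERFACE SPEC. Every statement below is a stub with `sorry`; the real proofs live in
the module files listed in table `s05` (namespace `Fermat.Agent.S05x`, same names without `Spec`).
This file is never imported by the final `S05.lean`. -/

set_option autoImplicit false
open WeierstrassCurve WeierstrassCurve.Affine WeierstrassCurve.Affine.Point

namespace Fermat.Agent.S05x.Spec

variable {K : Type*} [Field K]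

/-! ## M2_IDENT (file Ident.lean): group-law identities for `Y² = X³ + a₂X² + a₄X`; no valuations -/
section Ident
variable {W : WeierstrassCurve K}

theorem w2_equation_iff (hW : IsW2 W) (x y : K) :
    W.toAffine.Equation x y ↔ y ^ 2 = x ^ 3 + W.a₂ * x ^ 2 + W.a₄ * x := sorry

theorem w2_negY (hW : IsW2 W) (x y : K) : W.toAffine.negY x y = -y := sorry

variable [DecidableEq K]

theorem w2_neg_some (hW : IsW2 W) {x y : K} (h : W.toAffine.Nonsingular x y) :
    ∃ h' : W.toAffine.Nonsingular x (-y), -(Point.some x y h) = Point.some x (-y) h' := sorry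

/-- two affine points with the same `x` are equal or opposite -/
theorem w2_same_x (hW : IsW2 W) {x y₁ y₂ : K} (h₁ : W.toAffine.Nonsingular x y₁)
    (h₂ : W.toAffine.Nonsingular x y₂) : y₂ = y₁ ∨ y₂ = -y₁ := sorry

theorem w2_add_self_of_y_eq_zero (hW : IsW2 W) {x y : K} (h : W.toAffine.Nonsingular x y)
    (hy : y = 0) : Point.some x y h + Point.some x y h = 0 := sorry

/-- duplication formula -/
theorem w2_double (hW : IsW2 W) (h2 : (2 : K) ≠ 0) {x y : K} (h : W.toAffine.Nonsingular x y)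
    (hy : y ≠ 0) :
    ∃ (x' y' : K) (h' : W.toAffine.Nonsingular x' y'),
      Point.some x y h + Point.some x y h = Point.some x' y' h' ∧
      x' * (4 * y ^ 2) = (x ^ 2 - W.a₄) ^ 2 := sorry

/-- sum and difference of two affine points with distinct `x`-coordinates -/
theorem w2_add_sub (hW : IsW2 W) {x₁ y₁ x₂ y₂ : K} (h₁ : W.toAffine.Nonsingular x₁ y₁)
    (h₂ : W.toAffine.Nonsingular x₂ y₂) (hx : x₁ ≠ x₂) :
    ∃ (x₃ y₃ : K) (h₃ : W.toAffine.Nonsingular x₃ y₃) (x₄ y₄ : K)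
      (h₄ : W.toAffine.Nonsingular x₄ y₄),
      Point.some x₁ y₁ h₁ + Point.some x₂ y₂ h₂ = Point.some x₃ y₃ h₃ ∧
      Point.some x₁ y₁ h₁ - Point.some x₂ y₂ h₂ = Point.some x₄ y₄ h₄ ∧
      (x₃ + x₄) * (x₁ - x₂) ^ 2 = 2 * (x₁ * x₂ * (x₁ + x₂ + 2 * W.a₂) + W.a₄ * (x₁ + x₂)) ∧
      x₃ * x₄ * (x₁ - x₂) ^ 2 = (x₁ * x₂ - W.a₄) ^ 2 ∧
      x₄ * (x₁ - x₂) ^ 2 = x₁ * x₂ * (x₁ + x₂ + 2 * W.a₂) + W.a₄ * (x₁ + x₂) + 2 * y₁ * y₂ ∧
      x₄ = ((y₁ + y₂) / (x₁ - x₂)) ^ 2 - W.a₂ - x₁ - x₂ := sorry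

end Ident

/-! ## M3_FORMAL (file Formal.lean): torsion of odd prime order prime to the residue characteristic
has integral `x`-coordinate (the kernel of reduction has no such torsion) -/
section Formal
variable [DecidableEq K] (A : ValuationSubring K) {W : WeierstrassCurve K}

theorem torsion_x_integral (H : LocHyp A W) {n : ℕ} (hn : n.Prime) (hn2 : n ≠ 2)
    (hnv : A.valuation (n : K) = 1) {x y : K} (h : W.toAffine.Nonsingular x y)
    (hP : n • Point.some x y h = 0) : A.valuation x ≤ 1 := sorry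

end Formal

/-! ## M4_PAIRVAL (file PairVal.lean): pure valuation lemmas, no elliptic curves -/
section PairVal
variable (A : ValuationSubring K)

/-- The pair lemma.  `x₃, x₄` are the `x`-coordinates of `P ± Q`. -/
theorem pair_val (a2 a4 : K) (h2 : A.valuation (2 : K) = 1) (ha2 : A.valuation a2 = 1)
    (ha4 : A.valuation a4 < 1) (ha40 : a4 ≠ 0) (x₁ x₂ x₃ x₄ : K) (hx : x₁ ≠ x₂)
    (hS : (x₃ + x₄) * (x₁ - x₂) ^ 2 = 2 * (x₁ * x₂ * (x₁ + x₂ + 2 * a2) + a4 * (x₁ + x₂)))
    (hP : x₃ * x₄ * (x₁ - x₂) ^ 2 = (x₁ * x₂ - a4) ^ 2) :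
    (sz A (A.valuation a4) x₃ = min (sz A (A.valuation a4) x₁ / sz A (A.valuation a4) x₂)
          (sz A (A.valuation a4) x₂ / sz A (A.valuation a4) x₁) ∧
      sz A (A.valuation a4) x₄ =
        rfl2 (A.valuation a4) (sz A (A.valuation a4) x₁ * sz A (A.valuation a4) x₂)) ∨
    (sz A (A.valuation a4) x₄ = min (sz A (A.valuation a4) x₁ / sz A (A.valuation a4) x₂)
          (sz A (A.valuation a4) x₂ / sz A (A.valuation a4) x₁) ∧
      sz A (A.valuation a4) x₃ =
        rfl2 (A.valuation a4) (sz A (A.valuation a4) x₁ * sz A (A.valuation a4) x₂)) := sorry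

/-- The doubling lemma. `x'` is the `x`-coordinate of `2P`. -/
theorem dbl_val (a2 a4 : K) (h2 : A.valuation (2 : K) = 1) (ha2 : A.valuation a2 = 1)
    (ha4 : A.valuation a4 < 1) (ha40 : a4 ≠ 0) (x y x' : K)
    (hxy : y ^ 2 = x ^ 3 + a2 * x ^ 2 + a4 * x) (hy : y ≠ 0)
    (hd : x' * (4 * y ^ 2) = (x ^ 2 - a4) ^ 2) :
    sz A (A.valuation a4) x' =
      rfl2 (A.valuation a4) (sz A (A.valuation a4) x * sz A (A.valuation a4) x) := sorry

end PairVal

/-! ## M5_PAIRPT (file PairPt.lean): the pair lemma for points; M6_SAW (file Sawtooth.lean) -/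
section PairPt
variable [DecidableEq K] (A : ValuationSubring K) {W : WeierstrassCurve K}

theorem pair_pt (H : NodeHyp A W) (P Q : W.toAffine.Point) :
    (psz A W (P + Q) = min (psz A W P / psz A W Q) (psz A W Q / psz A W P) ∧
      psz A W (P - Q) = rfl2 (A.valuation W.a₄) (psz A W P * psz A W Q)) ∨
    (psz A W (P - Q) = min (psz A W P / psz A W Q) (psz A W Q / psz A W P) ∧
      psz A W (P + Q) = rfl2 (A.valuation W.a₄) (psz A W P * psz A W Q)) := sorry

/-- sawtooth consequence: for an `n`-torsion point, `psz P ^ n` is an even power of `v(a₄)` -/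
theorem psz_pow_mem (H : NodeHyp A W) (P : W.toAffine.Point) (n : ℕ) (hP : n • P = 0) :
    ∃ m : ℤ, psz A W P ^ n = A.valuation W.a₄ ^ (2 * m) := sorry

end PairPt

/-! ## M7_NODE (file Node.lean), M8_SMOOTH (file Smooth.lean), M9_LOCAL (file LocalMain.lean) -/
section Local
variable [DecidableEq K] (A : ValuationSubring K) {W : WeierstrassCurve K}

/-- points reducing to the node -/
theorem node_fixed (H : NodeHyp A W) (τ : K →+* K)
    (hτ : ∀ a : K, A.valuation a ≤ 1 → A.valuation (τ a - a) < 1)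
    {n : ℕ} (hn : n.Prime) (hn2 : n ≠ 2) (hnv : A.valuation (n : K) = 1)
    (c : K) (hc : τ c = c) (hca : A.valuation W.a₄ = A.valuation c ^ n)
    (β : K) (hβ : β ^ 2 = W.a₂)
    {x y : K} (h : W.toAffine.Nonsingular x y) (h' : W.toAffine.Nonsingular (τ x) (τ y))
    (hP : n • Point.some x y h = 0) (hQ : n • Point.some (τ x) (τ y) h' = 0)
    (hx : A.valuation x < 1) : τ x = x ∧ τ y = y := sorry

/-- points with nonsingular reduction -/
theorem smooth_fixed (H : LocHyp A W) {n : ℕ} (hn : n.Prime) (hn2 : n ≠ 2)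
    (hnv : A.valuation (n : K) = 1)
    {x y x' y' : K} (h : W.toAffine.Nonsingular x y) (h' : W.toAffine.Nonsingular x' y')
    (hP : n • Point.some x y h = 0) (hQ : n • Point.some x' y' h' = 0)
    (hx : A.valuation x ≤ 1) (hxx : A.valuation (x' - x) < 1) (hyy : A.valuation (y' - y) < 1)
    (hns : A.valuation y = 1 ∨ A.valuation (3 * x ^ 2 + 2 * W.a₂ * x + W.a₄) = 1) :
    x' = x ∧ y' = y := sorry

/-- the local main theorem -/
theorem local_main (H : LocHyp A W) (τ : K →+* K)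
    (hτ : ∀ a : K, A.valuation a ≤ 1 → A.valuation (τ a - a) < 1)
    {n : ℕ} (hn : n.Prime) (hn2 : n ≠ 2) (hnv : A.valuation (n : K) = 1)
    (hred : A.valuation (W.a₄ ^ 2 * (W.a₂ ^ 2 - 4 * W.a₄)) = 1 ∨
      (NodeHyp A W ∧ (∃ c : K, τ c = c ∧ A.valuation W.a₄ = A.valuation c ^ n) ∧
        ∃ β : K, β ^ 2 = W.a₂))
    {x y : K} (h : W.toAffine.Nonsingular x y) (h' : W.toAffine.Nonsingular (τ x) (τ y))
    (hP : n • Point.some x y h = 0) (hQ : n • Point.some (τ x) (τ y) h' = 0) :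
    τ x = x ∧ τ y = y := sorry

end Local

/-! ## M0_INERTIA (file Inertia.lean): unpacking the inertia hypothesis -/
section Inertia

abbrev Qbar := AlgebraicClosure ℚ

theorem inertia_facts (A : ValuationSubring Qbar) (σ : Qbar ≃ₐ[ℚ] Qbar)
    (hσ : σ ∈ A.inertiaSubgroupIn ℚ) :
    ∀ a : Qbar, A.valuation a ≤ 1 → A.valuation (σ a - a) < 1 := sorry

theorem val_int_le_one (A : ValuationSubring Qbar) (z : ℤ) : A.valuation (z : Qbar) ≤ 1 := sorry

theorem val_int_eq_one_iff (A : ValuationSubring Qbar) {q : ℕ} (hq : q.Prime)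
    (hA : A.LiesOverPrime q) (z : ℤ) : A.valuation (z : Qbar) = 1 ↔ ¬ (q : ℤ) ∣ z := sorry

end Inertia

end Fermat.Agent.S05x.Spec
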